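import Fermat.Agent.HeckeJacobian.FieldInputs
import Fermat.Prelude.Def_ModularCurve_HeckeModule
import Fermat.Prelude.Thm_ModularCurve_coeffMap_qExpand
import Mathlib.RingTheory.Norm.Basic

/-!
# Commutation of Hecke correspondences

The Hecke correspondences on `J₀(N)(ℚ̄)` commute with one another
(`heckeOperatorsCommuteBar`) and with the Galois action (`smulCommClass_heckeModuleBar`).
-/

set_option autoImplicit false

noncomputable section

open AlgebraicCurve ModularCurve

namespace FLTAgent.HeckeJacobian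

local notation "Qbar" => AlgebraicClosure ℚ

theorem qExpand_mem_bar {N M d : ℕ} [NeZero N] [NeZero M] [NeZero d] (h : N * d ∣ M)
    (x : modularFunctionFieldBar N) :
    qExpand Qbar d (x : LaurentSeries Qbar) ∈ modularFunctionFieldBar M := by
  have h1 := (heckeBetaBar Qbar N d x).2
  have h2 : modularFunctionFieldBar (N * d) ≤ modularFunctionFieldBar M := by
    show laurentBaseChange Qbar (modularFunctionFieldFull (N * d)) ≤
      laurentBaseChange Qbar (modularFunctionFieldFull M)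
    rw [laurentBaseChange, IntermediateField.adjoin_le_iff]
    rintro _ ⟨y, hy, rfl⟩
    exact coeffEmb_mem_laurentBaseChange Qbar (full_degeneracy_le h hy)
  simpa using h2 h1

/-- The map `f(τ) ↦ f(dτ)` from level `N` to level `M`. -/
def scaled {N M d : ℕ} [NeZero N] [NeZero M] [NeZero d] (h : N * d ∣ M) :
    modularFunctionFieldBar N →ₐ[Qbar] modularFunctionFieldBar M where
  toFun x := ⟨qExpand Qbar d (x : LaurentSeries Qbar), qExpand_mem_bar h x⟩
  map_one' := Subtype.ext (map_one (qExpand Qbar d))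
  map_mul' _ _ := Subtype.ext (map_mul (qExpand Qbar d) _ _)
  map_zero' := Subtype.ext (map_zero (qExpand Qbar d))
  map_add' _ _ := Subtype.ext (map_add (qExpand Qbar d) _ _)
  commutes' a := Subtype.ext <| by
    show qExpand Qbar d (algebraMap Qbar (LaurentSeries Qbar) a) = algebraMap Qbar _ a
    rw [algebraMap_laurentSeries_eq_single, qExpand_single, mul_zero]

@[simp] theorem coe_scaled {N M d : ℕ} [NeZero N] [NeZero M] [NeZero d] (h : N * d ∣ M)
    (x : modularFunctionFieldBar N) :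
    (scaled h x : LaurentSeries Qbar) = qExpand Qbar d (x : LaurentSeries Qbar) := rfl

theorem scaled_congr {N M d d' : ℕ} [NeZero N] [NeZero M] [NeZero d] [NeZero d'] (e : d = d')
    (h : N * d ∣ M) (h' : N * d' ∣ M) : scaled h = scaled h' :=
  AlgHom.ext fun _ => Subtype.ext (qExpand_congr e _)

/-- The second degeneracy map is `q ↦ q ^ ℓ` on expansions. -/
theorem heckeBetaBar_eq (N ℓ : ℕ) [NeZero N] [NeZero ℓ] :
    heckeBetaBar Qbar N ℓ = scaled (dvd_refl (N * ℓ)) :=
  AlgHom.ext fun _ => Subtype.ext rfl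

/-- The first degeneracy map is the inclusion of expansions. -/
theorem heckeAlphaBar_eq (N ℓ : ℕ) [NeZero N] [NeZero ℓ] :
    heckeAlphaBar Qbar N ℓ = scaled (d := 1) (by rw [mul_one]; exact dvd_mul_right N ℓ) :=
  AlgHom.ext fun _ => Subtype.ext (by rw [coe_heckeAlphaBar, coe_scaled, qExpand_one_apply])

section Degeneracy

variable {N M d : ℕ} [NeZero N] [NeZero M] [NeZero d]

/-- Pullback along `f(τ) ↦ f(dτ)`. -/
def scaledPull (h : N * d ∣ M) :
    Divisor Qbar (modularFunctionFieldBar N) →+ Divisor Qbar (modularFunctionFieldBar M) :=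
  Divisor.pullbackAlong (scaled h) (FFBasic.isIntegral_of_isFunctionField (scaled h))

/-- Pushforward along `f(τ) ↦ f(dτ)`. -/
def scaledPush (h : N * d ∣ M) :
    Divisor Qbar (modularFunctionFieldBar M) →+ Divisor Qbar (modularFunctionFieldBar N) :=
  Divisor.pushforwardAlong (scaled h) (FFBasic.isIntegral_of_isFunctionField (scaled h))

theorem scaledPull_comp {P e : ℕ} [NeZero P] [NeZero e] (h : N * d ∣ M) (k : M * e ∣ P)
    (hk : N * (e * d) ∣ P) :
    haveI : NeZero (e * d) := ⟨Nat.mul_ne_zero (NeZero.ne e) (NeZero.ne d)⟩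
    (scaledPull k).comp (scaledPull h) = scaledPull hk := by
  have : NeZero (e * d) := ⟨Nat.mul_ne_zero (NeZero.ne e) (NeZero.ne d)⟩
  exact pullbackAlong_comp separatesPlaces_of_isFunctionField (scaled h) (scaled k) (scaled hk)
    (fun x => Subtype.ext (qExpand_qExpand d e _)) _ _ _

theorem scaledPush_comp {P e : ℕ} [NeZero P] [NeZero e] (h : N * d ∣ M) (k : M * e ∣ P)
    (hk : N * (e * d) ∣ P) :
    haveI : NeZero (e * d) := ⟨Nat.mul_ne_zero (NeZero.ne e) (NeZero.ne d)⟩
    (scaledPush h).comp (scaledPush k) = scaledPush hk := by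
  have : NeZero (e * d) := ⟨Nat.mul_ne_zero (NeZero.ne e) (NeZero.ne d)⟩
  have a := FFBasic.isIntegral_of_isFunctionField (scaled h)
  have fa := FFBasic.finiteAlong (scaled h)
  have na := FFBasic.normFormulaAlong (scaled h) fa
  have b := FFBasic.isIntegral_of_isFunctionField (scaled k)
  have fb := FFBasic.finiteAlong (scaled k)
  have nb := FFBasic.normFormulaAlong (scaled k) fb
  have c := FFBasic.isIntegral_of_isFunctionField (scaled hk)
  have fc := FFBasic.finiteAlong (scaled hk)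
  have nc := FFBasic.normFormulaAlong (scaled hk) fc
  exact pushforwardAlong_comp separatesPlaces_of_isFunctionField (scaled h) (scaled k) (scaled hk)
    (fun x => Subtype.ext (qExpand_qExpand d e _)) a b c fa fb fc na nb nc

theorem closure_range_scaled (N₂ : ℕ) [NeZero N₂] {P e : ℕ} [NeZero P] [NeZero e]
    (h₂ : N₂ * 1 ∣ P) (h₁ : M * e ∣ P) (hP : M * e = P) :
    Subfield.closure (Set.range (scaled h₂) ∪ Set.range (scaled h₁)) = ⊤ := by
  subst hP
  set S := Subfield.closure (Set.range (scaled h₂) ∪ Set.range (scaled h₁)) with hS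
  let S' : Subfield (LaurentSeries Qbar) := S.map (modularFunctionFieldBar (M * e)).val.toRingHom
  have hj : ∀ {y : LaurentSeries Qbar} (hy : y ∈ modularFunctionFieldBar (M * e)),
      (⟨y, hy⟩ : modularFunctionFieldBar (M * e)) ∈ S → y ∈ S' :=
    fun hy hyS => ⟨⟨_, hy⟩, hyS, rfl⟩
  have hconst : Set.range (algebraMap Qbar (LaurentSeries Qbar)) ⊆ S' := by
    rintro _ ⟨a, rfl⟩
    refine ⟨algebraMap Qbar (modularFunctionFieldBar (M * e)) a,
      Subfield.subset_closure (Or.inl ⟨algebraMap Qbar _ a, ?_⟩), rfl⟩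
    exact (scaled h₂).commutes a
  have hfull : modularFunctionFieldFull (M * e) ≤
      IntermediateField.adjoin ℚ {jq, qExpand ℚ (M * e) jq} := by
    rw [modularFunctionFieldFull, IntermediateField.adjoin_le_iff]
    rintro x ⟨c, hc, hdvd, rfl⟩
    exact ModularFF.functionFieldGeneration (M * e) c hdvd hc
  let S₀ : Subfield (LaurentSeries ℚ) := S'.comap (coeffEmb Qbar)
  have hjq : jq ∈ S₀ := by
    show coeffEmb Qbar jq ∈ S'
    have hm : coeffEmb Qbar jq ∈ modularFunctionFieldBar N₂ :=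
      coeffEmb_mem_laurentBaseChange Qbar (modularFunctionField_le_full N₂ (jq_mem N₂))
    exact ⟨scaled h₂ ⟨_, hm⟩, Subfield.subset_closure (Or.inl ⟨_, rfl⟩),
      qExpand_one_apply _⟩
  have hjM : qExpand ℚ (M * e) jq ∈ S₀ := by
    show coeffEmb Qbar (qExpand ℚ (M * e) jq) ∈ S'
    have hm : coeffEmb Qbar (qExpand ℚ M jq) ∈ modularFunctionFieldBar M :=
      coeffEmb_mem_laurentBaseChange Qbar (jqd_mem_full M dvd_rfl)
    refine ⟨scaled h₁ ⟨_, hm⟩, Subfield.subset_closure (Or.inr ⟨_, rfl⟩), ?_⟩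
    have : NeZero (e * M) := ⟨Nat.mul_ne_zero (NeZero.ne e) (NeZero.ne M)⟩
    show qExpand Qbar e (coeffEmb Qbar (qExpand ℚ M jq)) = _
    rw [coeffEmb, ModularCurve.coeffMap_qExpand, ModularCurve.coeffMap_qExpand, qExpand_qExpand,
      qExpand_congr (mul_comm e M)]
  have hle : ∀ y ∈ modularFunctionFieldFull (M * e), y ∈ S₀ := by
    intro y hy
    have := hfull hy
    refine Subfield.closure_le.mpr ?_ this
    rintro z (⟨r, rfl⟩ | rfl | rfl)
    · exact (eq_ratCast (algebraMap ℚ (LaurentSeries ℚ)) r).symm ▸ SubfieldClass.ratCast_mem S₀ r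
    · exact hjq
    · exact hjM
  refine eq_top_iff.mpr fun x _ => ?_
  have hx : (x : LaurentSeries Qbar) ∈ S' := by
    refine Subfield.closure_le.mpr ?_ (mem_laurentBaseChange_iff.mp x.2)
    rintro z (hz | ⟨y, hy, rfl⟩)
    · exact hconst hz
    · exact hle y hy
  obtain ⟨x', hx', he⟩ := hx
  obtain rfl : x' = x := Subtype.ext he
  exact hx'

/-- The Hecke operator at `ℓ` is push ∘ pull. -/
theorem heckeOperatorBar_mk (ℓ : Nat.Primes)
    (D : Divisor.degZero (K := Qbar) (F := modularFunctionFieldBar N)) :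
    haveI : NeZero (ℓ : ℕ) := ⟨ℓ.2.ne_zero⟩
    ∃ E : Divisor.degZero (K := Qbar) (F := modularFunctionFieldBar N),
      heckeOperatorBar N ℓ (Pic0.mk D) = Pic0.mk E ∧
      (E : Divisor Qbar (modularFunctionFieldBar N)) =
        scaledPush (d := 1) (M := N * ℓ) (by rw [mul_one]; exact dvd_mul_right N ℓ)
          (scaledPull (dvd_refl (N * (ℓ : ℕ))) D) := by
  have : NeZero (ℓ : ℕ) := ⟨ℓ.2.ne_zero⟩
  have a := FFBasic.isIntegral_of_isFunctionField (heckeAlphaBar Qbar N ℓ)
  have fa := FFBasic.finiteAlong (heckeAlphaBar Qbar N ℓ)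
  have na := FFBasic.normFormulaAlong (heckeAlphaBar Qbar N ℓ) fa
  have b := FFBasic.isIntegral_of_isFunctionField (heckeBetaBar Qbar N ℓ)
  have gb := FFBasic.fundamentalIdentityAlong (heckeBetaBar Qbar N ℓ) b
  refine ⟨Pic0.degZeroCorrespondence (heckeBetaBar Qbar N ℓ) (heckeAlphaBar Qbar N ℓ) b a gb D,
    ?_, ?_⟩
  · show heckeOperatorAlong Qbar N ℓ (Pic0.mk D) = _
    rw [heckeOperatorAlong_eq a b gb fa na]
    rfl
  · rw [Pic0.coe_degZeroCorrespondence, Divisor.correspondence_apply]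
    simp only [scaledPush, scaledPull, heckeAlphaBar_eq, heckeBetaBar_eq]

/-- The divisor-level identity behind `T_ℓ T_ℓ' = T_ℓ' T_ℓ`. -/
theorem scaledPush_pull_push_pull (ℓ ℓ' : ℕ) [NeZero ℓ] [NeZero ℓ'] (hℓ : ℓ.Prime) (hℓ' : ℓ'.Prime)
    (hne : ℓ ≠ ℓ') {P : ℕ} [NeZero P] (hP : N * ℓ * ℓ' = P)
    (hα : N * 1 ∣ N * ℓ) (hα' : N * 1 ∣ N * ℓ') (hu : N * 1 ∣ P) (hv : N * (ℓ * ℓ') ∣ P)
    (D : Divisor Qbar (modularFunctionFieldBar N)) :
    haveI : NeZero (ℓ * ℓ') := ⟨Nat.mul_ne_zero (NeZero.ne ℓ) (NeZero.ne ℓ')⟩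
    scaledPush hα (scaledPull (dvd_refl (N * ℓ))
      (scaledPush hα' (scaledPull (dvd_refl (N * ℓ')) D))) =
      scaledPush hu (scaledPull hv D) := by
  subst hP
  have : NeZero (ℓ * ℓ') := ⟨Nat.mul_ne_zero (NeZero.ne ℓ) (NeZero.ne ℓ')⟩
  have k₂ : N * ℓ * 1 ∣ N * ℓ * ℓ' := by rw [mul_one]; exact dvd_mul_right _ _
  have k₁ : N * ℓ' * ℓ ∣ N * ℓ * ℓ' := by rw [mul_right_comm]
  have hN1 : N * (1 * 1) ∣ N * ℓ * ℓ' := by rw [one_mul]; exact hu
  have hbase : (scaledPull (dvd_refl (N * ℓ))).comp (scaledPush hα') =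
      (scaledPush k₂).comp (scaledPull k₁) := by
    have a := FFBasic.isIntegral_of_isFunctionField (scaled hα')
    have fa := FFBasic.finiteAlong (scaled hα')
    have na := FFBasic.normFormulaAlong (scaled hα') fa
    have b := FFBasic.isIntegral_of_isFunctionField (scaled k₂)
    have fb := FFBasic.finiteAlong (scaled k₂)
    have nb := FFBasic.normFormulaAlong (scaled k₂) fb
    refine pullbackAlong_comp_pushforwardAlong separatesPlaces_of_isFunctionField (scaled hα')
      (scaled (dvd_refl (N * ℓ))) (scaled k₁) (scaled k₂) ?_ a _ _ b fa fb na nb ?_ ?_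
    · intro x
      refine Subtype.ext ?_
      simp only [coe_scaled, qExpand_one_apply]
    · have e₁ : scaled hα' = heckeAlphaBar Qbar N ℓ' := (heckeAlphaBar_eq N ℓ').symm
      have e₂ : scaled k₂ = heckeAlphaBar Qbar (N * ℓ) ℓ' := (heckeAlphaBar_eq (N * ℓ) ℓ').symm
      rw [e₁, e₂, finrankAlong_heckeAlphaBar (N * ℓ) ℓ' hℓ',
        finrankAlong_heckeAlphaBar N ℓ' hℓ']
      have : ℓ' ∣ N * ℓ ↔ ℓ' ∣ N := by
        rw [hℓ'.dvd_mul, or_iff_left]
        exact fun hd => hne ((Nat.prime_dvd_prime_iff_eq hℓ' hℓ).mp hd).symm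
      simp only [this]
    · exact closure_range_scaled (N * ℓ) k₂ k₁ (mul_right_comm N ℓ' ℓ)
  rw [show scaledPull (dvd_refl (N * ℓ)) (scaledPush hα' (scaledPull (dvd_refl (N * ℓ')) D)) =
      scaledPush k₂ (scaledPull k₁ (scaledPull (dvd_refl (N * ℓ')) D)) from
        DFunLike.congr_fun hbase _,
    show scaledPush hα (scaledPush k₂ (scaledPull k₁ (scaledPull (dvd_refl (N * ℓ')) D))) =
      scaledPush hN1 (scaledPull k₁ (scaledPull (dvd_refl (N * ℓ')) D)) from
        DFunLike.congr_fun (scaledPush_comp hα k₂ hN1) _,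
    show scaledPull k₁ (scaledPull (dvd_refl (N * ℓ')) D) = scaledPull hv D from
        DFunLike.congr_fun (scaledPull_comp (dvd_refl (N * ℓ')) k₁ hv) _]

theorem heckeOperatorsCommuteBar (N : ℕ) [NeZero N] : HeckeOperatorsCommuteBar N := by
  intro ℓ ℓ'
  by_cases hne : ℓ = ℓ'
  · rw [hne]
  have : NeZero (ℓ : ℕ) := ⟨ℓ.2.ne_zero⟩
  have : NeZero (ℓ' : ℕ) := ⟨ℓ'.2.ne_zero⟩
  have : NeZero ((ℓ : ℕ) * ℓ') := ⟨Nat.mul_ne_zero (NeZero.ne _) (NeZero.ne _)⟩
  have : NeZero ((ℓ' : ℕ) * ℓ) := ⟨Nat.mul_ne_zero (NeZero.ne _) (NeZero.ne _)⟩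
  have hne' : (ℓ : ℕ) ≠ ℓ' := fun h => hne (Subtype.ext h)
  refine LinearMap.ext fun x => ?_
  obtain ⟨D, rfl⟩ := Pic0.mk_surjective x
  rw [Module.End.mul_apply, Module.End.mul_apply]
  obtain ⟨E₁, h₁, e₁⟩ := heckeOperatorBar_mk ℓ' D
  obtain ⟨E₂, h₂, e₂⟩ := heckeOperatorBar_mk ℓ E₁
  obtain ⟨F₁, g₁, f₁⟩ := heckeOperatorBar_mk ℓ D
  obtain ⟨F₂, g₂, f₂⟩ := heckeOperatorBar_mk ℓ' F₁
  rw [h₁, h₂, g₁, g₂]
  refine congrArg Pic0.mk (Subtype.ext ?_)
  rw [e₂, e₁, f₂, f₁]
  have hu : N * 1 ∣ N * (ℓ : ℕ) * ℓ' := by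
    rw [mul_one, mul_assoc]; exact dvd_mul_right _ _
  have hv : N * ((ℓ : ℕ) * ℓ') ∣ N * (ℓ : ℕ) * ℓ' := by rw [mul_assoc]
  have hv' : N * ((ℓ' : ℕ) * ℓ) ∣ N * (ℓ : ℕ) * ℓ' := by rw [mul_comm (ℓ' : ℕ), mul_assoc]
  rw [scaledPush_pull_push_pull ℓ ℓ' ℓ.2 ℓ'.2 hne' rfl _ _ hu hv,
    scaledPush_pull_push_pull ℓ' ℓ ℓ'.2 ℓ.2 hne'.symm (mul_right_comm N (ℓ' : ℕ) ℓ) _ _ hu hv']
  simp only [scaledPull, scaled_congr (mul_comm (ℓ' : ℕ) ℓ) hv' hv]

end Degeneracy

section Galois

variable {K F F' : Type*} [Field K] [Field F] [Field F'] [Algebra K F] [Algebra K F']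

theorem isLocal_smul (g : SemilinearAut K F) :
    IsLocalDivMap (DistribSMul.toAddMonoidHom (Divisor K F) g) := by
  intro w
  refine ⟨{g⁻¹ • w}, fun D hD => ?_⟩
  show (g • D) w = 0
  rw [SemilinearAut.divisor_smul_apply, hD _ (Finset.mem_singleton_self _)]

theorem smul_apply_principal (g : SemilinearAut K F) {D : Divisor K F} {f : F}
    (hD : ∀ v, D v = v.ord f) (w : Place K F) : (g • D) w = w.ord (g • f) := by
  rw [SemilinearAut.divisor_smul_apply, hD]
  have h := SemilinearAut.ord_smul g (g⁻¹ • w) f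
  rw [smul_inv_smul] at h
  exact h.symm

theorem normAlong_smul (φ : F →ₐ[K] F') (g : SemilinearAut K F) (g' : SemilinearAut K F')
    (hg : SemilinearAut.IntertwinesAlong φ.toRingHom g g') (z : F') :
    normAlong φ (g' • z) = g • normAlong φ z := by
  let := algebraAlong φ
  have h := Algebra.norm_eq_of_equiv_equiv (SemilinearAut.toRingAut g)
    (SemilinearAut.toRingAut g') (RingHom.ext fun x => (hg x).symm) z
  show Algebra.norm F (SemilinearAut.toRingAut g' z) =
    SemilinearAut.toRingAut g (Algebra.norm F z)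
  rw [h, RingEquiv.apply_symm_apply]

theorem correspondence_smul [HasPrincipalDivisors K F] [HasPrincipalDivisors K F']
    (hsep : SeparatesPlaces K F) (φ ψ : F →ₐ[K] F') (hφ : φ.toRingHom.IsIntegral)
    (hψ : ψ.toRingHom.IsIntegral) (hfin : FiniteAlong K ψ) (hN : NormFormulaAlong K ψ hfin)
    (g : SemilinearAut K F) (g' : SemilinearAut K F')
    (h₁ : SemilinearAut.IntertwinesAlong φ.toRingHom g g')
    (h₂ : SemilinearAut.IntertwinesAlong ψ.toRingHom g g') (D : Divisor K F) :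
    Divisor.correspondence φ ψ hφ hψ (g • D) = g • Divisor.correspondence φ ψ hφ hψ D := by
  refine DFunLike.congr_fun (f := (Divisor.correspondence φ ψ hφ hψ).comp
      (DistribSMul.toAddMonoidHom (Divisor K F) g))
    (g := (DistribSMul.toAddMonoidHom (Divisor K F) g).comp
      (Divisor.correspondence φ ψ hφ hψ)) ?_ D
  have hC : IsLocalDivMap (Divisor.correspondence φ ψ hφ hψ) :=
    (isLocal_pushforwardAlong ψ hψ).comp (isLocal_pullbackAlong φ hφ)
  refine eq_of_eq_on_principal hsep (hC.comp (isLocal_smul g)) ((isLocal_smul g).comp hC)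
    fun P f hf hP => Finsupp.ext fun w => ?_
  show Divisor.correspondence φ ψ hφ hψ (g • P) w =
    (g • Divisor.correspondence φ ψ hφ hψ P) w
  rw [Divisor.correspondence_apply, Divisor.correspondence_apply,
    pushforwardAlong_apply_principal ψ hψ hfin hN (by simpa using hf)
      (pullbackAlong_apply_principal φ hφ (smul_apply_principal g hP)),
    smul_apply_principal g (pushforwardAlong_apply_principal ψ hψ hfin hN (by simpa using hf)
      (pullbackAlong_apply_principal φ hφ hP)), ← normAlong_smul ψ g g' h₂]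
  exact congrArg _ (congrArg _ (h₁ f).symm)

end Galois

section Hecke

theorem heckeOperatorBar_galois (N : ℕ) [NeZero N] (σ : Qbar ≃ₐ[ℚ] Qbar) (ℓ : Nat.Primes)
    (x : JZero N) : heckeOperatorBar N ℓ (σ • x) = σ • heckeOperatorBar N ℓ x := by
  have : NeZero (ℓ : ℕ) := ⟨ℓ.2.ne_zero⟩
  obtain ⟨D, rfl⟩ := Pic0.mk_surjective x
  set g := arithmeticGalois (modularFunctionFieldFull N) σ with hg
  obtain ⟨E, hE, eE⟩ := heckeOperatorBar_mk ℓ D
  obtain ⟨E', hE', eE'⟩ := heckeOperatorBar_mk ℓ (SemilinearAut.degZeroSMulHom g D)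
  rw [galois_smul_pic0_def, galois_smul_pic0_def, SemilinearAut.pic0_smul_mk, hE',
    hE, SemilinearAut.pic0_smul_mk]
  refine congrArg Pic0.mk (Subtype.ext ?_)
  rw [SemilinearAut.coe_degZeroSMulHom, eE, eE', SemilinearAut.coe_degZeroSMulHom]
  have hint : ∀ {d : ℕ} [NeZero d] (h : N * d ∣ N * (ℓ : ℕ)),
      SemilinearAut.IntertwinesAlong (scaled h).toRingHom g
        (arithmeticGalois (modularFunctionFieldFull (N * (ℓ : ℕ))) σ) :=
    fun h y => Subtype.ext (ModularCurve.coeffMap_qExpand _ _ _)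
  have hα : N * 1 ∣ N * (ℓ : ℕ) := by rw [mul_one]; exact dvd_mul_right N ℓ
  have a := FFBasic.isIntegral_of_isFunctionField (scaled hα)
  have fa := FFBasic.finiteAlong (scaled hα)
  have na := FFBasic.normFormulaAlong (scaled hα) fa
  have b := FFBasic.isIntegral_of_isFunctionField (scaled (dvd_refl (N * (ℓ : ℕ))))
  exact correspondence_smul separatesPlaces_of_isFunctionField (scaled (dvd_refl (N * (ℓ : ℕ))))
    (scaled hα) b a fa na g _ (hint _) (hint _) _

theorem heckeEvalBar_galois (N : ℕ) [NeZero N] (h : HeckeOperatorsCommuteBar N) (t : HeckeAlg)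
    (σ : Qbar ≃ₐ[ℚ] Qbar) (x : JZero N) :
    heckeEvalBar h t (σ • x) = σ • heckeEvalBar h t x := by
  induction t using MvPolynomial.induction_on generalizing x with
  | C a =>
    rw [heckeEvalBar_C, Module.End.intCast_apply, Module.End.intCast_apply]
    exact (map_zsmul (DistribSMul.toAddMonoidHom (JZero N) σ) a x).symm
  | add p q hp hq => simp only [map_add, LinearMap.add_apply, hp, hq, smul_add]
  | mul_X p ℓ hp =>
    rw [map_mul, show MvPolynomial.X ℓ = heckeGen ℓ from rfl, heckeEvalBar_heckeGen,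
      Module.End.mul_apply, Module.End.mul_apply, heckeOperatorBar_galois, hp]

theorem smulCommClass_heckeModuleBar (N : ℕ) [NeZero N] :
    letI := heckeModuleBar N
    SMulCommClass (Qbar ≃ₐ[ℚ] Qbar) HeckeAlg (JZero N) := by
  let := heckeModuleBar N
  have h := heckeOperatorsCommuteBar N
  exact ⟨fun σ t x => by
    rw [heckeModuleBar_smul_def h, heckeModuleBar_smul_def h, heckeEvalBar_galois N h]⟩

end Hecke

end FLTAgent.HeckeJacobian

end
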