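import Fermat.Agent.HeckeJacobian.LatticePeriods
import Fermat.Agent.Periods.EichlerShimura
import Fermat.Agent.ModularFF.Genus
import Fermat.Agent.Jacobian.General
import Fermat.Agent.GaloisAttach.Inputs

/-!
# The Hecke lattice of the torsion of `J₀(N)(ℚ̄)`

`torsionCount`: the order of the `p`-power torsion; `killLattice`: the lattice with Hecke action
controls which Hecke elements kill it.  `smulComm_and_finite_torsion`: Galois commutes with Hecke
and the torsion is finite.  Both feed `GaloisAttach.JacobianInputs`.
-/

set_option autoImplicit false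

noncomputable section

open CongruenceSubgroup AlgebraicCurve ModularCurve
open ModularCurve.Period

namespace FLTAgent.HeckeJacobian

local notation "Qbar" => AlgebraicClosure ℚ

variable {N : ℕ} [NeZero N]

/-- The complex parabolic homomorphisms have twice the dimension of the genus. -/
theorem finrank_parabolicHoms_eq :
    Module.finrank ℂ (parabolicHoms ℂ (Gamma0 N) ℂ) =
      2 * genusFF Qbar (modularFunctionFieldBar N) := by
  let : Algebra Qbar ℂ := qbarToC.toAlgebra
  have h := FLTAgent.ModularFF.two_mul_genusFF_modField Qbar N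
  rw [FLTAgent.MFDim.orbCount_T_eq_cuspCount N] at h
  have hq := congrArg (fun z : ℤ => (z : ℚ)) h
  have h2 := congrArg (fun z : ℕ => (z : ℚ)) (FLTAgent.MFDim.two_mul_orbCount_S_eq N)
  have h3 := congrArg (fun z : ℕ => (z : ℚ)) (FLTAgent.MFDim.three_mul_orbCount_ST_eq N)
  push_cast at hq h2 h3
  have hdim := FLTAgent.MFDim.finrank_cuspForm_two N
  rw [genusFormula] at hdim
  have := FLTAgent.Periods.finiteDimensional_cuspForm_two N
  obtain ⟨hinj, hrange⟩ := FLTAgent.Periods.periodHomPair_eichlerShimura N
  rw [← hrange, LinearMap.finrank_range_of_inj hinj, Module.finrank_prod]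
  have : (Module.finrank ℂ (CuspForm (Gamma0 N) 2) : ℚ) =
      (genusFF Qbar (modularFunctionFieldBar N) : ℚ) := by
    rw [hdim]
    linarith
  have h' := Nat.cast_inj.mp this
  omega

/-- The `p`-power torsion of `J₀(N)(ℚ̄)` has the expected number of points. -/
theorem torsionCount (p : ℕ) [Fact p.Prime] : TorsionCount N p := by
  refine ⟨2 * genusFF Qbar (modularFunctionFieldBar N),
    (finrank_charLattice_le N).trans finrank_parabolicHoms_eq.le, fun k => ?_⟩
  rw [FLTAgent.Jacobian.natCard_torsion Qbar (modularFunctionFieldBar N)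
    (pow_pos (Fact.out : p.Prime).pos k).ne', ← pow_mul, mul_comm k]

/-- If `t` kills `J₀(N)[p^k]` then it is divisible by `p^k` on a faithful lattice. -/
theorem killLattice {p : ℕ} (hp : p.Prime) : FLTAgent.GaloisAttach.KillLattice N p := by
  have : Fact p.Prime := ⟨hp⟩
  let : Algebra Qbar ℂ := qbarToC.toAlgebra
  have hT := torsionCount (N := N) p
  exact ⟨charLattice N, inferInstance, finite_charLattice N, free_charLattice N,
    latticeEval hT, heckeEvalS2 N, fun ℓ h => heckeEvalS2_T N ℓ h,
    fun t ht => heckeEvalS2_eq_zero hT t ht, fun k t ht φ => exists_eq_smul_of_kills hT k t ht φ⟩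

/-- The inputs of `GaloisAttach.JacobianInputs` supplied by the Hecke calculus. -/
theorem smulComm_and_finite_torsion (p : ℕ) (hp : p.Prime) :
    (letI := heckeModuleBar N;
      SMulCommClass (Qbar ≃ₐ[ℚ] Qbar) HeckeAlg (JZero N)) ∧
      ∀ k : ℕ, {x : JZero N | (p ^ k) • x = 0}.Finite := by
  let : Algebra Qbar ℂ := qbarToC.toAlgebra
  exact ⟨smulCommClass_heckeModuleBar N, fun k => finite_torsion_jZero (pow_ne_zero k hp.ne_zero)⟩

end FLTAgent.HeckeJacobian

end
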