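import Mathlib.NumberTheory.ModularForms.CongruenceSubgroups
import Mathlib.GroupTheory.Index
import Mathlib.GroupTheory.GroupAction.Quotient
import Mathlib.LinearAlgebra.Matrix.Notation
import Mathlib.LinearAlgebra.Matrix.FixedDetMatrices
import Mathlib.GroupTheory.Schreier

/-!
# The Hecke operator on homomorphisms of `Γ₀(N)`

`heckeHom` is the Hecke operator on homomorphisms `Γ₀(N) → A`, defined as the transfer composed
with conjugation by `diag(ℓ, 1)`; also `gamma0_fg`, finite generation of `Γ₀(N)`.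
-/

set_option autoImplicit false

noncomputable section

open CongruenceSubgroup
open scoped MatrixGroups

namespace FLTAgent.HeckeJacobian

section Transfer

variable {G : Type*} [Group G] (H : Subgroup G) {A B : Type*} [AddCommGroup A] [AddCommGroup B]

/-- Element of `H` attached to `g`, a coset and a choice of representatives. -/
def cosetElt (s : G ⧸ H → G) (hs : ∀ q, (s q : G ⧸ H) = q) (g : G) (q : G ⧸ H) : H :=
  ⟨(s (g • q))⁻¹ * g * s q, by
    rw [mul_assoc, ← QuotientGroup.eq, hs]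
    conv_lhs => rw [← hs q]
    exact MulAction.Quotient.smul_coe H g (s q)⟩

@[simp] theorem coe_cosetElt (s : G ⧸ H → G) (hs : ∀ q, (s q : G ⧸ H) = q) (g : G)
    (q : G ⧸ H) : (cosetElt H s hs g q : G) = (s (g • q))⁻¹ * g * s q := rfl

theorem cosetElt_mul (s : G ⧸ H → G) (hs : ∀ q, (s q : G ⧸ H) = q) (g g' : G) (q : G ⧸ H) :
    cosetElt H s hs (g * g') q = cosetElt H s hs g (g' • q) * cosetElt H s hs g' q := by
  refine Subtype.ext ?_
  simp only [coe_cosetElt, Subgroup.coe_mul, mul_smul]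
  group

variable [Fintype (G ⧸ H)]

/-- The transfer of a homomorphism from a finite-index subgroup, for any choice of
representatives. -/
def transferWith (s : G ⧸ H → G) (hs : ∀ q, (s q : G ⧸ H) = q) (ψ : Additive H →+ A) :
    Additive G →+ A :=
  AddMonoidHom.mk'
    (fun g => ∑ q, ψ (Additive.ofMul (cosetElt H s hs (Additive.toMul g) q)))
    (fun g g' => by
      simp only [toMul_add, cosetElt_mul, ofMul_mul, map_add, Finset.sum_add_distrib]
      congr 1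
      exact Fintype.sum_bijective _ (MulAction.bijective (Additive.toMul g')) _ _ fun _ => rfl)

theorem transferWith_apply (s : G ⧸ H → G) (hs : ∀ q, (s q : G ⧸ H) = q) (ψ : Additive H →+ A)
    (g : G) :
    transferWith H s hs ψ (Additive.ofMul g) =
      ∑ q, ψ (Additive.ofMul (cosetElt H s hs g q)) := rfl

theorem transferWith_eq (s s' : G ⧸ H → G) (hs : ∀ q, (s q : G ⧸ H) = q)
    (hs' : ∀ q, (s' q : G ⧸ H) = q) (ψ : Additive H →+ A) :
    transferWith H s hs ψ = transferWith H s' hs' ψ := by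
  refine AddMonoidHom.ext fun g => ?_
  obtain ⟨g, rfl⟩ := Additive.ofMul.surjective g
  let k : G ⧸ H → H := fun q => ⟨(s' q)⁻¹ * s q, by rw [← QuotientGroup.eq, hs', hs]⟩
  have hk : ∀ q, cosetElt H s hs g q = (k (g • q))⁻¹ * cosetElt H s' hs' g q * k q := fun q => by
    refine Subtype.ext ?_
    simp only [coe_cosetElt, Subgroup.coe_mul, Subgroup.coe_inv, k]
    group
  simp only [transferWith_apply, hk, ofMul_mul, ofMul_inv, map_add, map_neg,
    Finset.sum_add_distrib, Finset.sum_neg_distrib]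
  rw [Fintype.sum_bijective _ (MulAction.bijective g) (fun q => ψ (Additive.ofMul (k (g • q))))
    (fun q => ψ (Additive.ofMul (k q))) fun _ => rfl]
  abel

/-- The transfer of a homomorphism from a finite-index subgroup. -/
def transferHom : (Additive H →+ A) →+ (Additive G →+ A) :=
  AddMonoidHom.mk' (transferWith H Quotient.out (fun q => QuotientGroup.out_eq' q))
    (fun ψ ψ' => AddMonoidHom.ext fun g => by
      obtain ⟨g, rfl⟩ := Additive.ofMul.surjective g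
      simp [transferWith_apply, Finset.sum_add_distrib])

theorem transferHom_eq (s : G ⧸ H → G) (hs : ∀ q, (s q : G ⧸ H) = q) (ψ : Additive H →+ A) :
    transferHom H ψ = transferWith H s hs ψ :=
  transferWith_eq H _ s _ hs ψ

theorem transferHom_apply_eq_sum (s : G ⧸ H → G) (hs : ∀ q, (s q : G ⧸ H) = q)
    (ψ : Additive H →+ A) (g : G) :
    transferHom H ψ (Additive.ofMul g) = ∑ q, ψ (Additive.ofMul (cosetElt H s hs g q)) := by
  rw [transferHom_eq H s hs ψ, transferWith_apply]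

/-- Naturality in the coefficients. -/
theorem transferHom_comp (f : A →+ B) (ψ : Additive H →+ A) :
    transferHom H (f.comp ψ) = f.comp (transferHom H ψ) := by
  refine AddMonoidHom.ext fun g => ?_
  obtain ⟨g, rfl⟩ := Additive.ofMul.surjective g
  rw [AddMonoidHom.comp_apply,
    transferHom_apply_eq_sum H Quotient.out (fun q => QuotientGroup.out_eq' q),
    transferHom_apply_eq_sum H Quotient.out (fun q => QuotientGroup.out_eq' q), map_sum]
  rfl

/-- The equivariance principle: summing a `ψ`-equivariant vector over coset representatives gives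
a `transferHom ψ`-equivariant one. -/
theorem transferHom_equivariant (P : G → B →+ B) (hP : ∀ a b x, P (a * b) x = P b (P a x))
    (ι : A →+ B) (hι : ∀ g a, P g (ι a) = ι a) (ψ : Additive H →+ A) (G₀ : B)
    (hG₀ : ∀ h : H, P h G₀ = ι (ψ (Additive.ofMul h)) + G₀)
    (s : G ⧸ H → G) (hs : ∀ q, (s q : G ⧸ H) = q) (g : G) :
    P g (∑ q, P (s q)⁻¹ G₀) =
      ι (transferHom H ψ (Additive.ofMul g)) + ∑ q, P (s q)⁻¹ G₀ := by
  rw [transferHom_apply_eq_sum H s hs, map_sum, map_sum, ← Finset.sum_add_distrib,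
    ← Fintype.sum_bijective _ (MulAction.bijective g) (fun q => P g (P (s (g • q))⁻¹ G₀))
      (fun q => P g (P (s q)⁻¹ G₀)) fun _ => rfl]
  refine Finset.sum_congr rfl fun q _ => ?_
  have h1 : (s (g • q))⁻¹ * g = (cosetElt H s hs g q : G) * (s q)⁻¹ := by
    rw [coe_cosetElt, mul_inv_cancel_right]
  rw [← hP, h1, hP, hG₀, map_add, hι]

end Transfer

section Gamma0

variable (N ℓ : ℕ)

/-- `Γ₀(Nℓ)` as a subgroup of `Γ₀(N)`. -/
abbrev gamma0Sub : Subgroup (Gamma0 N) := (Gamma0 (N * ℓ)).subgroupOf (Gamma0 N)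

theorem dvd_lowerLeft {M : ℕ} {γ : SL(2, ℤ)} (h : γ ∈ Gamma0 M) : (M : ℤ) ∣ γ 1 0 :=
  (ZMod.intCast_zmod_eq_zero_iff_dvd _ _).mp (Gamma0_mem.mp h)

theorem dvd_lowerLeft_sub (γ : gamma0Sub N ℓ) :
    ((N : ℤ) * ℓ) ∣ ((γ : Gamma0 N) : SL(2, ℤ)) 1 0 := by
  have h := dvd_lowerLeft γ.2
  push_cast at h
  exact h

variable [NeZero ℓ]

/-- The matrix of `D γ D⁻¹`, `D = diag(ℓ,1)`. -/
def conjDMat (γ : SL(2, ℤ)) : Matrix (Fin 2) (Fin 2) ℤ :=
  !![γ 0 0, (ℓ : ℤ) * γ 0 1; γ 1 0 / (ℓ : ℤ), γ 1 1]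

theorem conjDMat_det {γ : SL(2, ℤ)} (h : (ℓ : ℤ) ∣ γ 1 0) : (conjDMat ℓ γ).det = 1 := by
  obtain ⟨k, hk⟩ := h
  have hℓ : (ℓ : ℤ) ≠ 0 := by exact_mod_cast NeZero.ne ℓ
  have hdet := Matrix.det_fin_two (γ : Matrix (Fin 2) (Fin 2) ℤ)
  rw [γ.2, hk] at hdet
  rw [conjDMat, Matrix.det_fin_two_of, hk, Int.mul_ediv_cancel_left _ hℓ]
  linear_combination -hdet

theorem conjDMat_mul {γ δ : SL(2, ℤ)} (h : (ℓ : ℤ) ∣ γ 1 0) (h' : (ℓ : ℤ) ∣ δ 1 0) :
    conjDMat ℓ (γ * δ) = conjDMat ℓ γ * conjDMat ℓ δ := by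
  obtain ⟨c, hc⟩ := h
  obtain ⟨c', hc'⟩ := h'
  have hℓ : (ℓ : ℤ) ≠ 0 := by exact_mod_cast NeZero.ne ℓ
  have hdiv : ∀ x : ℤ, (ℓ : ℤ) * x / (ℓ : ℤ) = x := fun x => Int.mul_ediv_cancel_left _ hℓ
  have e : ∀ i j, (γ * δ : SL(2, ℤ)) i j = γ i 0 * δ 0 j + γ i 1 * δ 1 j := fun i j => by
    rw [Matrix.SpecialLinearGroup.coe_mul, Matrix.mul_apply, Fin.sum_univ_two]
  have e10 : (γ * δ : SL(2, ℤ)) 1 0 = (ℓ : ℤ) * (c * δ 0 0 + γ 1 1 * c') := by
    rw [e, hc, hc']; ring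
  rw [conjDMat, conjDMat, conjDMat, Matrix.mul_fin_two, e10, e 0 0, e 0 1, e 1 1, hc, hc', hdiv,
    hdiv, hdiv]
  ext i j
  fin_cases i <;> fin_cases j <;> simp <;> ring

/-- The element `D γ D⁻¹` of `SL₂(ℤ)`. -/
def conjDSL (γ : SL(2, ℤ)) (h : (ℓ : ℤ) ∣ γ 1 0) : SL(2, ℤ) := ⟨conjDMat ℓ γ, conjDMat_det ℓ h⟩

theorem coe_conjDSL (γ : SL(2, ℤ)) (h : (ℓ : ℤ) ∣ γ 1 0) :
    (conjDSL ℓ γ h : Matrix (Fin 2) (Fin 2) ℤ) = conjDMat ℓ γ := rfl

omit [NeZero ℓ] in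
theorem dvd_ell (γ : gamma0Sub N ℓ) : (ℓ : ℤ) ∣ ((γ : Gamma0 N) : SL(2, ℤ)) 1 0 :=
  dvd_trans (dvd_mul_left _ _) (dvd_lowerLeft_sub N ℓ γ)

/-- `γ ↦ D γ D⁻¹` from `Γ₀(Nℓ)` to `Γ₀(N)`. -/
def conjD : gamma0Sub N ℓ →* Gamma0 N where
  toFun γ := ⟨conjDSL ℓ (γ : Gamma0 N) (dvd_ell N ℓ γ), by
    obtain ⟨k, hk⟩ := dvd_lowerLeft_sub N ℓ γ
    have hℓ : (ℓ : ℤ) ≠ 0 := by exact_mod_cast NeZero.ne ℓ
    rw [Gamma0_mem, ZMod.intCast_zmod_eq_zero_iff_dvd, coe_conjDSL]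
    refine ⟨k, ?_⟩
    show ((γ : Gamma0 N) : SL(2, ℤ)) 1 0 / (ℓ : ℤ) = _
    rw [hk, show (N : ℤ) * ℓ * k = (ℓ : ℤ) * (N * k) by ring, Int.mul_ediv_cancel_left _ hℓ]⟩
  map_one' := by
    refine Subtype.ext (Subtype.ext ?_)
    ext i j
    fin_cases i <;> fin_cases j <;> simp [conjDSL, conjDMat]
  map_mul' γ δ := Subtype.ext (Subtype.ext (conjDMat_mul ℓ (dvd_ell N ℓ γ) (dvd_ell N ℓ δ)))

theorem coe_conjD (γ : gamma0Sub N ℓ) :
    (((conjD N ℓ γ : Gamma0 N) : SL(2, ℤ)) : Matrix (Fin 2) (Fin 2) ℤ) =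
      conjDMat ℓ (γ : Gamma0 N) := rfl

variable [NeZero N]

instance gamma0Sub_fintype : Fintype (Gamma0 N ⧸ gamma0Sub N ℓ) :=
  Subgroup.fintypeQuotientOfFiniteIndex

/-- The Hecke operator `α_* β^*` on homomorphisms `Γ₀(N) → A`. -/
def heckeHom (A : Type*) [AddCommGroup A] :
    (Additive (Gamma0 N) →+ A) →+ (Additive (Gamma0 N) →+ A) :=
  (transferHom (gamma0Sub N ℓ)).comp
    (AddMonoidHom.compHom' (MonoidHom.toAdditive (conjD N ℓ)))

theorem heckeHom_comp {A B : Type*} [AddCommGroup A] [AddCommGroup B] (f : A →+ B)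
    (c : Additive (Gamma0 N) →+ A) : heckeHom N ℓ B (f.comp c) = f.comp (heckeHom N ℓ A c) :=
  transferHom_comp (gamma0Sub N ℓ) f (c.comp (MonoidHom.toAdditive (conjD N ℓ)))

theorem heckeHom_equivariant {A B : Type*} [AddCommGroup A] [AddCommGroup B]
    (P : Gamma0 N → B →+ B) (hP : ∀ a b x, P (a * b) x = P b (P a x)) (ι : A →+ B)
    (hι : ∀ g a, P g (ι a) = ι a) (c : Additive (Gamma0 N) →+ A) (G₀ : B)
    (hG₀ : ∀ h : gamma0Sub N ℓ, P h G₀ = ι (c (Additive.ofMul (conjD N ℓ h))) + G₀)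
    (s : Gamma0 N ⧸ gamma0Sub N ℓ → Gamma0 N)
    (hs : ∀ q, (s q : Gamma0 N ⧸ gamma0Sub N ℓ) = q) (g : Gamma0 N) :
    P g (∑ q, P (s q)⁻¹ G₀) =
      ι (heckeHom N ℓ A c (Additive.ofMul g)) + ∑ q, P (s q)⁻¹ G₀ :=
  transferHom_equivariant (gamma0Sub N ℓ) P hP ι hι _ G₀ hG₀ s hs g

theorem gamma0_fg : Group.FG (Gamma0 N) := by
  have : Group.FG SL(2, ℤ) :=
    ⟨⟨{ModularGroup.S, ModularGroup.T}, by
      rw [Finset.coe_insert, Finset.coe_singleton]
      exact SpecialLinearGroup.SL2Z_generators⟩⟩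
  infer_instance

end Gamma0

end FLTAgent.HeckeJacobian

end
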