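import Fermat.Agent.HeckeJacobian.Descent
import Fermat.Agent.HeckeJacobian.HeckeCommute
import Fermat.Agent.HeckeJacobian.HeckeHom
import Fermat.Prelude.Def_ModularCurve_PeriodHomPair

/-!
# The Kummer map

`kummer` sends an `n`-torsion class of `J₀(N)(ℚ̄)` to a character of `Γ₀(N)` with values in `ℂˣ`
(`KummerRel`).  It is injective, so the `n`-torsion is finite (`finite_torsion_jZero`).
-/

set_option autoImplicit false

noncomputable section

open UpperHalfPlane CongruenceSubgroup AlgebraicCurve ModularCurve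
open ModularCurve.Period
open scoped MatrixGroups

namespace FLTAgent.HeckeJacobian

open FLTAgent.ModularFF

local notation "Qbar" => AlgebraicClosure ℚ

variable [Algebra Qbar ℂ]
variable {N : ℕ} [NeZero N]

omit [Algebra Qbar ℂ] in
/-- A function without zeros and poles is constant. -/
theorem exists_algebraMap_of_forall_ord {K F : Type*} [Field K] [Field F] [Algebra K F]
    [IsAlgClosed K] [FFBasic.IsFunctionField K F] {f : F} (h : ∀ v : Place K F, v.ord f = 0) :
    ∃ c : K, algebraMap K F c = f := by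
  have hint : IsIntegral K f :=
    isAlgebraic_iff_isIntegral.mp (FFBasic.isAlgebraic_iff_forall_ord_eq_zero.mpr h)
  exact minpoly.mem_range_of_degree_eq_one K f
    (IsAlgClosed.degree_eq_one_of_irreducible K (minpoly.irreducible hint))

/-- The character `c` is attached to the torsion class `x` by a holomorphic root. -/
def KummerRel (N n : ℕ) [NeZero N] (x : JZero N)
    (c : Additive (Gamma0 N) →+ Additive ℂˣ) : Prop :=
  ∃ (D : Divisor.degZero (K := Qbar) (F := modularFunctionFieldBar N))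
    (h : modularFunctionFieldBar N) (H a : Hol), Pic0.mk D = x ∧ h ≠ 0 ∧
      (∀ v : Place Qbar (modularFunctionFieldBar N),
        (n : ℤ) * (D : Divisor Qbar (modularFunctionFieldBar N)) v = v.ord h) ∧
      Rep N h H ∧ a ^ n = H ∧ TransformsBy N a c

variable {n : ℕ}

theorem root_ne_zero (hn : n ≠ 0) {h : modularFunctionFieldBar N} {H a : Hol} (hr : Rep N h H)
    (h0 : h ≠ 0) (ha : a ^ n = H) : a ≠ 0 := fun h' =>
  hr.ne_zero h0 (by rw [← ha, h', zero_pow hn])

theorem KummerRel.exists_of_torsion (hn : n ≠ 0) {x : JZero N} (hx : n • x = 0) :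
    ∃ c, KummerRel N n x c := by
  obtain ⟨D, rfl⟩ := Pic0.mk_surjective x
  have hmem : n • D ∈ (Divisor.principal (K := Qbar)
      (F := modularFunctionFieldBar N)).addSubgroupOf _ :=
    (QuotientAddGroup.eq_zero_iff _).mp hx
  obtain ⟨f, hf, hD⟩ := hmem
  obtain ⟨P, Q, hQ, hfQ⟩ := exists_mul_eq N f
  set q := evalField Qbar N Q
  obtain ⟨E, hE, hEdeg⟩ :=
    HasPrincipalDivisors.exists_divisor (K := Qbar) (F := modularFunctionFieldBar N) q hQ
  have hE0 : (⟨E, hEdeg⟩ : Divisor.degZero (K := Qbar) (F := modularFunctionFieldBar N)) ∈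
      (Divisor.principal (K := Qbar) (F := modularFunctionFieldBar N)).addSubgroupOf _ :=
    ⟨q, hQ, hE⟩
  set h := f * q ^ n with hh
  set H := evalHol N (P * Q ^ (n - 1)) with hH
  have hr : Rep N h H := by
    have : h = evalField Qbar N (P * Q ^ (n - 1)) := by
      rw [hh, map_mul, map_pow, ← hfQ, mul_assoc, ← pow_succ',
        Nat.sub_add_cancel (Nat.pos_of_ne_zero hn)]
    rw [this]
    exact rep_evalField _
  have h0 : h ≠ 0 := mul_ne_zero hf (pow_ne_zero _ hQ)
  have hord : ∀ v : Place Qbar (modularFunctionFieldBar N), (n : ℤ) *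
      ((D + ⟨E, hEdeg⟩ : Divisor.degZero (K := Qbar) (F := modularFunctionFieldBar N)) :
        Divisor Qbar (modularFunctionFieldBar N)) v = v.ord h := by
    intro v
    rw [hh, v.ord_mul hf (pow_ne_zero _ hQ), FFBasic.ord_pow, AddSubgroup.coe_add,
      Finsupp.add_apply, ← hD v, hE v, mul_add, map_nsmul, AddSubgroup.subtype_apply,
      Finsupp.smul_apply, nsmul_eq_mul]
  obtain ⟨a, ha⟩ := Hol.exists_root hn H fun τ =>
    hr.dvd_ordI (fun v => ⟨_, (hord v).symm⟩) τ
  obtain ⟨c, hc⟩ := exists_transformsBy hn (root_ne_zero hn hr h0 ha) (N := N)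
    fun γ hγ => by rw [ha]; exact hr.invariant hγ
  refine ⟨c, D + ⟨E, hEdeg⟩, h, H, a, ?_, h0, hord, hr, ha, hc⟩
  rw [Pic0.mk_add, add_eq_left]
  exact (QuotientAddGroup.eq_zero_iff _).mpr hE0

theorem KummerRel.unique (hn : n ≠ 0) {x : JZero N} {c c' : Additive (Gamma0 N) →+ Additive ℂˣ}
    (h : KummerRel N n x c) (h' : KummerRel N n x c') : c = c' := by
  obtain ⟨D, f, H, a, hx, hf, hD, hr, ha, hc⟩ := h
  obtain ⟨D', f', H', a', hx', hf', hD', hr', ha', hc'⟩ := h'
  have hmem : D - D' ∈ (Divisor.principal (K := Qbar)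
      (F := modularFunctionFieldBar N)).addSubgroupOf _ :=
    (QuotientAddGroup.eq_zero_iff _).mp (by
      show Pic0.mk (D - D') = 0
      rw [show Pic0.mk (D - D') = Pic0.mk D - Pic0.mk D' from rfl, hx, hx', sub_self])
  obtain ⟨g, hg, hDg⟩ := hmem
  obtain ⟨κ, hκ⟩ := exists_algebraMap_of_forall_ord (K := Qbar) (f := f / (f' * g ^ n))
    fun v => by
      rw [div_eq_mul_inv, v.ord_mul hf (inv_ne_zero (mul_ne_zero hf' (pow_ne_zero _ hg))),
        v.ord_inv, v.ord_mul hf' (pow_ne_zero _ hg), FFBasic.ord_pow, ← hD, ← hD', ← hDg,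
        map_sub, AddSubgroup.subtype_apply, AddSubgroup.subtype_apply, Finsupp.sub_apply]
      ring
  obtain ⟨P, Q, hQ, hgQ⟩ := exists_mul_eq N g
  have hκ0 : κ ≠ 0 := fun h0 => by
    rw [h0, map_zero, eq_comm, div_eq_zero_iff] at hκ
    exact hκ.elim hf (mul_ne_zero hf' (pow_ne_zero _ hg))
  have heq : (a * evalHol N Q) ^ n = (algebraMap Qbar ℂ κ) • (a' * evalHol N P) ^ n := by
    apply IsFractionRing.injective Hol Mero
    have e : ∀ {f : modularFunctionFieldBar N} {H a : Hol}, Rep N f H → a ^ n = H →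
        algebraMap Hol Mero a ^ n = realF N f := fun hr ha => by rw [← map_pow, ha, hr]
    simp only [Algebra.smul_def, mul_pow, map_mul (algebraMap Hol Mero), map_pow]
    rw [← realF_algebraMap N, ← realF_evalField N, ← realF_evalField N, e hr ha, e hr' ha']
    simp only [← map_pow, ← map_mul]
    congr 1
    rw [hκ, map_pow (evalField Qbar N), map_pow (evalField Qbar N), ← hgQ, mul_pow]
    field_simp
  obtain ⟨ζ, hζ, he⟩ := exists_smul_of_pow_eq hn (by simpa using hκ0) heq
  have hinv : ∀ R, ∀ γ ∈ Gamma0 N, actH γ (evalHol N R) = evalHol N R := fun R γ hγ =>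
    (rep_evalField R).invariant hγ
  have h1 : TransformsBy N (a * evalHol N Q) c := fun γ => by
    rw [map_mul, hc γ, hinv Q γ γ.2, smul_mul_assoc]
  have h2 : TransformsBy N (a * evalHol N Q) c' := fun γ => by
    rw [he, map_smul, map_mul, hc' γ, hinv P γ γ.2, smul_mul_assoc, smul_comm]
  exact TransformsBy.unique (mul_ne_zero (root_ne_zero hn hr hf ha)
    (mt (evalHol_eq_zero_iff N Q).mp hQ)) h1 h2

theorem KummerRel.add {x y : JZero N} {c d : Additive (Gamma0 N) →+ Additive ℂˣ}
    (h : KummerRel N n x c) (h' : KummerRel N n y d) : KummerRel N n (x + y) (c + d) := by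
  obtain ⟨D, f, H, a, hx, hf, hD, hr, ha, hc⟩ := h
  obtain ⟨D', f', H', a', hx', hf', hD', hr', ha', hc'⟩ := h'
  refine ⟨D + D', f * f', H * H', a * a', by rw [Pic0.mk_add, hx, hx'], mul_ne_zero hf hf',
    fun v => by rw [AddSubgroup.coe_add, Finsupp.add_apply, mul_add, hD, hD', v.ord_mul hf hf'],
    ?_, by rw [mul_pow, ha, ha'], fun γ => ?_⟩
  · show realF N (f * f') = _
    rw [map_mul, hr, hr', map_mul]
  · rw [map_mul, hc γ, hc' γ, smul_mul_smul_comm]
    rfl

theorem KummerRel.nsmul_eq_zero (hn : n ≠ 0) {x : JZero N}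
    {c : Additive (Gamma0 N) →+ Additive ℂˣ} (h : KummerRel N n x c) : n • c = 0 := by
  obtain ⟨D, f, H, a, -, hf, -, hr, ha, hc⟩ := h
  refine TransformsBy.unique (a := a ^ n) (c := n • c) (c' := 0)
    (pow_ne_zero n (root_ne_zero hn hr hf ha)) (fun γ => ?_) fun γ => ?_
  · rw [map_pow, hc γ, smul_pow]
    rfl
  · rw [ha]
    exact (hr.invariant γ.2).trans (one_smul ℂ H).symm

theorem KummerRel.parabolic (hn : n ≠ 0) {x : JZero N}
    {c : Additive (Gamma0 N) →+ Additive ℂˣ} (h : KummerRel N n x c) :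
    IsParabolicHom (Gamma0 N) c := by
  obtain ⟨D, f, H, a, -, hf, hD, hr, ha, hc⟩ := h
  exact fun γ hγ => transformsBy_parabolic hn hr hf (fun v => ⟨_, (hD v).symm⟩) ha hc hγ

theorem KummerRel.eq_zero (hn : n ≠ 0) {x : JZero N} (h : KummerRel N n x 0) : x = 0 := by
  obtain ⟨D, f, H, a, rfl, hf, hD, hr, ha, hc⟩ := h
  obtain ⟨g, hg⟩ := exists_pow_eq_of_invariant hn hr ha fun γ hγ =>
    (hc ⟨γ, hγ⟩).trans (one_smul ℂ a)
  refine (QuotientAddGroup.eq_zero_iff _).mpr ⟨g, fun h0 => hf ?_, fun v => ?_⟩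
  · rw [← hg, h0, zero_pow hn]
  · have := hD v
    rw [← hg, FFBasic.ord_pow] at this
    exact mul_left_cancel₀ (Int.natCast_ne_zero.mpr hn) this

variable (N) in
/-- The Kummer map on `n`-torsion. -/
def kummer (hn : n ≠ 0) :
    {x : JZero N // n • x = 0} → (Additive (Gamma0 N) →+ Additive ℂˣ) := fun x =>
  (KummerRel.exists_of_torsion hn x.2).choose

theorem kummerRel_kummer (hn : n ≠ 0) (x : {x : JZero N // n • x = 0}) :
    KummerRel N n x.1 (kummer N hn x) :=
  (KummerRel.exists_of_torsion hn x.2).choose_spec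

theorem kummer_injective (hn : n ≠ 0) : Function.Injective (kummer N hn) := by
  intro x y h
  have hz : n • (x.1 - y.1) = 0 := by rw [nsmul_sub, x.2, y.2, sub_self]
  have hadd := (kummerRel_kummer hn ⟨_, hz⟩).add (kummerRel_kummer hn y)
  rw [show (⟨x.1 - y.1, hz⟩ : {x : JZero N // n • x = 0}).1 + y.1 = x.1 from
    sub_add_cancel _ _] at hadd
  have := hadd.unique hn (kummerRel_kummer hn x)
  rw [h] at this
  replace this : kummer N hn ⟨_, hz⟩ = 0 := AddMonoidHom.ext fun g => by
    simpa using DFunLike.congr_fun this g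
  have h0 := kummerRel_kummer hn (N := N) ⟨_, hz⟩
  rw [this] at h0
  exact Subtype.ext (sub_eq_zero.mp (h0.eq_zero hn))

omit [Algebra Qbar ℂ] in
/-- `n`-torsion characters of `Γ₀(N)` form a finite set. -/
theorem finite_torsion_hom (hn : n ≠ 0) :
    {c : Additive (Gamma0 N) →+ Additive ℂˣ | n • c = 0}.Finite := by
  classical
  obtain ⟨S, hS⟩ := (gamma0_fg (N := N)).out
  have : Finite (rootsOfUnity n ℂ) := by
    have : NeZero n := ⟨hn⟩
    infer_instance
  let ev : {c : Additive (Gamma0 N) →+ Additive ℂˣ | n • c = 0} → (S → rootsOfUnity n ℂ) :=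
    fun c γ => ⟨Additive.toMul (c.1 (Additive.ofMul γ.1)), by
      rw [mem_rootsOfUnity]
      exact Additive.ofMul.injective (DFunLike.congr_fun c.2 (Additive.ofMul γ.1))⟩
  refine Set.finite_coe_iff.mp (Finite.of_injective ev fun c c' h => Subtype.ext ?_)
  refine AddMonoidHom.toMultiplicativeLeft.injective (MonoidHom.eq_of_eqOn_dense hS fun γ hγ => ?_)
  exact congrArg (fun f => Multiplicative.ofAdd (Additive.ofMul (f ⟨γ, hγ⟩ : ℂˣ))) h

omit [Algebra Qbar ℂ] in
/-- `J₀(N)` has finitely many `n`-torsion classes. -/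
theorem finite_torsion_jZero (hn : n ≠ 0) : {x : JZero N | n • x = 0}.Finite := by
  let : Algebra Qbar ℂ := qbarToC.toAlgebra
  have : Finite {c : Additive (Gamma0 N) →+ Additive ℂˣ | n • c = 0} :=
    Set.finite_coe_iff.mpr (finite_torsion_hom hn)
  have : Finite {x : JZero N // n • x = 0} := by
    refine Finite.of_injective (fun x => (⟨kummer N hn x,
      (kummerRel_kummer hn x).nsmul_eq_zero hn⟩ :
      {c : Additive (Gamma0 N) →+ Additive ℂˣ | n • c = 0})) fun x y h => ?_
    exact kummer_injective hn (congrArg Subtype.val h)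
  exact Set.finite_coe_iff.mp ‹_›

end FLTAgent.HeckeJacobian

end
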