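import Mathlib.Analysis.Complex.HasPrimitives
import Mathlib.Analysis.Analytic.Order
import Mathlib.Analysis.Analytic.IsolatedZeros
import Mathlib.Analysis.Complex.CauchyIntegral
import Mathlib.Analysis.Complex.UpperHalfPlane.Manifold
import Mathlib.Analysis.Complex.UpperHalfPlane.Topology
import Mathlib.Analysis.SpecialFunctions.ExpDeriv
import Mathlib.Analysis.Complex.Polynomial.Basic
import Mathlib.Analysis.Calculus.MeanValue
import Mathlib.Geometry.Manifold.MFDeriv.SpecificFunctions

/-!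
# Holomorphic roots on the upper half plane

The domain `Hol` of holomorphic functions on `ℍ`, its orders of vanishing `ordI`, and
`exists_root`: a function all of whose orders are divisible by `n` has a holomorphic `n`-th
root.
-/

set_option autoImplicit false

noncomputable section

open UpperHalfPlane Metric Filter Topology
open scoped Manifold

namespace FLTAgent.HeckeJacobian

section Local

variable {n : ℕ}

/-- A nowhere vanishing holomorphic function on a ball has a holomorphic `n`-th root. -/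
theorem exists_root_ball_of_ne_zero (hn : n ≠ 0) {c : ℂ} {r : ℝ} {f : ℂ → ℂ}
    (hf : AnalyticOnNhd ℂ f (ball c r)) (h0 : ∀ z ∈ ball c r, f z ≠ 0) :
    ∃ a : ℂ → ℂ, AnalyticOnNhd ℂ a (ball c r) ∧ ∀ z ∈ ball c r, a z ^ n = f z := by
  rcases Set.eq_empty_or_nonempty (ball c r) with he | hne
  · exact ⟨0, by simp [he, AnalyticOnNhd], by simp [he]⟩
  have hc : c ∈ ball c r := mem_ball_self (nonempty_ball.mp hne)
  have hd : DifferentiableOn ℂ (fun z => deriv f z / f z) (ball c r) :=
    (hf.deriv.differentiableOn).div hf.differentiableOn h0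
  obtain ⟨P, hP⟩ := hd.isExactOn_ball
  obtain ⟨C, hC⟩ := IsAlgClosed.exists_pow_nat_eq (k := ℂ) (f c * Complex.exp (-P c))
    (Nat.pos_of_ne_zero hn)
  have hconst : ∀ z ∈ ball c r, f z * Complex.exp (-P z) = f c * Complex.exp (-P c) := by
    intro z hz
    have hD : ∀ w ∈ ball c r, HasDerivAt (fun z => f z * Complex.exp (-P z)) 0 w := by
      intro w hw
      have hfw := (hf w hw).differentiableAt.hasDerivAt
      have he := (hP w hw).neg.cexp
      have hm : HasDerivAt (fun z => f z * Complex.exp (-P z))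
          (deriv f w * Complex.exp (-P w) + f w * (Complex.exp (-P w) * -(deriv f w / f w))) w :=
        hfw.mul he
      have h := h0 w hw
      have e0 : deriv f w * Complex.exp (-P w) +
          f w * (Complex.exp (-P w) * -(deriv f w / f w)) = 0 := by
        field_simp
        ring
      rwa [e0] at hm
    exact (isOpen_ball).is_const_of_deriv_eq_zero (convex_ball c r).isPreconnected
      (fun w hw => (hD w hw).differentiableAt.differentiableWithinAt)
      (fun w hw => (hD w hw).deriv) hz hc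
  refine ⟨fun z => C * Complex.exp (P z / n), ?_, fun z hz => ?_⟩
  · refine DifferentiableOn.analyticOnNhd (fun z hz => ?_) isOpen_ball
    exact ((((hP z hz).differentiableAt.div_const _).cexp).const_mul C).differentiableWithinAt
  · rw [mul_pow, hC, ← hconst z hz, ← Complex.exp_nat_mul, mul_assoc, ← Complex.exp_add,
      mul_div_cancel₀ _ (Nat.cast_ne_zero.mpr hn), neg_add_cancel, Complex.exp_zero, mul_one]

/-- A holomorphic function on a ball with finitely many zeros, of orders divisible by `n`, has a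
holomorphic `n`-th root. -/
theorem exists_root_ball (hn : n ≠ 0) {c : ℂ} {r : ℝ} (Z : Finset ℂ) :
    ∀ f : ℂ → ℂ, AnalyticOnNhd ℂ f (ball c r) → (∀ z ∈ ball c r, f z = 0 → z ∈ Z) →
      (∀ z ∈ ball c r, ∃ k : ℕ, analyticOrderAt f z = (n * k : ℕ)) →
      ∃ a : ℂ → ℂ, AnalyticOnNhd ℂ a (ball c r) ∧ ∀ z ∈ ball c r, a z ^ n = f z := by
  classical
  induction Z using Finset.induction_on with
  | empty =>
    intro f hf hz _
    exact exists_root_ball_of_ne_zero hn hf fun z hz' h0 => Finset.notMem_empty z (hz z hz' h0)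
  | insert u Z hu ih =>
    intro f hf hz hord
    by_cases hub : u ∈ ball c r
    swap
    · refine ih f hf (fun z hz' h0 => ?_) hord
      exact Finset.mem_of_mem_insert_of_ne (hz z hz' h0) (fun h => hub (h ▸ hz'))
    obtain ⟨k, hk⟩ := hord u hub
    obtain ⟨g₀, hg₀, hg₀0, hg₀e⟩ := ((hf u hub).analyticOrderAt_eq_natCast).mp hk
    let g : ℂ → ℂ := Function.update (fun z => f z / (z - u) ^ (n * k)) u (g₀ u)
    have hgne : ∀ z, z ≠ u → g =ᶠ[𝓝 z] fun w => f w / (w - u) ^ (n * k) := fun z hzu => by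
      filter_upwards [isOpen_ne.mem_nhds hzu] with w hw using Function.update_of_ne hw _ _
    have hgu : g =ᶠ[𝓝 u] g₀ := by
      filter_upwards [hg₀e] with w hw
      rcases eq_or_ne w u with rfl | hwu
      · simp [g]
      · simp only [g, Function.update_of_ne hwu]
        rw [hw, smul_eq_mul, mul_div_cancel_left₀ _ (pow_ne_zero _ (sub_ne_zero.mpr hwu))]
    have hgu0 : g u ≠ 0 := by simpa [g] using hg₀0
    have hga : AnalyticOnNhd ℂ g (ball c r) := fun z hzb => by
      rcases eq_or_ne z u with rfl | hzu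
      · exact hg₀.congr hgu.symm
      · refine ((hf z hzb).div ((analyticAt_id.sub analyticAt_const).pow _)
          (pow_ne_zero _ (sub_ne_zero.mpr hzu))).congr (hgne z hzu).symm
    have hfg : ∀ z, z ∈ ball c r → f z = (z - u) ^ (n * k) * g z := fun z hzb => by
      rcases eq_or_ne z u with rfl | hzu
      · have := hg₀e.self_of_nhds
        simpa [g, smul_eq_mul] using this
      · simp only [g, Function.update_of_ne hzu]
        rw [mul_div_cancel₀ _ (pow_ne_zero _ (sub_ne_zero.mpr hzu))]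
    have hgz : ∀ z ∈ ball c r, g z = 0 → z ∈ Z := fun z hzb h0 => by
      refine Finset.mem_of_mem_insert_of_ne (hz z hzb (by rw [hfg z hzb, h0, mul_zero])) ?_
      rintro rfl
      exact hgu0 h0
    have hgord : ∀ z ∈ ball c r, ∃ k : ℕ, analyticOrderAt g z = (n * k : ℕ) := fun z hzb => by
      rcases eq_or_ne z u with rfl | hzu
      · exact ⟨0, by rw [(hga z hzb).analyticOrderAt_eq_zero.mpr hgu0]; simp⟩
      · obtain ⟨l, hl⟩ := hord z hzb
        refine ⟨l, ?_⟩
        rw [← hl]
        have he : f =ᶠ[𝓝 z] (fun w => (w - u) ^ (n * k)) • g := by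
          filter_upwards [isOpen_ball.mem_nhds hzb] with w hw
          exact hfg w hw
        have ha : AnalyticAt ℂ (fun w : ℂ => (w - u) ^ (n * k)) z :=
          (analyticAt_id.sub analyticAt_const).pow _
        rw [analyticOrderAt_congr he, analyticOrderAt_smul ha (hga z hzb),
          ha.analyticOrderAt_eq_zero.mpr (pow_ne_zero _ (sub_ne_zero.mpr hzu)), zero_add]
    obtain ⟨a, ha, hae⟩ := ih g hga hgz hgord
    refine ⟨fun z => (z - u) ^ k * a z, fun z hzb => ((analyticAt_id.sub analyticAt_const).pow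
      _).mul (ha z hzb), fun z hzb => ?_⟩
    rw [mul_pow, hae z hzb, ← pow_mul, mul_comm k n, hfg z hzb]

end Local

/-- Holomorphic functions on the upper half plane. -/
def Hol : Subalgebra ℂ (ℍ → ℂ) where
  carrier := {f | MDiff f}
  mul_mem' hf hg := MDifferentiable.mul hf hg
  add_mem' hf hg := MDifferentiable.add hf hg
  algebraMap_mem' _ := mdifferentiable_const

namespace Hol

theorem isPreconnected_upper : IsPreconnected {z : ℂ | 0 < z.im} :=
  (convex_halfSpace_im_gt 0).isPreconnected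

theorem mdiff (f : Hol) : MDiff (f : ℍ → ℂ) := f.2

theorem analyticOnNhd (f : Hol) :
    AnalyticOnNhd ℂ ((f : ℍ → ℂ) ∘ ofComplex) {z | 0 < z.im} :=
  (UpperHalfPlane.mdifferentiable_iff.mp f.2).analyticOnNhd isOpen_upperHalfPlaneSet

theorem analyticAt (f : Hol) (τ : ℍ) : AnalyticAt ℂ ((f : ℍ → ℂ) ∘ ofComplex) τ :=
  (analyticOnNhd f) τ τ.2

/-- Identity theorem. -/
theorem eq_of_eventuallyEq {f g : Hol} {τ : ℍ}
    (h : (f : ℍ → ℂ) ∘ ofComplex =ᶠ[𝓝 (τ : ℂ)] (g : ℍ → ℂ) ∘ ofComplex) : f = g := by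
  refine Subtype.ext (funext fun z => ?_)
  have := (analyticOnNhd f).eqOn_of_preconnected_of_eventuallyEq (analyticOnNhd g)
    isPreconnected_upper τ.2 h z.2
  simpa using this

/-- Identity theorem on an open set of `ℍ`. -/
theorem eq_of_eqOn {f g : Hol} {U : Set ℍ} (hU : IsOpen U) (hne : U.Nonempty)
    (h : ∀ τ ∈ U, (f : ℍ → ℂ) τ = (g : ℍ → ℂ) τ) : f = g := by
  obtain ⟨τ, hτ⟩ := hne
  refine eq_of_eventuallyEq (τ := τ) ?_
  have : (ofComplex : ℂ → ℍ) ⁻¹' U ∈ 𝓝 (τ : ℂ) :=
    (mdifferentiableAt_ofComplex τ.im_pos).continuousAt.preimage_mem_nhds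
      (by rw [ofComplex_apply]; exact hU.mem_nhds hτ)
  filter_upwards [this] with z hz using h _ hz

instance : IsDomain Hol :=
  haveI : NoZeroDivisors Hol := ⟨fun {f g} h => by
    have h' : ∀ z ∈ {z : ℂ | 0 < z.im},
        ((f : ℍ → ℂ) ∘ ofComplex) z * ((g : ℍ → ℂ) ∘ ofComplex) z = 0 := fun z _ =>
      congrFun (congrArg Subtype.val h) (ofComplex z)
    rcases (analyticOnNhd f).eq_zero_or_eq_zero_of_mul_eq_zero (analyticOnNhd g) h'
      isPreconnected_upper with h0 | h0
    · exact Or.inl (Subtype.ext (funext fun z => by simpa using h0 z z.2))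
    · exact Or.inr (Subtype.ext (funext fun z => by simpa using h0 z z.2))⟩
  haveI : Nontrivial Hol := ⟨⟨0, 1, fun h => zero_ne_one (congrFun (congrArg Subtype.val h) I)⟩⟩
  NoZeroDivisors.to_isDomain _

/-- The vanishing order at a point. -/
def order (f : Hol) (τ : ℍ) : ℕ∞ := analyticOrderAt ((f : ℍ → ℂ) ∘ ofComplex) τ

theorem order_ne_top {f : Hol} (hf : f ≠ 0) (τ : ℍ) : order f τ ≠ ⊤ := fun h => hf <| by
  refine eq_of_eventuallyEq (τ := τ) ?_
  filter_upwards [analyticOrderAt_eq_top.mp h] with z hz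
  simpa using hz

/-- The vanishing order at a point, as an integer (zero for the zero function). -/
def ordI (f : Hol) (τ : ℍ) : ℤ := ((order f τ).toNat : ℤ)

theorem order_mul (f g : Hol) (τ : ℍ) : order (f * g) τ = order f τ + order g τ := by
  rw [order, show ((f * g : Hol) : ℍ → ℂ) ∘ ofComplex =
      ((f : ℍ → ℂ) ∘ ofComplex) • ((g : ℍ → ℂ) ∘ ofComplex) from rfl,
    analyticOrderAt_smul (analyticAt f τ) (analyticAt g τ)]
  rfl

theorem ordI_mul {f g : Hol} (hf : f ≠ 0) (hg : g ≠ 0) (τ : ℍ) :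
    ordI (f * g) τ = ordI f τ + ordI g τ := by
  simp only [ordI, order_mul, ENat.toNat_add (order_ne_top hf τ) (order_ne_top hg τ),
    Nat.cast_add]

theorem ordI_one (τ : ℍ) : ordI (1 : Hol) τ = 0 := by
  have := ordI_mul (one_ne_zero (α := Hol)) one_ne_zero τ
  rw [mul_one] at this
  omega

theorem ordI_add_ge {f g : Hol} (hfg : f + g ≠ 0) (τ : ℍ) :
    min (ordI f τ) (ordI g τ) ≤ ordI (f + g) τ := by
  rcases eq_or_ne f 0 with rfl | hf
  · simp [ordI]
  rcases eq_or_ne g 0 with rfl | hg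
  · simp [ordI]
  have h := le_analyticOrderAt_add (f := (f : ℍ → ℂ) ∘ ofComplex)
    (g := (g : ℍ → ℂ) ∘ ofComplex) (z₀ := (τ : ℂ))
  change min (order f τ) (order g τ) ≤ order (f + g) τ at h
  rw [← ENat.natCast_toNat (order_ne_top hf τ), ← ENat.natCast_toNat (order_ne_top hg τ),
    ← ENat.natCast_toNat (order_ne_top hfg τ), min_le_iff, Nat.cast_le, Nat.cast_le] at h
  simp only [ordI]
  omega

/-- The exhausting balls. -/
private def cen (m : ℕ) : ℂ := ((m : ℝ) + 2 : ℝ) * Complex.I
private def rad (m : ℕ) : ℝ := (m : ℝ) + 2 - 1 / ((m : ℝ) + 2)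

private theorem dist_cen (z : ℂ) (m : ℕ) :
    dist z (cen m) ^ 2 = z.re ^ 2 + (z.im - ((m : ℝ) + 2)) ^ 2 := by
  rw [Complex.dist_eq, cen, Complex.sq_norm, Complex.normSq_apply]
  simp
  ring

private theorem rad_pos (m : ℕ) : 0 < rad m := by
  have h2 : (2 : ℝ) ≤ (m : ℝ) + 2 := by linarith [Nat.cast_nonneg (α := ℝ) m]
  have h1 : 1 / ((m : ℝ) + 2) ≤ 1 / 2 := one_div_le_one_div_of_le two_pos h2
  rw [rad]; linarith

private theorem closedBall_subset (m : ℕ) : closedBall (cen m) (rad m) ⊆ {z : ℂ | 0 < z.im} := by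
  intro z hz
  have h := (Complex.abs_im_le_norm (z - cen m)).trans (by simpa [Complex.dist_eq] using hz)
  have hp : (0 : ℝ) < 1 / ((m : ℝ) + 2) := by positivity
  have : (cen m).im = (m : ℝ) + 2 := by simp [cen]
  rw [Complex.sub_im, this, abs_le, rad] at h
  show 0 < z.im
  linarith [h.1]

private theorem ball_mono {m m' : ℕ} (h : m ≤ m') :
    ball (cen m) (rad m) ⊆ ball (cen m') (rad m') := by
  refine Metric.ball_subset_ball' ?_
  have hm : (m : ℝ) ≤ m' := Nat.cast_le.mpr h
  have hd : dist (cen m) (cen m') = (m' : ℝ) - m := by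
    rw [Complex.dist_eq, cen, cen, ← sub_mul, ← Complex.ofReal_sub, norm_mul, Complex.norm_I,
      mul_one, Complex.norm_real, Real.norm_eq_abs, abs_sub_comm, abs_of_nonneg (by linarith)]
    ring
  have : 1 / ((m' : ℝ) + 2) ≤ 1 / ((m : ℝ) + 2) :=
    one_div_le_one_div_of_le (by positivity) (by linarith)
  rw [hd, rad, rad]
  linarith

private theorem exists_mem_ball (τ : ℍ) : ∃ m, (τ : ℂ) ∈ ball (cen m) (rad m) := by
  obtain ⟨m, hm⟩ := exists_nat_gt (((τ : ℂ).re ^ 2 + (τ : ℂ).im ^ 2 + 2) / (2 * (τ : ℂ).im))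
  have hy : 0 < (τ : ℂ).im := τ.im_pos
  rw [div_lt_iff₀ (by positivity)] at hm
  refine ⟨m, ?_⟩
  rw [mem_ball]
  refine lt_of_pow_lt_pow_left₀ 2 (rad_pos m).le ?_
  rw [dist_cen, rad]
  have hM : (0 : ℝ) < (m : ℝ) + 2 := by positivity
  have h1 : ((m : ℝ) + 2 - 1 / ((m : ℝ) + 2)) ^ 2 =
      ((m : ℝ) + 2) ^ 2 - 2 + (1 / ((m : ℝ) + 2)) ^ 2 := by field_simp; ring
  rw [h1]
  nlinarith [sq_nonneg (1 / ((m : ℝ) + 2))]

/-- A holomorphic function on `ℍ` all of whose orders are divisible by `n` is an `n`-th power. -/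
theorem exists_root {n : ℕ} (hn : n ≠ 0) (f : Hol) (hord : ∀ τ, (n : ℤ) ∣ ordI f τ) :
    ∃ a : Hol, a ^ n = f := by
  classical
  rcases eq_or_ne f 0 with rfl | hf
  · exact ⟨0, zero_pow hn⟩
  set F := (f : ℍ → ℂ) ∘ ofComplex with hF
  have hFa : AnalyticOnNhd ℂ F {z | 0 < z.im} := (analyticOnNhd f)
  -- finitely many zeros in each ball
  have hfin : ∀ m, {z ∈ closedBall (cen m) (rad m) | F z = 0}.Finite := by
    intro m
    by_contra hinf
    obtain ⟨x, hx, hacc⟩ := (Set.not_finite.mp hinf).exists_accPt_of_subset_isCompact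
      (isCompact_closedBall (cen m) (rad m)) fun z hz => hz.1
    have hfreq : ∃ᶠ z in 𝓝[≠] x, F z = 0 := by
      rw [accPt_iff_frequently] at hacc
      rw [frequently_nhdsWithin_iff]
      exact hacc.mono fun z hz => ⟨hz.2.2, hz.1⟩
    refine hf (eq_of_eventuallyEq (τ := ⟨x, closedBall_subset m hx⟩) ?_)
    have := hFa.eqOn_zero_of_preconnected_of_frequently_eq_zero isPreconnected_upper
      (closedBall_subset m hx) hfreq
    filter_upwards [isOpen_upperHalfPlaneSet.mem_nhds (closedBall_subset m hx)] with z hz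
    simpa [F] using this hz
  have hordF : ∀ z, 0 < z.im → ∃ k : ℕ, analyticOrderAt F z = (n * k : ℕ) := by
    intro z hz
    obtain ⟨k, hk⟩ := hord ⟨z, hz⟩
    have hk0 : 0 ≤ k := by
      by_contra h
      have : ordI f ⟨z, hz⟩ < 0 := hk ▸ mul_neg_of_pos_of_neg (by omega) (by omega)
      simp only [ordI] at this
      omega
    refine ⟨k.toNat, ?_⟩
    have hne := order_ne_top hf ⟨z, hz⟩
    rw [order] at hne
    rw [← ENat.natCast_toNat hne, Nat.cast_inj]
    have : ((order f ⟨z, hz⟩).toNat : ℤ) = ((n * k.toNat : ℕ) : ℤ) := by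
      push_cast
      rw [Int.toNat_of_nonneg hk0]
      exact hk
    exact_mod_cast this
  have hsub : ∀ m, ball (cen m) (rad m) ⊆ {z : ℂ | 0 < z.im} := fun m =>
    ball_subset_closedBall.trans (closedBall_subset m)
  have hroot : ∀ m, ∃ a : ℂ → ℂ, AnalyticOnNhd ℂ a (ball (cen m) (rad m)) ∧
      ∀ z ∈ ball (cen m) (rad m), a z ^ n = F z := fun m =>
    exists_root_ball hn (hfin m).toFinset F (hFa.mono (hsub m))
      (fun z hz h0 => (hfin m).mem_toFinset.mpr ⟨ball_subset_closedBall hz, h0⟩)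
      (fun z hz => hordF z (hsub m hz))
  -- a base point in the smallest ball with `F ≠ 0`
  obtain ⟨z₀, hz₀, hF₀⟩ : ∃ z₀ ∈ ball (cen 0) (rad 0), F z₀ ≠ 0 := by
    by_contra! h
    refine hf (eq_of_eventuallyEq (τ := ⟨cen 0, hsub 0 (mem_ball_self (rad_pos 0))⟩) ?_)
    filter_upwards [isOpen_ball.mem_nhds (mem_ball_self (rad_pos 0))] with z hz
    simpa [F] using h z hz
  obtain ⟨w, hw⟩ := IsAlgClosed.exists_pow_nat_eq (k := ℂ) (F z₀) (Nat.pos_of_ne_zero hn)
  choose b hb hbe using hroot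
  -- normalise
  let a : ℕ → ℂ → ℂ := fun m z => w / b m z₀ * b m z
  have hz₀m : ∀ m, z₀ ∈ ball (cen m) (rad m) := fun m => ball_mono (Nat.zero_le m) hz₀
  have hb0 : ∀ m, b m z₀ ≠ 0 := fun m h => hF₀ (by rw [← hbe m z₀ (hz₀m m), h, zero_pow hn])
  have ha : ∀ m, AnalyticOnNhd ℂ (a m) (ball (cen m) (rad m)) := fun m z hz =>
    analyticAt_const.mul (hb m z hz)
  have hae : ∀ m, ∀ z ∈ ball (cen m) (rad m), a m z ^ n = F z := fun m z hz => by
    rw [mul_pow, div_pow, hw, hbe m z₀ (hz₀m m), div_self hF₀, one_mul, hbe m z hz]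
  have haw : ∀ m, a m z₀ = w := fun m => div_mul_cancel₀ w (hb0 m)
  -- uniqueness on overlaps
  have hcompat : ∀ m m', m ≤ m' → ∀ z ∈ ball (cen m) (rad m), a m z = a m' z := by
    intro m m' hmm' z hz
    have : NeZero n := ⟨hn⟩
    have hev : (a m) =ᶠ[𝓝 z₀] a m' := by
      have hcm := (ha m z₀ (hz₀m m)).continuousAt
      have hcm' := (ha m' z₀ (hz₀m m')).continuousAt
      have hw0 : w ≠ 0 := fun h => hF₀ (by rw [← hw, h, zero_pow hn])
      -- the quotient takes finitely many values and is continuous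
      have hq : ContinuousAt (fun z => a m' z / a m z) z₀ := hcm'.div hcm (by rw [haw]; exact hw0)
      have hR : ∀ᶠ z in 𝓝 z₀, a m' z / a m z ∈ {ζ : ℂ | ζ ^ n = 1} ∧ a m z ≠ 0 := by
        filter_upwards [isOpen_ball.mem_nhds (hz₀m m), isOpen_ball.mem_nhds (hz₀m m'),
          hcm.eventually_ne (by rw [haw]; exact hw0)] with z hz hz' hne
        refine ⟨?_, hne⟩
        show (a m' z / a m z) ^ n = 1
        rw [div_pow, hae m z hz, hae m' z hz', div_self]
        rw [← hae m z hz]
        exact pow_ne_zero _ hne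
      have hfinR : {ζ : ℂ | ζ ^ n = 1}.Finite :=
        (Polynomial.nthRootsFinset n (1 : ℂ)).finite_toSet.subset fun ζ hζ => by
          simpa [Polynomial.mem_nthRootsFinset (Nat.pos_of_ne_zero hn)] using hζ
      have hopen : {ζ : ℂ | ζ = 1 ∨ ζ ∉ {ζ : ℂ | ζ ^ n = 1}} ∈ 𝓝 (a m' z₀ / a m z₀) := by
        rw [haw, haw, div_self hw0]
        refine Filter.mem_of_superset
          (((hfinR.subset Set.sdiff_subset).isClosed
            (s := {ζ : ℂ | ζ ^ n = 1} \ {1})).isOpen_compl.mem_nhds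
            (by simp)) fun ζ hζ => ?_
        simp only [Set.mem_compl_iff, Set.mem_sdiff, Set.mem_singleton_iff, not_and_not_right] at hζ
        simp only [Set.mem_ofPred_eq]
        tauto
      filter_upwards [hR, hq.preimage_mem_nhds hopen] with z ⟨hz1, hz2⟩ hz3
      rcases hz3 with h | h
      · exact ((div_eq_one_iff_eq hz2).mp h).symm
      · exact absurd hz1 h
    exact (ha m).eqOn_of_preconnected_of_eventuallyEq
      ((ha m').mono (ball_mono hmm')) (convex_ball _ _).isPreconnected (hz₀m m) hev hz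
  let G : ℍ → ℂ := fun τ => a (exists_mem_ball τ).choose τ
  have hG : ∀ m (τ : ℍ), (τ : ℂ) ∈ ball (cen m) (rad m) → G τ = a m τ := by
    intro m τ hτ
    rcases le_total (exists_mem_ball τ).choose m with h | h
    · exact hcompat _ _ h _ (exists_mem_ball τ).choose_spec
    · exact (hcompat _ _ h _ hτ).symm
  refine ⟨⟨G, fun τ => mdifferentiableAt_iff.mpr ?_⟩, Subtype.ext (funext fun τ => ?_)⟩
  · obtain ⟨m, hm⟩ := exists_mem_ball τ
    refine ((ha m _ hm).differentiableAt).congr_of_eventuallyEq ?_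
    filter_upwards [isOpen_ball.mem_nhds hm] with z hz
    rw [Function.comp_apply, ofComplex_apply_of_im_pos (hsub m hz)]
    exact hG m _ hz
  · obtain ⟨m, hm⟩ := exists_mem_ball τ
    show G τ ^ n = _
    rw [hG m τ hm, hae m _ hm]
    simp [F]

end Hol

end FLTAgent.HeckeJacobian

end
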