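import Fermat.Prelude.Def_AlgebraicCurve_Correspondence
import Mathlib.RingTheory.Norm.Transitivity
import Mathlib.RingTheory.Norm.Defs
import Mathlib.LinearAlgebra.FiniteDimensional.Basic
import Mathlib.FieldTheory.IntermediateField.Basic
import Mathlib.LinearAlgebra.FiniteDimensional.Lemmas
import Mathlib.LinearAlgebra.Dimension.OrzechProperty

/-!
# Algebra of correspondences on divisors

Two finitely local additive maps of divisor groups which agree on principal divisors are equal
(`eq_of_eq_on_principal`), so functoriality and base change of pushforward and pullback of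
divisors (`pullbackAlong_comp`, `pushforwardAlong_comp`, `pullbackAlong_comp_pushforwardAlong`)
follow from the corresponding identities of norms.
-/

set_option autoImplicit false

noncomputable section

open AlgebraicCurve

namespace FLTAgent.HeckeJacobian

/-- Finitely many places can be separated by functions. -/
def SeparatesPlaces (K F : Type*) [Field K] [Field F] [Algebra K F] : Prop :=
  ∀ (S : Finset (Place K F)) (v : Place K F), v ∈ S →
    ∃ f : F, f ≠ 0 ∧ v.ord f = 1 ∧ ∀ w ∈ S, w ≠ v → w.ord f = 0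

section LocalMaps

variable {K F K' F' K'' F'' : Type*} [Field K] [Field F] [Algebra K F]
  [Field K'] [Field F'] [Algebra K' F'] [Field K''] [Field F''] [Algebra K'' F'']

/-- A map of divisor groups each of whose values depends on finitely many places only. -/
def IsLocalDivMap (Φ : Divisor K F →+ Divisor K' F') : Prop :=
  ∀ w, ∃ S : Finset (Place K F), ∀ D : Divisor K F, (∀ v ∈ S, D v = 0) → Φ D w = 0

/-- A composite of local divisor maps is local. -/
theorem IsLocalDivMap.comp {Φ : Divisor K F →+ Divisor K' F'}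
    {Ψ : Divisor K' F' →+ Divisor K'' F''} (hΨ : IsLocalDivMap Ψ) (hΦ : IsLocalDivMap Φ) :
    IsLocalDivMap (Ψ.comp Φ) := by
  classical
  intro w
  obtain ⟨S, hS⟩ := hΨ w
  choose T hT using hΦ
  refine ⟨S.biUnion T, fun D hD => hS _ fun v hv => hT v D fun u hu => hD u ?_⟩
  exact Finset.mem_biUnion.mpr ⟨v, hv, hu⟩

/-- The key rigidity lemma. -/
theorem eq_of_eq_on_principal [HasPrincipalDivisors K F] (hsep : SeparatesPlaces K F)
    {Φ Ψ : Divisor K F →+ Divisor K' F'} (hΦ : IsLocalDivMap Φ) (hΨ : IsLocalDivMap Ψ)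
    (h : ∀ (D : Divisor K F) (f : F), f ≠ 0 → (∀ v, D v = v.ord f) → Φ D = Ψ D) :
    Φ = Ψ := by
  classical
  refine Finsupp.addHom_ext fun v n => ?_
  suffices h1 : Φ (Finsupp.single v 1) = Ψ (Finsupp.single v 1) by
    have hn : Finsupp.single v n = n • Finsupp.single v (1 : ℤ) := by simp
    rw [hn, map_zsmul, map_zsmul, h1]
  refine Finsupp.ext fun w => ?_
  obtain ⟨S, hS⟩ := hΦ w
  obtain ⟨T, hT⟩ := hΨ w
  obtain ⟨f, hf0, hfv, hfo⟩ := hsep (insert v (S ∪ T)) v (Finset.mem_insert_self _ _)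
  obtain ⟨P, hP, -⟩ := HasPrincipalDivisors.exists_divisor (K := K) f hf0
  have hvan : ∀ u ∈ insert v (S ∪ T), (Finsupp.single v (1 : ℤ) - P) u = 0 := by
    intro u hu
    rw [Finsupp.sub_apply, hP u]
    rcases eq_or_ne u v with rfl | huv
    · rw [Finsupp.single_eq_same, hfv, sub_self]
    · rw [Finsupp.single_eq_of_ne huv, hfo u hu huv, sub_self]
  have h1 := hS _ fun u hu => hvan u (Finset.mem_insert_of_mem (Finset.mem_union_left _ hu))
  have h2 := hT _ fun u hu => hvan u (Finset.mem_insert_of_mem (Finset.mem_union_right _ hu))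
  rw [map_sub, Finsupp.sub_apply, sub_eq_zero] at h1 h2
  rw [h1, h2, h P f hf0 hP]

end LocalMaps

section Along

variable {K F F' : Type*} [Field K] [Field F] [Field F'] [Algebra K F] [Algebra K F']

/-- The norm along a morphism of fields. -/
def normAlong (φ : F →ₐ[K] F') : F' →* F :=
  letI := algebraAlong φ
  Algebra.norm F

theorem normAlong_ne_zero (φ : F →ₐ[K] F') (hfin : FiniteAlong K φ) {f : F'} (hf : f ≠ 0) :
    normAlong φ f ≠ 0 := by
  let := algebraAlong φ
  have : Module.Finite F F' := hfin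
  exact Algebra.norm_ne_zero_iff.mpr hf

/-- The pushforward of a principal divisor is the divisor of the norm. -/
theorem pushforwardAlong_apply_principal (φ : F →ₐ[K] F') (hφ : φ.toRingHom.IsIntegral)
    (hfin : FiniteAlong K φ) (hN : NormFormulaAlong K φ hfin) {D : Divisor K F'} {f : F'}
    (hf : f ≠ 0) (hD : ∀ w, D w = w.ord f) (v : Place K F) :
    Divisor.pushforwardAlong φ hφ D v = v.ord (normAlong φ f) := by
  let := algebraAlong φ
  have := isScalarTower_along φ
  have := isIntegral_along φ hφ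
  have : Module.Finite F F' := hfin
  exact hN f hf D hD v

variable [HasPrincipalDivisors K F']

theorem pullbackAlong_apply_principal (φ : F →ₐ[K] F') (hφ : φ.toRingHom.IsIntegral)
    {D : Divisor K F} {f : F} (hD : ∀ v, D v = v.ord f) (w : Place K F') :
    Divisor.pullbackAlong φ hφ D w = w.ord (φ f) := by
  rw [Divisor.pullbackAlong_apply, hD, ← Place.ord_restrictAlong]

theorem isLocal_pullbackAlong (φ : F →ₐ[K] F') (hφ : φ.toRingHom.IsIntegral) :
    IsLocalDivMap (Divisor.pullbackAlong φ hφ) := by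
  intro w
  refine ⟨{w.restrictAlong φ hφ}, fun D hD => ?_⟩
  rw [Divisor.pullbackAlong_apply, hD _ (Finset.mem_singleton_self _), mul_zero]

theorem isLocal_pushforwardAlong (φ : F →ₐ[K] F') (hφ : φ.toRingHom.IsIntegral) :
    IsLocalDivMap (Divisor.pushforwardAlong φ hφ) := by
  classical
  let := algebraAlong φ
  have := isScalarTower_along φ
  have := isIntegral_along φ hφ
  intro v
  refine ⟨v.fiber F', fun D hD => ?_⟩
  show Divisor.pushforward F D v = 0
  rw [Divisor.pushforward_apply]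
  refine Finset.sum_eq_zero fun w _ => ?_
  by_cases hw : w.restrict F = v
  · rw [if_pos hw, hD w (Place.mem_fiber.mpr hw), zero_mul]
  · rw [if_neg hw]

end Along

section Functoriality

variable {K F F₁ F₂ Z : Type*} [Field K] [Field F] [Field F₁] [Field F₂] [Field Z]
  [Algebra K F] [Algebra K F₁] [Algebra K F₂] [Algebra K Z]
  [HasPrincipalDivisors K Z]

theorem pullbackAlong_comp [HasPrincipalDivisors K F] [HasPrincipalDivisors K F₁]
    (hsep : SeparatesPlaces K F) (φ : F →ₐ[K] F₁) (u : F₁ →ₐ[K] Z) (χ : F →ₐ[K] Z)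
    (h : ∀ x, u (φ x) = χ x)
    (hφ : φ.toRingHom.IsIntegral) (hu : u.toRingHom.IsIntegral) (hχ : χ.toRingHom.IsIntegral) :
    (Divisor.pullbackAlong u hu).comp (Divisor.pullbackAlong φ hφ) =
      Divisor.pullbackAlong χ hχ := by
  refine eq_of_eq_on_principal hsep ((isLocal_pullbackAlong u hu).comp (isLocal_pullbackAlong φ hφ))
    (isLocal_pullbackAlong χ hχ) fun D f hf hD => Finsupp.ext fun w => ?_
  rw [AddMonoidHom.comp_apply,
    pullbackAlong_apply_principal u hu (pullbackAlong_apply_principal φ hφ hD),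
    pullbackAlong_apply_principal χ hχ hD, h]

omit [HasPrincipalDivisors K Z] in
theorem normAlong_comp (φ : F →ₐ[K] F₁) (u : F₁ →ₐ[K] Z) (χ : F →ₐ[K] Z)
    (h : ∀ x, u (φ x) = χ x) (z : Z) :
    normAlong χ z = normAlong φ (normAlong u z) := by
  let := algebraAlong φ
  let := algebraAlong u
  let : Algebra F Z := algebraAlong χ
  have : IsScalarTower F F₁ Z := IsScalarTower.of_algebraMap_eq fun x => (h x).symm
  exact (Algebra.norm_norm (R := F) (S := F₁) (a := z)).symm

theorem pushforwardAlong_comp [HasPrincipalDivisors K F₁]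
    (hsep : SeparatesPlaces K Z) (φ : F →ₐ[K] F₁) (u : F₁ →ₐ[K] Z) (χ : F →ₐ[K] Z)
    (h : ∀ x, u (φ x) = χ x)
    (hφ : φ.toRingHom.IsIntegral) (hu : u.toRingHom.IsIntegral) (hχ : χ.toRingHom.IsIntegral)
    (hfφ : FiniteAlong K φ) (hfu : FiniteAlong K u) (hfχ : FiniteAlong K χ)
    (hNφ : NormFormulaAlong K φ hfφ) (hNu : NormFormulaAlong K u hfu)
    (hNχ : NormFormulaAlong K χ hfχ) :
    (Divisor.pushforwardAlong φ hφ).comp (Divisor.pushforwardAlong u hu) =
      Divisor.pushforwardAlong χ hχ := by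
  refine eq_of_eq_on_principal hsep
    ((isLocal_pushforwardAlong φ hφ).comp (isLocal_pushforwardAlong u hu))
    (isLocal_pushforwardAlong χ hχ) fun D f hf hD => Finsupp.ext fun w => ?_
  rw [AddMonoidHom.comp_apply,
    pushforwardAlong_apply_principal φ hφ hfφ hNφ (normAlong_ne_zero u hfu hf)
      (pushforwardAlong_apply_principal u hu hfu hNu hf hD),
    pushforwardAlong_apply_principal χ hχ hfχ hNχ hf hD, normAlong_comp φ u χ h]

omit [HasPrincipalDivisors K Z] in
/-- Base change of the norm along a cocartesian square of fields. -/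
theorem normAlong_baseChange (φ₁ : F →ₐ[K] F₁) (φ₂ : F →ₐ[K] F₂) (u₁ : F₁ →ₐ[K] Z)
    (u₂ : F₂ →ₐ[K] Z) (hcomm : ∀ x, u₁ (φ₁ x) = u₂ (φ₂ x))
    (hfin₁ : FiniteAlong K φ₁) (hfin : FiniteAlong K u₂)
    (hrank : finrankAlong K u₂ = finrankAlong K φ₁)
    (hgen : Subfield.closure (Set.range u₂ ∪ Set.range u₁) = ⊤) (x : F₁) :
    normAlong u₂ (u₁ x) = φ₂ (normAlong φ₁ x) := by
  classical
  let := algebraAlong φ₁
  let : Algebra F₂ Z := algebraAlong u₂
  have : Module.Finite F F₁ := hfin₁
  have : Module.Finite F₂ Z := hfin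
  let b := Module.finBasis F F₁
  -- the image of `b` spans
  let A : Subalgebra F₂ Z := Algebra.adjoin F₂ (Set.range u₁)
  have hmap : ∀ (c : F) (y : F₁), u₁ (c • y) = φ₂ c • u₁ y := fun c y => by
    rw [Algebra.smul_def, Algebra.smul_def, map_mul]
    exact congrArg (· * u₁ y) (hcomm c)
  have hAtop : A = ⊤ := by
    have hA : IsField A := by
      have : Algebra.IsAlgebraic F₂ Z := Algebra.IsAlgebraic.of_finite F₂ Z
      exact Subalgebra.isField_of_algebraic A
    have hinv : ∀ z ∈ A, z⁻¹ ∈ A := fun z hz => by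
      rcases eq_or_ne z 0 with rfl | hz0
      · simp
      obtain ⟨y, hy⟩ := hA.mul_inv_cancel (a := (⟨z, hz⟩ : A))
        (by simpa [Subtype.ext_iff] using hz0)
      have : z⁻¹ = (y : Z) := inv_eq_of_mul_eq_one_right (congrArg Subtype.val hy)
      exact this ▸ y.2
    let S : Subfield Z := { A.toSubring with inv_mem' := hinv }
    have hS : Subfield.closure (Set.range u₂ ∪ Set.range u₁) ≤ S := by
      rw [Subfield.closure_le]
      rintro _ (⟨y, rfl⟩ | ⟨y, rfl⟩)
      · exact A.algebraMap_mem y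
      · exact Algebra.subset_adjoin ⟨y, rfl⟩
    rw [hgen] at hS
    exact eq_top_iff.mpr fun z _ => hS (Subfield.mem_top z)
  have hspan : ⊤ ≤ Submodule.span F₂ (Set.range (u₁ ∘ b)) := by
    intro z _
    have hz : z ∈ Subalgebra.toSubmodule A := by rw [hAtop]; trivial
    rw [Algebra.adjoin_eq_span] at hz
    refine Submodule.span_le.mpr ?_ hz
    intro w hw
    obtain ⟨y, rfl⟩ : w ∈ Set.range u₁ := by
      refine Submonoid.closure_induction (fun _ h => h) ⟨1, map_one u₁⟩ ?_ hw
      rintro _ _ _ _ ⟨s, rfl⟩ ⟨t, rfl⟩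
      exact ⟨s * t, map_mul u₁ s t⟩
    rw [← b.sum_repr y, map_sum]
    refine Submodule.sum_mem _ fun i _ => ?_
    rw [hmap]
    exact Submodule.smul_mem _ _ (Submodule.subset_span ⟨i, rfl⟩)
  have hcard : Fintype.card (Fin (Module.finrank F F₁)) = Module.finrank F₂ Z := by
    rw [Fintype.card_fin]; exact hrank.symm
  let b' : Module.Basis (Fin (Module.finrank F F₁)) F₂ Z :=
    basisOfTopLeSpanOfCardEqFinrank (u₁ ∘ b) hspan hcard
  have hb' : ⇑b' = u₁ ∘ b := coe_basisOfTopLeSpanOfCardEqFinrank _ _ _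
  have hmat : Algebra.leftMulMatrix b' (u₁ x) = (Algebra.leftMulMatrix b x).map φ₂ := by
    ext i j
    rw [Matrix.map_apply, Algebra.leftMulMatrix_eq_repr_mul, Algebra.leftMulMatrix_eq_repr_mul]
    have hrepr : u₁ x * b' j = ∑ i, φ₂ (b.repr (x * b j) i) • b' i := by
      rw [hb', Function.comp_apply, ← map_mul]
      conv_lhs => rw [← b.sum_repr (x * b j), map_sum]
      simp only [hmap, Function.comp_apply]
    rw [hrepr, b'.repr_sum_self]
  show Algebra.norm F₂ (u₁ x) = φ₂ (Algebra.norm F x)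
  rw [Algebra.norm_eq_matrix_det b', Algebra.norm_eq_matrix_det b, hmat]
  exact ((φ₂ : F →+* F₂).map_det _).symm

/-- Base change: `φ₂^* ∘ φ₁_* = u₂_* ∘ u₁^*`. -/
theorem pullbackAlong_comp_pushforwardAlong [HasPrincipalDivisors K F₁]
    [HasPrincipalDivisors K F₂]
    (hsep : SeparatesPlaces K F₁) (φ₁ : F →ₐ[K] F₁) (φ₂ : F →ₐ[K] F₂) (u₁ : F₁ →ₐ[K] Z)
    (u₂ : F₂ →ₐ[K] Z) (hcomm : ∀ x, u₁ (φ₁ x) = u₂ (φ₂ x))
    (h₁ : φ₁.toRingHom.IsIntegral) (h₂ : φ₂.toRingHom.IsIntegral)
    (k₁ : u₁.toRingHom.IsIntegral) (k₂ : u₂.toRingHom.IsIntegral)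
    (hfin₁ : FiniteAlong K φ₁) (hfin : FiniteAlong K u₂)
    (hN₁ : NormFormulaAlong K φ₁ hfin₁) (hN : NormFormulaAlong K u₂ hfin)
    (hrank : finrankAlong K u₂ = finrankAlong K φ₁)
    (hgen : Subfield.closure (Set.range u₂ ∪ Set.range u₁) = ⊤) :
    (Divisor.pullbackAlong φ₂ h₂).comp (Divisor.pushforwardAlong φ₁ h₁) =
      (Divisor.pushforwardAlong u₂ k₂).comp (Divisor.pullbackAlong u₁ k₁) := by
  refine eq_of_eq_on_principal hsep
    ((isLocal_pullbackAlong φ₂ h₂).comp (isLocal_pushforwardAlong φ₁ h₁))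
    ((isLocal_pushforwardAlong u₂ k₂).comp (isLocal_pullbackAlong u₁ k₁))
    fun D f hf hD => Finsupp.ext fun w => ?_
  rw [AddMonoidHom.comp_apply, AddMonoidHom.comp_apply,
    pullbackAlong_apply_principal φ₂ h₂ (pushforwardAlong_apply_principal φ₁ h₁ hfin₁ hN₁ hf hD),
    pushforwardAlong_apply_principal u₂ k₂ hfin hN (by simpa using hf)
      (pullbackAlong_apply_principal u₁ k₁ hD),
    normAlong_baseChange φ₁ φ₂ u₁ u₂ hcomm hfin₁ hfin hrank hgen]

end Functoriality

end FLTAgent.HeckeJacobian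

end
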