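import Fermat.Agent.HeckeJacobian.Roots
import Fermat.Agent.ModularFF.Degree
import Mathlib.RingTheory.Jacobson.Ring
import Mathlib.RingTheory.FiniteType

/-!
# Descent of invariant holomorphic roots

`exists_pow_eq_of_invariant`: a holomorphic `n`-th root of a function in `ℚ̄(X₀(N))` which is
invariant under `Γ₀(N)` comes from an `n`-th root in the function field.
-/

set_option autoImplicit false

noncomputable section

open UpperHalfPlane CongruenceSubgroup AlgebraicCurve ModularCurve Filter Topology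
open scoped Manifold MatrixGroups Polynomial

namespace FLTAgent.HeckeJacobian

open FLTAgent.ModularFF

local notation "Qbar" => AlgebraicClosure ℚ
local notation "𝕢" => Function.Periodic.qParam

theorem qParam_natCast_pow (N : ℕ) [NeZero N] (τ : ℍ) :
    𝕢 (N : ℝ) (τ : ℂ) ^ N = 𝕢 1 (τ : ℂ) := by
  simpa using norm_qParam_natCast_pow N 1 τ

theorem root_mem_moderateRing {n : ℕ} (hn : n ≠ 0) {a H : Hol} (ha : a ^ n = H)
    (hH : (H : ℍ → ℂ) ∈ moderateRing) : (a : ℍ → ℂ) ∈ moderateRing := by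
  obtain ⟨-, m, hm⟩ := hH
  refine ⟨Hol.mdiff a, m, fun γ => ?_⟩
  refine Asymptotics.IsBigO.of_pow hn ?_
  rw [one_pow]
  refine (hm.mono (Nat.le_mul_of_pos_right m (Nat.pos_of_ne_zero hn)) γ).congr_left fun τ => ?_
  rw [Pi.pow_apply, mul_pow, ← pow_mul, ← ha]
  rfl

theorem hasLaurent_pow {h : ℝ} {f : ℍ → ℂ} {S : LaurentSeries ℂ} (hf : HasLaurent h f S) :
    ∀ k : ℕ, HasLaurent h (f ^ k) (S ^ k)
  | 0 => by
    rw [pow_zero, pow_zero]
    simpa [Pi.one_def] using hasLaurent_const (h := h) (1 : ℂ)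
  | k + 1 => by
    rw [pow_succ, pow_succ]
    exact (hasLaurent_pow hf k).mul hf

variable [Algebra Qbar ℂ]
variable {N : ℕ} [NeZero N]

theorem Rep.mem_moderateRing {h : modularFunctionFieldBar N} {H : Hol} (hr : Rep N h H)
    (h0 : h ≠ 0) : (H : ℍ → ℂ) ∈ moderateRing := by
  classical
  have : Fintype (Cosets N) := Fintype.ofFinite _
  set m := ∑ x : Cosets N, (cuspOrder N x.out⁻¹ h).natAbs with hmdef
  refine ⟨Hol.mdiff H, m, fun γ => ?_⟩
  set x : Cosets N := QuotientGroup.mk γ⁻¹ with hx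
  obtain ⟨g, hg⟩ := QuotientGroup.mk_out_eq_mul (Gamma0 N) γ⁻¹
  rw [← hx] at hg
  have hγ : ∀ τ : ℍ, (H : ℍ → ℂ) (γ • τ) = (H : ℍ → ℂ) (x.out⁻¹ • τ) := fun τ => by
    have := congrFun (congrArg Subtype.val (hr.invariant g.2)) (x.out⁻¹ • τ)
    rw [Hol.comp_apply] at this
    rw [← this, hg, mul_inv_rev, inv_inv]
    show _ = (H : ℍ → ℂ) ((g : SL(2, ℤ)) • ((g : SL(2, ℤ))⁻¹ * γ) • τ)
    rw [← mul_smul, mul_inv_cancel_left]
  obtain ⟨c, -, hlim⟩ := tendsto_rep x.out⁻¹ hr h0
  set W := cuspOrder N x.out⁻¹ h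
  have hW : W.natAbs ≤ m := Finset.single_le_sum (f := fun x : Cosets N =>
    (cuspOrder N x.out⁻¹ h).natAbs) (fun _ _ => Nat.zero_le _) (Finset.mem_univ x)
  have hN : (1 : ℕ) ≤ N := NeZero.pos N
  obtain ⟨k, hk⟩ := Int.eq_ofNat_of_zero_le (a := W + (m : ℤ) * N) (by
    have : (m : ℤ) ≤ (m : ℤ) * N := le_mul_of_one_le_right (by positivity) (by exact_mod_cast hN)
    omega)
  have hq := (qParam_tendsto_atImInfty (show (0 : ℝ) < N by exact_mod_cast NeZero.pos N)).pow k
  have hlim' := (hlim.mul hq).mul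
    (ModularForm.tendsto_atImInfty_tprod_one_sub_eta_q_pow.pow m)
  refine (hlim'.congr fun τ => ?_).isBigO_one ℝ
  have hq0 : 𝕢 (N : ℝ) (τ : ℂ) ≠ 0 := Complex.exp_ne_zero _
  rw [hγ, ModularForm.discriminant_eq_q_prod, mul_pow, ← qParam_natCast_pow N τ, ← pow_mul,
    ← zpow_natCast _ k, ← hk, zpow_add₀ hq0,
    show (m : ℤ) * N = ((N * m : ℕ) : ℤ) by push_cast; ring, zpow_natCast]
  field_simp

variable (N) in
/-- The span of the polynomial expressions in the generators. -/
def funSpan : Submodule ℂ (ℍ → ℂ) := Submodule.span ℂ (Set.range (evalFun Qbar N))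

theorem aeval_jFun_mul_mem_funSpan (p : ℂ[X]) (i : ℕ) :
    (fun τ => p.eval (jFun τ) * jAt N τ ^ i) ∈ funSpan N := by
  have hj : ∀ k : ℕ, (fun τ => jFun τ ^ k * jAt N τ ^ i) ∈ funSpan N := fun k => by
    refine Submodule.subset_span
      ⟨MvPolynomial.X (divOne N) ^ k * MvPolynomial.X (divTop N) ^ i, ?_⟩
    have h1 : jAt (divOne N).1 = jFun := funext fun τ =>
      congrArg jFun (UpperHalfPlane.ext (by simp [divOne]))
    rw [map_mul, map_pow, map_pow, evalFun, MvPolynomial.aeval_X, MvPolynomial.aeval_X, h1]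
    rfl
  have : (fun τ => p.eval (jFun τ) * jAt N τ ^ i) =
      ∑ k ∈ Finset.range (p.natDegree + 1),
        p.coeff k • (fun τ => jFun τ ^ k * jAt N τ ^ i) := by
    funext τ
    rw [Finset.sum_apply, Polynomial.eval_eq_sum_range, Finset.sum_mul]
    exact Finset.sum_congr rfl fun k _ => by simp [mul_assoc]
  rw [this]
  exact Submodule.sum_mem _ fun k _ => Submodule.smul_mem _ _ (hj k)

/-- An invariant function of moderate growth is a quotient of elements of `funSpan`, with a
denominator independent of the function. -/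
theorem exists_denominator :
    ∃ D : Hol, D ≠ 0 ∧ (D : ℍ → ℂ) ∈ funSpan N ∧ ∀ a : ℍ → ℂ, a ∈ moderateRing →
      (∀ γ ∈ Gamma0 N, ∀ τ : ℍ, a (γ • τ) = a τ) → a * (D : ℍ → ℂ) ∈ funSpan N := by
  classical
  have : Fintype (Cosets N) := Fintype.ofFinite _
  -- translates of an invariant function
  let tr : ∀ a : ℍ → ℂ, (∀ γ ∈ Gamma0 N, ∀ τ : ℍ, a (γ • τ) = a τ) → Cosets N → ℍ → ℂ :=
    fun a ha => Quotient.lift (fun γ : SL(2, ℤ) => fun τ => a (γ⁻¹ • τ)) fun γ δ h => by
      funext τ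
      have h' : γ⁻¹ * δ ∈ Gamma0 N := QuotientGroup.leftRel_apply.mp h
      rw [show γ⁻¹ • τ = (γ⁻¹ * δ) • (δ⁻¹ • τ) by rw [← mul_smul, mul_inv_cancel_right],
        ha _ h']
  have htr : ∀ a ha (γ : SL(2, ℤ)) (τ : ℍ), tr a ha (QuotientGroup.mk γ) τ = a (γ⁻¹ • τ) :=
    fun _ _ _ _ => rfl
  have htr_smul : ∀ a ha (g : SL(2, ℤ)) (x : Cosets N) (τ : ℍ),
      tr a ha x (g • τ) = tr a ha (g⁻¹ • x) τ := by
    intro a ha g x τ
    induction x using QuotientGroup.induction_on with
    | H γ =>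
      show a (γ⁻¹ • g • τ) = a ((g⁻¹ * γ)⁻¹ • τ)
      rw [mul_inv_rev, inv_inv, mul_smul]
  have htr_mem : ∀ a ha, a ∈ moderateRing → ∀ x, tr a ha x ∈ moderateRing := by
    intro a ha hm x
    induction x using QuotientGroup.induction_on with
    | H γ => exact smul_mem_moderateRing hm γ⁻¹
  have hNinv : ∀ γ ∈ Gamma0 N, ∀ τ : ℍ, jAt N (γ • τ) = jAt N τ :=
    fun γ hγ τ => jAt_smul_of_mem_Gamma0 dvd_rfl hγ τ
  let F : Cosets N → ℍ → ℂ := tr (jAt N) hNinv
  have hFmem : ∀ x, F x ∈ moderateRing := htr_mem _ hNinv (jAt_mem_moderateRing N)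
  let Fh : Cosets N → Hol := fun x => ⟨F x, (hFmem x).1⟩
  have hFinj : Function.Injective F := by
    intro x y h
    induction x using QuotientGroup.induction_on with
    | H γ =>
      induction y using QuotientGroup.induction_on with
      | H δ =>
        refine QuotientGroup.eq.mpr (mem_Gamma0_of_jAt_smul_eq fun τ => ?_)
        have := congrFun h (δ • τ)
        simp only [F, htr, inv_smul_smul] at this
        rwa [mul_smul]
  set x₁ : Cosets N := QuotientGroup.mk 1 with hx₁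
  have hF₁ : F x₁ = jAt N := funext fun τ => by simp [F, x₁, htr]
  let D : Hol := ∏ y ∈ Finset.univ.erase x₁, (Fh x₁ - Fh y)
  have hD0 : D ≠ 0 := Finset.prod_ne_zero_iff.mpr fun y hy =>
    sub_ne_zero.mpr fun h => Finset.ne_of_mem_erase hy (hFinj (congrArg Subtype.val h)).symm
  have hDval : ∀ τ, (D : ℍ → ℂ) τ = ∏ y ∈ Finset.univ.erase x₁, (F x₁ τ - F y τ) := fun τ => by
    show ((Hol.subtype D : ℍ → ℂ) τ) = _
    rw [map_prod, Finset.prod_apply]
    rfl
  suffices key : ∀ a : ℍ → ℂ, a ∈ moderateRing →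
      (∀ γ ∈ Gamma0 N, ∀ τ : ℍ, a (γ • τ) = a τ) → a * (D : ℍ → ℂ) ∈ funSpan N by
    refine ⟨D, hD0, ?_, key⟩
    simpa using key 1 (one_mem _) fun _ _ _ => rfl
  intro a ham hainv
  let A : Cosets N → ℍ → ℂ := tr a hainv
  let B : Polynomial ↥moderateRing := ∑ x, Polynomial.C ⟨A x, htr_mem _ hainv ham x⟩ *
    ∏ y ∈ Finset.univ.erase x, (Polynomial.X - Polynomial.C ⟨F y, hFmem y⟩)
  let ev : ℍ → (↥moderateRing →+* ℂ) := fun τ =>
    (Pi.evalRingHom (fun _ : ℍ => ℂ) τ).comp moderateRing.val.toRingHom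
  have hBev : ∀ τ, B.map (ev τ) = ∑ x, Polynomial.C (A x τ) *
      ∏ y ∈ Finset.univ.erase x, (Polynomial.X - Polynomial.C (F y τ)) := fun τ => by
    simp only [B, Polynomial.map_sum, Polynomial.map_mul, Polynomial.map_prod, Polynomial.map_sub,
      Polynomial.map_X, Polynomial.map_C]
    rfl
  have hinv : ∀ (i : ℕ) (g : SL(2, ℤ)) (τ : ℍ),
      ((B.coeff i : ↥moderateRing) : ℍ → ℂ) (g • τ) = ((B.coeff i : ↥moderateRing) : ℍ → ℂ) τ := by
    intro i g τ
    show ev (g • τ) (B.coeff i) = ev τ (B.coeff i)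
    rw [← Polynomial.coeff_map, ← Polynomial.coeff_map, hBev, hBev]
    congr 1
    refine Fintype.sum_equiv (MulAction.toPerm g⁻¹) _ _ fun x => ?_
    rw [MulAction.toPerm_apply]
    congr 1
    · exact congrArg _ (htr_smul _ hainv g x τ)
    · refine Finset.prod_equiv (MulAction.toPerm g⁻¹) (fun y => ?_) fun y _ => ?_
      · simp
      · rw [MulAction.toPerm_apply]
        exact congrArg _ (congrArg _ (htr_smul _ hNinv g y τ))
  choose p hp using fun i => exists_polynomial_jFun (B.coeff i).2 (hinv i)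
  have hmain : a * (D : ℍ → ℂ) = ∑ i ∈ Finset.range (B.natDegree + 1),
      fun τ => (p i).eval (jFun τ) * jAt N τ ^ i := by
    funext τ
    rw [Finset.sum_apply, Pi.mul_apply, hDval]
    have h1 : (B.map (ev τ)).eval (F x₁ τ) =
        ∑ i ∈ Finset.range (B.natDegree + 1), (p i).eval (jFun τ) * jAt N τ ^ i := by
      rw [Polynomial.eval_map, Polynomial.eval₂_eq_sum_range, hF₁]
      exact Finset.sum_congr rfl fun i _ => congrArg (· * _) (hp i τ)
    rw [← h1, hBev, Polynomial.eval_finsetSum]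
    rw [Finset.sum_eq_single x₁]
    · rw [Polynomial.eval_mul, Polynomial.eval_C, Polynomial.eval_prod,
        show A x₁ τ = a τ by simp [A, x₁, htr]]
      simp only [Polynomial.eval_sub, Polynomial.eval_X, Polynomial.eval_C]
    · intro x _ hx
      rw [Polynomial.eval_mul, Polynomial.eval_prod,
        Finset.prod_eq_zero (i := x₁) (Finset.mem_erase.mpr ⟨hx.symm, Finset.mem_univ _⟩)
          (by simp), mul_zero]
    · simp
  rw [hmain]
  exact Submodule.sum_mem _ fun i _ => aeval_jFun_mul_mem_funSpan _ i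

/-- Finitely many complex numbers, one of them nonzero, specialise compatibly to `ℚ̄`. -/
theorem exists_specialisation (s : Finset ℂ) :
    ∃ (R : Subalgebra Qbar ℂ) (_ : R →ₐ[Qbar] Qbar), (s : Set ℂ) ⊆ R := by
  set R := Algebra.adjoin Qbar (s : Set ℂ) with hR
  have : Algebra.FiniteType Qbar R :=
    (Subalgebra.fg_iff_finiteType _).mp ⟨s, rfl⟩
  obtain ⟨m, hm⟩ := Ideal.exists_maximal R
  let := Ideal.Quotient.field m
  have : Module.Finite Qbar (R ⧸ m) := finite_of_finite_type_of_isJacobsonRing Qbar (R ⧸ m)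
  let e : Qbar ≃ₐ[Qbar] R ⧸ m := AlgEquiv.ofBijective (Algebra.ofId Qbar (R ⧸ m))
    (IsAlgClosed.algebraMap_bijective_of_isIntegral (k := Qbar) (K := R ⧸ m))
  exact ⟨R, e.symm.toAlgHom.comp (Ideal.Quotient.mkₐ Qbar m), Algebra.subset_adjoin⟩

theorem exists_pow_eq_of_invariant {n : ℕ} (hn : n ≠ 0) {h : modularFunctionFieldBar N}
    {H a : Hol} (hr : Rep N h H) (ha : a ^ n = H) (hinv : ∀ γ ∈ Gamma0 N, actH γ a = a) :
    ∃ g : modularFunctionFieldBar N, g ^ n = h := by
  classical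
  rcases eq_or_ne h 0 with rfl | h0
  · exact ⟨0, zero_pow hn⟩
  obtain ⟨P, Q, hQ, hx⟩ := exists_mul_eq N h
  have hHQ : H * evalHol N Q = evalHol N P := by
    apply IsFractionRing.injective Hol Mero
    rw [map_mul, ← hr, ← realF_evalField, ← realF_evalField, ← map_mul, hx]
  have ham : (a : ℍ → ℂ) ∈ moderateRing := root_mem_moderateRing hn ha (hr.mem_moderateRing h0)
  obtain ⟨D, hD0, hDS, hDmul⟩ := exists_denominator (N := N)
  have hBS := hDmul a ham fun γ hγ τ => congrFun (congrArg Subtype.val (hinv γ hγ)) τ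
  obtain ⟨c, hc⟩ := Finsupp.mem_span_range_iff_exists_finsupp.mp hDS
  obtain ⟨d, hd⟩ := Finsupp.mem_span_range_iff_exists_finsupp.mp hBS
  let ser : (MvPolynomial (Divs N) Qbar →₀ ℂ) → LaurentSeries ℂ := fun c =>
    ∑ i ∈ c.support, HahnSeries.C (c i) *
      toComplexSeries Qbar (evalField Qbar N i : LaurentSeries Qbar)
  have hser : ∀ c : MvPolynomial (Divs N) Qbar →₀ ℂ,
      HasLaurent 1 (c.sum fun i x => x • evalFun Qbar N i) (ser c) := by
    intro c
    have : ∑ i ∈ c.support, ((fun _ : ℍ => c i), (HahnSeries.C (c i) : LaurentSeries ℂ)) *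
        (evalFun Qbar N i, toComplexSeries Qbar (evalField Qbar N i : LaurentSeries Qbar))
          ∈ laurentGraph 1 :=
      sum_mem fun i _ => mul_mem (hasLaurent_const _) (hasLaurent_evalFun i)
    show ((c.sum fun i x => x • evalFun Qbar N i), ser c) ∈ laurentGraph 1
    convert! this using 1
    refine Prod.ext ?_ ?_
    · rw [Prod.fst_sum]
      exact Finset.sum_congr rfl fun i _ => funext fun τ => by simp
    · rw [Prod.snd_sum]
      rfl
  have hA : HasLaurent 1 (D : ℍ → ℂ) (ser c) := hc ▸ hser c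
  have hB : HasLaurent 1 ((a : ℍ → ℂ) * (D : ℍ → ℂ)) (ser d) := hd ▸ hser d
  set sP := toComplexSeries Qbar (evalField Qbar N P : LaurentSeries Qbar) with hsP
  set sQ := toComplexSeries Qbar (evalField Qbar N Q : LaurentSeries Qbar) with hsQ
  have hid : ser d ^ n * sQ = sP * ser c ^ n := by
    have h1 : HasLaurent 1 (((a : ℍ → ℂ) * (D : ℍ → ℂ)) ^ n * evalFun Qbar N Q)
        (ser d ^ n * sQ) := (hasLaurent_pow hB n).mul (hasLaurent_evalFun Q)
    have h2 : HasLaurent 1 (evalFun Qbar N P * (D : ℍ → ℂ) ^ n) (sP * ser c ^ n) :=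
      (hasLaurent_evalFun P).mul (hasLaurent_pow hA n)
    have he : ((a : ℍ → ℂ) * (D : ℍ → ℂ)) ^ n * evalFun Qbar N Q =
        evalFun Qbar N P * (D : ℍ → ℂ) ^ n := by
      have := congrArg Subtype.val (show (a * D) ^ n * evalHol N Q = evalHol N P * D ^ n by
        rw [← hHQ, ← ha]; ring)
      exact this
    exact HasLaurent.unique one_pos (he ▸ h1) h2
  have hA0 : ser c ≠ 0 := fun h' => hD0 (Subtype.ext ((h' ▸ hA).eq_zero_fun))
  obtain ⟨k, hk⟩ : ∃ k, (ser c).coeff k ≠ 0 := by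
    by_contra hall
    push Not at hall
    exact hA0 (HahnSeries.ext (funext hall))
  set α := (ser c).coeff k
  obtain ⟨R, σ, hsR⟩ := exists_specialisation
    (c.support.image c ∪ d.support.image d ∪ {α⁻¹})
  have hcR : ∀ i, c i ∈ R := fun i => by
    by_cases hi : i ∈ c.support
    · exact hsR (by simp only [Finset.coe_union, Set.mem_union, Finset.coe_image, Set.mem_image]
                    exact Or.inl (Or.inl ⟨i, hi, rfl⟩))
    · rw [Finsupp.notMem_support_iff.mp hi]; exact zero_mem R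
  have hdR : ∀ i, d i ∈ R := fun i => by
    by_cases hi : i ∈ d.support
    · exact hsR (by simp only [Finset.coe_union, Set.mem_union, Finset.coe_image, Set.mem_image]
                    exact Or.inl (Or.inr ⟨i, hi, rfl⟩))
    · rw [Finsupp.notMem_support_iff.mp hi]; exact zero_mem R
  have hαR : α⁻¹ ∈ R := hsR (by simp)
  let serR : ∀ c : MvPolynomial (Divs N) Qbar →₀ ℂ, (∀ i, c i ∈ R) → LaurentSeries R :=
    fun c hc => ∑ i ∈ c.support, HahnSeries.C (⟨c i, hc i⟩ : R) *
      coeffMap (algebraMap Qbar R) (evalField Qbar N i : LaurentSeries Qbar)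
  have hC : ∀ {S T : Type} [CommRing S] [CommRing T] (f : S →+* T) (r : S),
      coeffMap f (HahnSeries.C r) = HahnSeries.C (f r) := fun f r => by
    rw [HahnSeries.C_apply, coeffMap_single, HahnSeries.C_apply]
  have hR : ∀ c hc, coeffMap (R.val.toRingHom) (serR c hc) = ser c := fun c hc => by
    simp only [serR, ser, map_sum, map_mul, hC, coeffMap_coeffMap]
    rfl
  have hσ : ∀ c hc, coeffMap σ.toRingHom (serR c hc) =
      ((evalField Qbar N (∑ i ∈ c.support, MvPolynomial.C (σ ⟨c i, hc i⟩) * i)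
        : modularFunctionFieldBar N) : LaurentSeries Qbar) := fun c hc => by
    simp only [serR, map_sum, map_mul, hC, coeffMap_coeffMap, AddSubmonoidClass.coe_finsetSum,
      MulMemClass.coe_mul]
    refine Finset.sum_congr rfl fun i _ => ?_
    rw [coeffMap_congr (g := RingHom.id Qbar) (RingHom.ext fun x => σ.commutes x), coeffMap_id,
      ← MvPolynomial.algebraMap_eq, AlgHom.commutes]
    show _ = algebraMap Qbar (LaurentSeries Qbar) _ * _
    rw [algebraMap_laurentSeries_eq_single, HahnSeries.C_apply]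
    rfl
  let sR : MvPolynomial (Divs N) Qbar → LaurentSeries R := fun T =>
    coeffMap (algebraMap Qbar R) (evalField Qbar N T : LaurentSeries Qbar)
  have hsR' : ∀ T, coeffMap R.val.toRingHom (sR T) =
      toComplexSeries Qbar (evalField Qbar N T : LaurentSeries Qbar) := fun T => by
    simp only [sR, toComplexSeries, coeffMap_coeffMap]
    rfl
  have hsσ : ∀ T, coeffMap σ.toRingHom (sR T) =
      (evalField Qbar N T : LaurentSeries Qbar) := fun T => by
    simp only [sR, coeffMap_coeffMap]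
    rw [coeffMap_congr (g := RingHom.id Qbar) (RingHom.ext fun x => σ.commutes x), coeffMap_id]
  have hidR : serR d hdR ^ n * sR Q = sR P * serR c hcR ^ n := by
    have hinj : Function.Injective (coeffMap (R := R) R.val.toRingHom) := fun x y hxy => by
      ext j
      exact congrArg (fun S : LaurentSeries ℂ => S.coeff j) hxy
    apply hinj
    simp only [map_mul, map_pow, hR, hsR', ← hsP, ← hsQ, hid]
  have hσid := congrArg (coeffMap σ.toRingHom) hidR
  simp only [map_mul, map_pow, hσ, hsσ] at hσid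
  set gA : modularFunctionFieldBar N :=
    evalField Qbar N (∑ i ∈ c.support, MvPolynomial.C (σ ⟨c i, hcR i⟩) * i) with hgA
  set gB : modularFunctionFieldBar N :=
    evalField Qbar N (∑ i ∈ d.support, MvPolynomial.C (σ ⟨d i, hdR i⟩) * i) with hgB
  have hgA0 : gA ≠ 0 := fun h' => by
    have h1 := congrArg (fun S : LaurentSeries Qbar => S.coeff k) (hσ c hcR)
    simp only [← hgA, h', ZeroMemClass.coe_zero, coeffMap_coeff, HahnSeries.coeff_zero] at h1
    have h2 : (((serR c hcR).coeff k : R) : ℂ) = α :=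
      congrArg (fun S : LaurentSeries ℂ => S.coeff k) (hR c hcR)
    have h3 : (serR c hcR).coeff k * (⟨α⁻¹, hαR⟩ : R) = 1 :=
      Subtype.ext (by rw [MulMemClass.coe_mul, h2]; exact mul_inv_cancel₀ hk)
    have := congrArg σ h3
    rw [map_mul, map_one, show σ ((serR c hcR).coeff k) = 0 from h1, zero_mul] at this
    exact zero_ne_one this
  have hid' : gB ^ n * evalField Qbar N Q = evalField Qbar N P * gA ^ n := by
    refine Subtype.ext ?_
    simp only [MulMemClass.coe_mul, SubmonoidClass.coe_pow]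
    exact hσid
  refine ⟨gB / gA, ?_⟩
  rw [div_pow, div_eq_iff (pow_ne_zero _ hgA0)]
  apply mul_right_cancel₀ hQ
  rw [hid', ← hx]
  ring

end FLTAgent.HeckeJacobian

end
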