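import Fermat.Agent.HeckeJacobian.Correspondence
import Fermat.Prelude.Def_ModularCurve_HeckeModule
import Fermat.Agent.ModularFF.Degree
import Fermat.Agent.FFBasic.Fundamental
import Fermat.Agent.FFBasic.Approximation
import Fermat.Agent.MFDim.Numerics
import Mathlib.FieldTheory.IsAlgClosed.Basic
import Mathlib.Analysis.Complex.Polynomial.Basic

/-!
# The field-theoretic facts behind the Hecke calculus

The facts about the modular function fields used for the Hecke calculus: they are function fields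
(`isFunctionField_modularFunctionFieldBar`), places are separated by functions
(`separatesPlaces_of_isFunctionField`), and the degree of the first degeneracy map at a prime is
`finrankAlong_heckeAlphaBar`.
-/

set_option autoImplicit false

noncomputable section

open AlgebraicCurve ModularCurve IntermediateField

namespace FLTAgent.HeckeJacobian

local notation "Qbar" => AlgebraicClosure ℚ

/-- An embedding of `ℚ̄` into `ℂ`. -/
def qbarToC : Qbar →+* ℂ :=
  haveI : Algebra.IsAlgebraic ℚ Qbar := AlgebraicClosure.isAlgebraic ℚ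
  (IsAlgClosed.lift (R := ℚ) (S := Qbar) (M := ℂ)).toRingHom

instance isFunctionField_modularFunctionFieldBar (M : ℕ) [NeZero M] :
    FFBasic.IsFunctionField Qbar (modularFunctionFieldBar M) :=
  letI : Algebra Qbar ℂ := qbarToC.toAlgebra
  FLTAgent.ModularFF.isFunctionField_modField Qbar M

theorem separatesPlaces_of_isFunctionField {K F : Type*} [Field K] [Field F] [Algebra K F]
    [FFBasic.IsFunctionField K F] : SeparatesPlaces K F := by
  classical
  intro S v hv
  obtain ⟨z, hz⟩ := FFBasic.exists_ord_eq_forall S (fun w => if w = v then 1 else 0)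
  refine ⟨z, (hz v hv).1, by simpa using (hz v hv).2, fun w hw hne => ?_⟩
  simpa [hne] using (hz w hw).2

theorem dedekindPsi_mul_prime {M ℓ : ℕ} (hM : M ≠ 0) (hℓ : ℓ.Prime) :
    dedekindPsi (M * ℓ) = dedekindPsi M * if ℓ ∣ M then ℓ else ℓ + 1 := by
  have hMℓ : M * ℓ ≠ 0 := Nat.mul_ne_zero hM hℓ.ne_zero
  have hℓ' : (ℓ : ℚ) ≠ 0 := Nat.cast_ne_zero.mpr hℓ.ne_zero
  have key : (dedekindPsi (M * ℓ) : ℚ) =
      (dedekindPsi M : ℚ) * ((if ℓ ∣ M then ℓ else ℓ + 1 : ℕ) : ℚ) := by
    rw [FLTAgent.MFDim.dedekindPsi_eq_prod hMℓ, FLTAgent.MFDim.dedekindPsi_eq_prod hM,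
      Nat.primeFactors_mul hM hℓ.ne_zero, hℓ.primeFactors]
    split_ifs with h
    · rw [Finset.union_eq_left.mpr (by simpa using Nat.mem_primeFactors.mpr ⟨hℓ, h, hM⟩)]
      push_cast
      ring
    · rw [Finset.prod_union (by simp [h]), Finset.prod_singleton]
      push_cast
      field_simp
  exact_mod_cast key

theorem heckeAlphaBar_jElt (M ℓ : ℕ) [NeZero M] [NeZero ℓ] :
    heckeAlphaBar Qbar M ℓ (FLTAgent.ModularFF.jElt Qbar M) =
      FLTAgent.ModularFF.jElt Qbar (M * ℓ) := by
  refine Subtype.ext ?_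
  rw [coe_heckeAlphaBar, FLTAgent.ModularFF.coe_jElt, FLTAgent.ModularFF.coe_jElt]

theorem finrankAlong_heckeAlphaBar (M ℓ : ℕ) [NeZero M] [NeZero ℓ] (hℓ : ℓ.Prime) :
    finrankAlong Qbar (heckeAlphaBar Qbar M ℓ) = if ℓ ∣ M then ℓ else ℓ + 1 := by
  let : Algebra Qbar ℂ := qbarToC.toAlgebra
  set α := heckeAlphaBar Qbar M ℓ with hα
  let K₁ := FLTAgent.ModularFF.baseField Qbar M
  let K₂ := FLTAgent.ModularFF.baseField Qbar (M * ℓ)
  let := algebraAlong α
  let : Algebra K₁ (FLTAgent.ModularFF.modField Qbar (M * ℓ)) :=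
    ((α : _ →+* _).comp (algebraMap K₁ (FLTAgent.ModularFF.modField Qbar M))).toAlgebra
  have : IsScalarTower K₁ (FLTAgent.ModularFF.modField Qbar M)
      (FLTAgent.ModularFF.modField Qbar (M * ℓ)) :=
    IsScalarTower.of_algebraMap_eq fun _ => rfl
  have hK : IntermediateField.map α K₁ = K₂ := by
    show IntermediateField.map α (Qbar⟮FLTAgent.ModularFF.jElt Qbar M⟯) = _
    rw [IntermediateField.adjoin_map, Set.image_singleton, hα, heckeAlphaBar_jElt]
  let e : K₁ ≃+* K₂ :=
    ((K₁.equivMap α).trans (IntermediateField.equivOfEq hK)).toRingEquiv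
  have h12 : Module.finrank K₁ (FLTAgent.ModularFF.modField Qbar (M * ℓ)) =
      Module.finrank K₂ (FLTAgent.ModularFF.modField Qbar (M * ℓ)) :=
    Algebra.finrank_eq_of_equiv_equiv e (RingEquiv.refl _) (RingHom.ext fun x => rfl)
  have htower := Module.finrank_mul_finrank K₁ (FLTAgent.ModularFF.modField Qbar M)
    (FLTAgent.ModularFF.modField Qbar (M * ℓ))
  rw [h12, FLTAgent.ModularFF.finrank_adjoin_jElt, FLTAgent.ModularFF.finrank_adjoin_jElt,
    FLTAgent.MFDim.index_Gamma0_eq_dedekindPsi, FLTAgent.MFDim.index_Gamma0_eq_dedekindPsi,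
    dedekindPsi_mul_prime (NeZero.ne M) hℓ] at htower
  refine Nat.eq_of_mul_eq_mul_left (Nat.pos_of_ne_zero ?_) htower
  rw [← FLTAgent.MFDim.index_Gamma0_eq_dedekindPsi]
  exact Subgroup.FiniteIndex.index_ne_zero

end FLTAgent.HeckeJacobian

end
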