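import Fermat.Agent.HeckeJacobian.KummerMap
import Mathlib.RingTheory.Norm.Transitivity
import Mathlib.FieldTheory.PrimitiveElement

/-!
# The Kummer map and Hecke operators

`KummerRel.hecke`: the Kummer map intertwines the Hecke correspondences on torsion classes with
the Hecke operators `heckeHom` on characters of `Γ₀(N)`.
-/

set_option autoImplicit false

noncomputable section

open UpperHalfPlane CongruenceSubgroup AlgebraicCurve ModularCurve
open scoped MatrixGroups

namespace FLTAgent.HeckeJacobian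

open FLTAgent.ModularFF

local notation "Qbar" => AlgebraicClosure ℚ

theorem card_gamma0_quotient (N ℓ : ℕ) [NeZero N] [NeZero ℓ] (hℓ : ℓ.Prime) :
    Fintype.card (Gamma0 N ⧸ gamma0Sub N ℓ) = if ℓ ∣ N then ℓ else ℓ + 1 := by
  have : NeZero (N * ℓ) := ⟨Nat.mul_ne_zero (NeZero.ne N) (NeZero.ne ℓ)⟩
  have hle : Gamma0 (N * ℓ) ≤ Gamma0 N := fun γ hγ => by
    rw [Gamma0_mem, ZMod.intCast_zmod_eq_zero_iff_dvd]
    exact dvd_trans (Int.natCast_dvd_natCast.mpr (dvd_mul_right N ℓ)) (dvd_lowerLeft hγ)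
  have h1 : (gamma0Sub N ℓ).index * (Gamma0 N).index = (Gamma0 (N * ℓ)).index :=
    Subgroup.relIndex_mul_index hle
  rw [FLTAgent.MFDim.index_Gamma0_eq_dedekindPsi, FLTAgent.MFDim.index_Gamma0_eq_dedekindPsi,
    dedekindPsi_mul_prime (NeZero.ne N) hℓ, mul_comm] at h1
  rw [← Nat.card_eq_fintype_card, ← Subgroup.index]
  refine Nat.eq_of_mul_eq_mul_left (Nat.pos_of_ne_zero ?_) h1
  rw [← FLTAgent.MFDim.index_Gamma0_eq_dedekindPsi]
  exact Subgroup.FiniteIndex.index_ne_zero

theorem actM_diag_one (r : Mero) : actM _ (diag_pos 1) r = r := by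
  refine RingHom.congr_fun (f := actM _ (diag_pos 1)) (g := RingHom.id Mero)
    (mero_hom_ext fun f => ?_) r
  rw [actM_algebraMap, RingHom.id_apply]
  refine congrArg _ (Subtype.ext (funext fun τ => ?_))
  rw [Hol.comp_apply]
  refine congrArg _ (UpperHalfPlane.ext ?_)
  rw [ModularForm.coe_heckeDiagMatrix_smul one_ne_zero]
  simp

variable [Algebra Qbar ℂ]
variable {N : ℕ} [NeZero N]

theorem realF_heckeAlphaBar (ℓ : ℕ) [NeZero ℓ] (x : modularFunctionFieldBar N) :
    realF (N * ℓ) (heckeAlphaBar Qbar N ℓ x) = realF N x := by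
  rw [heckeAlphaBar_eq, realF_scaled, actM_diag_one]

/-- The norm from level `Nℓ` to level `N` is the product over the cosets. -/
theorem realF_normAlong (ℓ : ℕ) [NeZero ℓ] (hℓ : ℓ.Prime) (x : modularFunctionFieldBar (N * ℓ)) :
    realF N (normAlong (heckeAlphaBar Qbar N ℓ) x) =
      ∏ q : Gamma0 N ⧸ gamma0Sub N ℓ,
        actSL (((q.out : Gamma0 N) : SL(2, ℤ))⁻¹) (realF (N * ℓ) x) := by
  classical
  have : NeZero (N * ℓ) := ⟨Nat.mul_ne_zero (NeZero.ne N) (NeZero.ne ℓ)⟩
  set α := heckeAlphaBar Qbar N ℓ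
  let := algebraAlong α
  have : Module.Finite (modularFunctionFieldBar N) (modularFunctionFieldBar (N * ℓ)) :=
    FFBasic.finiteAlong α
  have : CharZero (modularFunctionFieldBar N) :=
    charZero_of_injective_algebraMap (algebraMap Qbar (modularFunctionFieldBar N)).injective
  have : Algebra.IsSeparable (modularFunctionFieldBar N) (modularFunctionFieldBar (N * ℓ)) :=
    Algebra.IsAlgebraic.isSeparable_of_perfectField
  let E := AlgebraicClosure Mero
  let : Algebra (modularFunctionFieldBar N) E :=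
    ((algebraMap Mero E).comp (realF N)).toAlgebra
  let φ : Gamma0 N ⧸ gamma0Sub N ℓ →
      (modularFunctionFieldBar (N * ℓ) →ₐ[modularFunctionFieldBar N] E) := fun q =>
    { toRingHom := ((algebraMap Mero E).comp
        (actSL (((q.out : Gamma0 N) : SL(2, ℤ))⁻¹))).comp (realF (N * ℓ))
      commutes' := fun y => by
        show algebraMap Mero E (actSL _ (realF (N * ℓ) (α y))) = algebraMap Mero E (realF N y)
        rw [realF_heckeAlphaBar, actSL_realF N (Subgroup.inv_mem _ (q.out : Gamma0 N).2)] }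
  have hinj : Function.Injective φ := by
    intro q q' h
    have h1 : actSL (((q.out : Gamma0 N) : SL(2, ℤ))⁻¹)
        (realF (N * ℓ) (gen Qbar _ (divTop (N * ℓ))))
        = actSL (((q'.out : Gamma0 N) : SL(2, ℤ))⁻¹)
          (realF (N * ℓ) (gen Qbar _ (divTop (N * ℓ)))) :=
      (algebraMap Mero E).injective (DFunLike.congr_fun h (gen Qbar _ (divTop (N * ℓ))))
    rw [← evalField_X, realF_evalField, actSL, actSL, actM_algebraMap, actM_algebraMap] at h1
    have h2 := congrArg Subtype.val (IsFractionRing.injective Hol Mero h1)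
    have h3 : (((q.out : Gamma0 N) : SL(2, ℤ))⁻¹ * ((q'.out : Gamma0 N) : SL(2, ℤ))) ∈
        Gamma0 (N * ℓ) := mem_Gamma0_of_jAt_smul_eq fun τ => by
      have := congrFun h2 (((q'.out : Gamma0 N) : SL(2, ℤ)) • τ)
      simp only [Hol.comp_SL_apply, evalHol_X, ← mul_smul] at this
      simpa [divTop] using this
    rw [← QuotientGroup.out_eq' q, ← QuotientGroup.out_eq' q']
    exact QuotientGroup.eq.mpr (Subgroup.mem_subgroupOf.mpr (by simpa using h3))
  have hcard : Fintype.card (Gamma0 N ⧸ gamma0Sub N ℓ) =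
      Fintype.card (modularFunctionFieldBar (N * ℓ) →ₐ[modularFunctionFieldBar N] E) := by
    rw [AlgHom.card, card_gamma0_quotient N ℓ hℓ]
    exact (finrankAlong_heckeAlphaBar N ℓ hℓ).symm
  apply (algebraMap Mero E).injective
  rw [map_prod]
  show algebraMap (modularFunctionFieldBar N) E (Algebra.norm (modularFunctionFieldBar N) x) = _
  rw [Algebra.norm_eq_prod_embeddings]
  exact (Fintype.prod_bijective φ ((Fintype.bijective_iff_injective_and_card φ).mpr ⟨hinj, hcard⟩)
    (fun q => φ q x) (fun σ => σ x) fun _ => rfl).symm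

/-- Compatibility of the Kummer map with the Hecke operators. -/
theorem KummerRel.hecke {n : ℕ} (ℓ : Nat.Primes) {x : JZero N}
    {c : Additive (Gamma0 N) →+ Additive ℂˣ} (hx : KummerRel N n x c) :
    haveI : NeZero (ℓ : ℕ) := ⟨ℓ.2.ne_zero⟩
    KummerRel N n (heckeOperatorBar N ℓ x) (heckeHom N ℓ (Additive ℂˣ) c) := by
  classical
  have : NeZero (ℓ : ℕ) := ⟨ℓ.2.ne_zero⟩
  have : NeZero (N * (ℓ : ℕ)) := ⟨Nat.mul_ne_zero (NeZero.ne N) (NeZero.ne _)⟩
  obtain ⟨D, h, H, a, rfl, h0, hD, hr, ha, hc⟩ := hx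
  obtain ⟨E, hE, hE'⟩ := heckeOperatorBar_mk ℓ D
  have hd : N * (ℓ : ℕ) ∣ N * (ℓ : ℕ) := dvd_refl _
  set α := heckeAlphaBar Qbar N (ℓ : ℕ) with hα
  set hβ := scaled (d := (ℓ : ℕ)) hd h with hβdef
  set dia := Hol.comp _ (diag_pos (ℓ : ℕ))
  let s : Gamma0 N ⧸ gamma0Sub N ℓ → Gamma0 N := fun q => q.out
  have hs : ∀ q, (s q : Gamma0 N ⧸ gamma0Sub N ℓ) = q := fun q => QuotientGroup.out_eq' q
  refine ⟨E, normAlong α hβ, ∏ q, actH ((s q : SL(2, ℤ))⁻¹) (dia H),
    ∏ q, actH ((s q : SL(2, ℤ))⁻¹) (dia a), hE.symm, ?_, fun v => ?_, ?_, ?_, fun g => ?_⟩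
  · exact normAlong_ne_zero α (FFBasic.finiteAlong α) ((map_ne_zero (scaled hd)).mpr h0)
  · have hpull : ∀ w, (scaledPull hd
        (n • (D : Divisor Qbar (modularFunctionFieldBar N)))) w = w.ord hβ := fun w => by
      show Divisor.pullbackAlong (scaled hd) _ _ w = _
      exact pullbackAlong_apply_principal _ _
        (fun v => by rw [Finsupp.smul_apply, nsmul_eq_mul]; exact hD v) w
    have hpush : ∀ (φ : modularFunctionFieldBar N →ₐ[Qbar] modularFunctionFieldBar (N * (ℓ : ℕ)))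
        (hφ : φ.toRingHom.IsIntegral) (u : Place Qbar (modularFunctionFieldBar N)),
        Divisor.pushforwardAlong φ hφ (scaledPull hd
          (n • (D : Divisor Qbar (modularFunctionFieldBar N)))) u = u.ord (normAlong φ hβ) :=
      fun φ hφ u => pushforwardAlong_apply_principal φ hφ (FFBasic.finiteAlong φ)
        (FFBasic.normFormulaAlong φ _) ((map_ne_zero (scaled hd)).mpr h0) hpull u
    rw [hE', ← nsmul_eq_mul, ← Finsupp.smul_apply, ← map_nsmul, ← map_nsmul, hα, heckeAlphaBar_eq]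
    exact hpush _ _ v
  · show realF N (normAlong α hβ) = _
    rw [hα, realF_normAlong (ℓ : ℕ) ℓ.2, map_prod]
    refine Finset.prod_congr rfl fun q _ => ?_
    rw [hβdef, realF_scaled, hr, actM_algebraMap, actSL, actM_algebraMap]
  · rw [← Finset.prod_pow]
    exact Finset.prod_congr rfl fun q _ => by rw [← map_pow, ← map_pow, ha]
  · have hk : ∀ k : gamma0Sub N ℓ, actH ((k : Gamma0 N) : SL(2, ℤ)) (dia a) =
        ((Additive.toMul (c (Additive.ofMul (conjD N ℓ k))) : ℂˣ) : ℂ) • dia a := fun k => by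
      rw [← map_smul, ← hc (conjD N ℓ k)]
      refine Subtype.ext (funext fun τ => ?_)
      show (a : ℍ → ℂ) (ModularForm.heckeDiagMatrix (ℓ : ℕ) •
          (((k : Gamma0 N) : SL(2, ℤ)) : GL (Fin 2) ℝ) • τ) =
        (a : ℍ → ℂ) (((conjD N ℓ k : Gamma0 N) : SL(2, ℤ)) •
          ModularForm.heckeDiagMatrix (ℓ : ℕ) • τ)
      rw [← mul_smul, diag_mul_eq _ (dvd_ell N ℓ k), mul_smul]
      rfl
    rw [map_prod, show heckeHom N ℓ (Additive ℂˣ) c (Additive.ofMul g) =
        ∑ q, c (Additive.ofMul (conjD N ℓ (cosetElt (gamma0Sub N ℓ) s hs g q))) from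
      transferHom_apply_eq_sum (gamma0Sub N ℓ) s hs _ g, toMul_sum, Units.coe_prod,
      ← Finset.prod_smul]
    refine (Fintype.prod_bijective _ (MulAction.bijective g) _ _ fun q => ?_).symm
    have he : ((s (g • q) : SL(2, ℤ))⁻¹ * (g : SL(2, ℤ))) =
        ((cosetElt (gamma0Sub N ℓ) s hs g q : Gamma0 N) : SL(2, ℤ)) * (s q : SL(2, ℤ))⁻¹ := by
      rw [coe_cosetElt, Subgroup.coe_mul, Subgroup.coe_mul, Subgroup.coe_inv,
        mul_inv_cancel_right]
    show _ = actH (g : SL(2, ℤ)) (actH ((s (g • q) : SL(2, ℤ))⁻¹) (dia a))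
    rw [← actH_mul, he, actH_mul, hk, map_smul]

end FLTAgent.HeckeJacobian

end
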