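import Fermat.Agent.HeckeJacobian.HolRoot
import Fermat.Agent.HeckeJacobian.HeckeHom
import Fermat.Agent.LevelM.Expansion
import Fermat.Prelude.Def_ModularForm_HeckeOperator
import Fermat.Prelude.Thm_CongruenceSubgroup_one_mem_strictPeriods_Gamma0
import Mathlib.NumberTheory.ModularForms.QExpansion
import Mathlib.NumberTheory.ModularForms.Cusps
import Mathlib.RingTheory.Localization.FractionRing

/-!
# Modular forms as meromorphic functions

Forms on `Γ₀(N)` as elements of `Hol` (`ofForm`) inside its fraction field `Mero`, with the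
action of `GL₂⁺(ℝ)` (`actM`), their `q`-series (`qser`) and rescaling `τ ↦ d τ` (`rescale`).
-/

set_option autoImplicit false

noncomputable section

open UpperHalfPlane Filter Topology CongruenceSubgroup
open scoped Manifold MatrixGroups ModularForm Pointwise

namespace FLTAgent.HeckeJacobian

open FLTAgent.LevelM (HasExp)

namespace Hol

/-- Composition with an element of positive determinant. -/
def comp (g : GL (Fin 2) ℝ) (hg : 0 < g.det.val) : Hol →ₐ[ℂ] Hol where
  toFun f := ⟨fun τ => (f : ℍ → ℂ) (g • τ),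
    MDifferentiable.comp (mdiff f) (mdifferentiable_smul hg)⟩
  map_one' := rfl
  map_mul' _ _ := rfl
  map_zero' := rfl
  map_add' _ _ := rfl
  commutes' _ := rfl

/-- The value of a composite with a Möbius transformation. -/
@[simp] theorem comp_apply (g : GL (Fin 2) ℝ) (hg : 0 < g.det.val) (f : Hol) (τ : ℍ) :
    (comp g hg f : ℍ → ℂ) τ = (f : ℍ → ℂ) (g • τ) := rfl

theorem comp_injective (g : GL (Fin 2) ℝ) (hg : 0 < g.det.val) :
    Function.Injective (comp g hg) := fun f f' h => Subtype.ext (funext fun τ => by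
  have := congrFun (congrArg Subtype.val h) (g⁻¹ • τ)
  simpa using this)

end Hol

theorem det_SL_pos (γ : SL(2, ℤ)) : 0 < ((γ : GL (Fin 2) ℝ)).det.val := by simp

theorem Hol.comp_SL_apply (γ : SL(2, ℤ)) (f : Hol) (τ : ℍ) :
    (Hol.comp γ (det_SL_pos γ) f : ℍ → ℂ) τ = (f : ℍ → ℂ) (γ • τ) := rfl

/-- Meromorphic functions on `ℍ` (ratios of holomorphic functions). -/
abbrev Mero : Type := FractionRing Hol

theorem algebraMap_ne_zero' {f : Hol} (hf : f ≠ 0) : algebraMap Hol Mero f ≠ 0 :=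
  (map_ne_zero_iff _ (IsFractionRing.injective Hol Mero)).mpr hf

/-- The action of an element of positive determinant on `Mero`. -/
def actM (g : GL (Fin 2) ℝ) (hg : 0 < g.det.val) : Mero →+* Mero :=
  IsFractionRing.lift (g := (algebraMap Hol Mero).comp (Hol.comp g hg).toRingHom)
    ((IsFractionRing.injective Hol Mero).comp (Hol.comp_injective g hg))

@[simp] theorem actM_algebraMap (g : GL (Fin 2) ℝ) (hg : 0 < g.det.val) (f : Hol) :
    actM g hg (algebraMap Hol Mero f) = algebraMap Hol Mero (Hol.comp g hg f) :=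
  IsFractionRing.lift_algebraMap _ f

/-- The action of `SL₂(ℤ)` on `Mero`. -/
def actSL (γ : SL(2, ℤ)) : Mero →+* Mero := actM γ (det_SL_pos γ)

theorem mero_hom_ext {φ ψ : Mero →+* Mero}
    (h : ∀ f : Hol, φ (algebraMap Hol Mero f) = ψ (algebraMap Hol Mero f)) : φ = ψ :=
  IsLocalization.ringHom_ext (nonZeroDivisors Hol) (RingHom.ext h)

section Forms

variable {N : ℕ} {k : ℤ}

/-- A modular form as a holomorphic function. -/
def ofForm (A : ModularForm (Gamma0 N) k) : Hol := ⟨⇑A, A.holo'⟩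

@[simp] theorem coe_ofForm (A : ModularForm (Gamma0 N) k) : (ofForm A : ℍ → ℂ) = ⇑A := rfl

/-- The `q`-expansion at infinity, as a Laurent series. -/
def qser (A : ModularForm (Gamma0 N) k) : LaurentSeries ℂ :=
  HahnSeries.ofPowerSeries ℤ ℂ (qExpansion 1 ⇑A)

theorem hasExp_qser (A : ModularForm (Gamma0 N) k) : HasExp 1 ⇑A (qser A) := by
  have hΓ := CongruenceSubgroup.one_mem_strictPeriods_Gamma0 N
  refine Eventually.of_forall fun τ => ?_
  have : Fact (IsCusp OnePoint.infty (Gamma0 N : Subgroup (GL (Fin 2) ℝ))) :=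
    ⟨Subgroup.isCusp_of_mem_strictPeriods one_pos hΓ⟩
  have h := UpperHalfPlane.hasSum_qExpansion (h := 1) one_pos
    (SlashInvariantFormClass.periodic_comp_ofComplex A hΓ) A.holo'
    (ModularFormClass.bdd_at_infty A) τ
  rw [Nat.cast_one]
  refine (Function.Injective.hasSum_iff (g := ((↑) : ℕ → ℤ))
    Nat.cast_injective fun n hn => ?_).mp ?_
  · rw [qser, ModularCurve.ofPowerSeries_coeff_of_neg _ (by
      by_contra h0
      exact hn ⟨n.toNat, Int.toNat_of_nonneg (not_lt.mp h0)⟩), zero_mul]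
  · simpa [Function.comp_def, qser, HahnSeries.ofPowerSeries_apply_coeff, smul_eq_mul] using h

/-- Product of forms. -/
theorem exists_mul {k₁ k₂ : ℤ} (A : ModularForm (Gamma0 N) k₁) (B : ModularForm (Gamma0 N) k₂) :
    ∃ C : ModularForm (Gamma0 N) (k₁ + k₂), ofForm C = ofForm A * ofForm B ∧
      qser C = qser A * qser B :=
  ⟨A.mul B, rfl, HasExp.unique zero_lt_one (hasExp_qser _) ((hasExp_qser A).mul (hasExp_qser B))⟩

end Forms

section Rescale

variable {N M d : ℕ} [NeZero d] {k : ℤ}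

theorem diag_pos (d : ℕ) : 0 < (ModularForm.heckeDiagMatrix d).det.val :=
  ModularForm.det_heckeDiagMatrix_pos d

omit [NeZero d] in
theorem dvd_lowerLeft_of (h : N * d ∣ M) {γ : SL(2, ℤ)} (hγ : γ ∈ Gamma0 M) :
    (d : ℤ) ∣ γ 1 0 :=
  dvd_trans (Int.natCast_dvd_natCast.mpr (dvd_trans (dvd_mul_left d N) h)) (dvd_lowerLeft hγ)

theorem conjDSL_mem (h : N * d ∣ M) {γ : SL(2, ℤ)} (hγ : γ ∈ Gamma0 M) :
    conjDSL d γ (dvd_lowerLeft_of h hγ) ∈ Gamma0 N := by
  have hd : (d : ℤ) ≠ 0 := by exact_mod_cast NeZero.ne d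
  obtain ⟨c, hc⟩ := dvd_trans (Int.natCast_dvd_natCast.mpr h) (dvd_lowerLeft hγ)
  push_cast at hc
  rw [Gamma0_mem, ZMod.intCast_zmod_eq_zero_iff_dvd, coe_conjDSL]
  refine ⟨c, ?_⟩
  show γ 1 0 / (d : ℤ) = _
  rw [hc, show (N : ℤ) * d * c = (d : ℤ) * (N * c) by ring, Int.mul_ediv_cancel_left _ hd]

/-- `D γ = (D γ D⁻¹) D` in `GL₂(ℝ)`. -/
theorem diag_mul_eq (γ : SL(2, ℤ)) (h : (d : ℤ) ∣ γ 1 0) :
    ModularForm.heckeDiagMatrix d * (γ : GL (Fin 2) ℝ) =
      (conjDSL d γ h : GL (Fin 2) ℝ) * ModularForm.heckeDiagMatrix d := by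
  obtain ⟨c, hc⟩ := h
  have hd : (d : ℤ) ≠ 0 := by exact_mod_cast NeZero.ne d
  have hcoe : ∀ (g : SL(2, ℤ)), ((g : GL (Fin 2) ℝ) : Matrix (Fin 2) (Fin 2) ℝ) =
      (g : Matrix (Fin 2) (Fin 2) ℤ).map (fun n : ℤ => (n : ℝ)) := fun g => rfl
  have hd' : (d : ℝ) ≠ 0 := by exact_mod_cast NeZero.ne d
  refine Units.ext ?_
  rw [Units.val_mul, Units.val_mul, hcoe, hcoe, coe_conjDSL,
    ModularForm.val_heckeDiagMatrix (NeZero.ne d)]
  ext i j
  fin_cases i <;> fin_cases j <;> simp [Matrix.mul_apply, Fin.sum_univ_two, conjDMat, hc]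
  ring

theorem Gamma0_le_conj_diag (h : N * d ∣ M) :
    (Gamma0 M : Subgroup (GL (Fin 2) ℝ)) ≤
      ConjAct.toConjAct (ModularForm.heckeDiagMatrix d)⁻¹ •
        (Gamma0 N : Subgroup (GL (Fin 2) ℝ)) := by
  rintro _ ⟨γ, hγ, rfl⟩
  rw [map_inv, Subgroup.mem_inv_pointwise_smul_iff, ConjAct.toConjAct_smul]
  refine ⟨conjDSL d γ (dvd_lowerLeft_of h hγ), conjDSL_mem h hγ, ?_⟩
  show (conjDSL d γ (dvd_lowerLeft_of h hγ) : GL (Fin 2) ℝ) = _
  exact eq_mul_inv_of_mul_eq (diag_mul_eq γ (dvd_lowerLeft_of h hγ)).symm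

/-- `τ ↦ A(dτ)` as a form of level `M`, up to the constant `d ^ (k-1)`. -/
def rescaleAux (h : N * d ∣ M) (A : ModularForm (Gamma0 N) k) : ModularForm (Gamma0 M) k where
  toFun := ⇑A ∣[k] ModularForm.heckeDiagMatrix d
  slash_action_eq' γ hγ :=
    (SlashInvariantForm.translate A (ModularForm.heckeDiagMatrix d)).slash_action_eq' γ
      (Gamma0_le_conj_diag h hγ)
  holo' := (ModularForm.translate A (ModularForm.heckeDiagMatrix d)).holo'
  bdd_at_cusps' hc :=
    (ModularForm.translate A (ModularForm.heckeDiagMatrix d)).bdd_at_cusps'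
      (hc.mono (Gamma0_le_conj_diag h))

/-- `τ ↦ A(dτ)` as a form of level `M`. -/
def rescale (h : N * d ∣ M) (A : ModularForm (Gamma0 N) k) : ModularForm (Gamma0 M) k :=
  ((d : ℂ) ^ (k - 1))⁻¹ • rescaleAux h A

theorem rescale_apply (h : N * d ∣ M) (A : ModularForm (Gamma0 N) k) (τ : ℍ) :
    rescale h A τ = A (ModularForm.heckeDiagMatrix d • τ) := by
  show ((d : ℂ) ^ (k - 1))⁻¹ • (⇑A ∣[k] ModularForm.heckeDiagMatrix d) τ = _
  rw [ModularForm.slash_heckeDiagMatrix_apply k (NeZero.ne d), smul_eq_mul,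
    inv_mul_cancel_left₀ (zpow_ne_zero _ (Nat.cast_ne_zero.mpr (NeZero.ne d)))]

theorem tendsto_diag_smul :
    Tendsto (fun τ : ℍ => ModularForm.heckeDiagMatrix d • τ) atImInfty atImInfty := by
  rw [atImInfty, tendsto_comap_iff]
  have : UpperHalfPlane.im ∘ (fun τ : ℍ => ModularForm.heckeDiagMatrix d • τ) =
      fun τ : ℍ => (d : ℝ) * τ.im := funext fun τ => by
    show ((ModularForm.heckeDiagMatrix d • τ : ℍ) : ℂ).im = _
    rw [ModularForm.coe_heckeDiagMatrix_smul (NeZero.ne d), Complex.mul_im]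
    simp
  rw [this]
  exact Tendsto.const_mul_atTop (by exact_mod_cast Nat.pos_of_ne_zero (NeZero.ne d)) tendsto_comap

theorem qser_rescale (h : N * d ∣ M) (A : ModularForm (Gamma0 N) k) :
    qser (rescale h A) = ModularCurve.qExpand ℂ d (qser A) := by
  refine HasExp.unique zero_lt_one (hasExp_qser _) ?_
  have htw : FLTAgent.LevelM.twist 1 (qser A) = qser A := by ext n; simp
  have := (hasExp_qser A).subst (φ := fun τ => ModularForm.heckeDiagMatrix d • τ) (h' := 1)
    (d := d) 1 tendsto_diag_smul fun τ => by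
      rw [one_mul, ModularForm.coe_heckeDiagMatrix_smul (NeZero.ne d), Function.Periodic.qParam,
        Function.Periodic.qParam, ← Complex.exp_nat_mul]
      congr 1
      push_cast
      ring
  rw [htw] at this
  exact this.congr (EventuallyEq.of_eq (funext fun τ => (rescale_apply h A τ).symm))

end Rescale

end FLTAgent.HeckeJacobian

end
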