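import Fermat.Agent.HeckeJacobian.HeckeHom
import Fermat.Agent.HeckeJacobian.ModularRatio
import Fermat.Agent.HeckeJacobian.KummerHecke
import Fermat.Agent.Newforms.HeckeCosets
import Fermat.Agent.Periods.Primitive

/-!
# Hecke operators on periods and the Fricke involution

The Hecke operator on period homomorphisms is the Fricke conjugate of the Hecke operator on cusp
forms: `heckeHom_periodMap_fricke_T` for good primes, `heckeHom_periodMap_fricke_U` for primes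
dividing the level.
-/

set_option autoImplicit false

noncomputable section

open UpperHalfPlane CongruenceSubgroup Matrix
open scoped MatrixGroups ModularForm

namespace FLTAgent.HeckeJacobian

open FLTAgent.Newforms FLTAgent.Periods

local notation "slmat" γ => (Matrix.SpecialLinearGroup.mapGL ℝ γ : GL (Fin 2) ℝ)

/-- Chain rule for a matrix of positive determinant. -/
theorem isPrimitive_comp_glSmul {F f : ℍ → ℂ} (hF : IsPrimitive F f) (g : GL (Fin 2) ℝ)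
    (hg : 0 < g.det.val) : IsPrimitive (fun w => F (g • w)) (f ∣[(2 : ℤ)] g) := by
  intro τ
  have hdet : 0 < g.val.det := by rwa [← Matrix.GeneralLinearGroup.val_det_apply]
  have h1 := (hasStrictDerivAt_smul hdet τ).hasDerivAt
  have h2 : HasDerivAt (F ∘ ofComplex) (f (g • τ))
      ((fun z ↦ ↑(g • ofComplex z) : ℂ → ℂ) τ) := by
    simpa using hF (g • τ)
  have h3 := h2.comp (τ : ℂ) h1
  have e : (f ∣[(2 : ℤ)] g) τ = f (g • τ) * (g.val.det / denom g τ ^ 2) := by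
    rw [ModularForm.slash_apply, σ, if_pos hg, Matrix.GeneralLinearGroup.val_det_apply,
      abs_of_pos hdet]
    simp [_root_.zpow_neg, div_eq_mul_inv, mul_assoc]
  rw [e]
  refine h3.congr_of_eventuallyEq (Filter.Eventually.of_forall fun z => ?_)
  simp [Function.comp_apply]

theorem isPrimitive_sum {ι : Type*} (s : Finset ι) (F f : ι → ℍ → ℂ)
    (h : ∀ i ∈ s, IsPrimitive (F i) (f i)) : IsPrimitive (∑ i ∈ s, F i) (∑ i ∈ s, f i) := by
  classical
  induction s using Finset.induction_on with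
  | empty =>
    intro τ
    simpa [Function.comp_def] using hasDerivAt_const (τ : ℂ) (0 : ℂ)
  | insert a s ha ih =>
    rw [Finset.sum_insert ha, Finset.sum_insert ha]
    exact (h a (Finset.mem_insert_self a s)).add (ih fun i hi => h i (Finset.mem_insert_of_mem hi))

variable (N : ℕ) [NeZero N]

/-- The Fricke matrix. -/
def frickeMat : IMat := !![0, -1; (N : ℤ), 0]

omit [NeZero N] in
theorem det_frickeMat : (frickeMat N).det = N := by
  rw [frickeMat, Matrix.det_fin_two_of]; ring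

theorem det_frickeMat_pos : 0 < (frickeMat N).det := by
  rw [det_frickeMat]; exact_mod_cast NeZero.pos N

omit [NeZero N] in
theorem frickeMat_intertwines : Intertwines N N (frickeMat N) := by
  intro g hg
  obtain ⟨c, hc⟩ := dvd_lowerLeft hg
  have hdet := Matrix.det_fin_two (g : Matrix (Fin 2) (Fin 2) ℤ)
  rw [g.2, hc] at hdet
  refine ⟨⟨!![g 1 1, -c; -((N : ℤ) * g 0 1), g 0 0], by
    rw [Matrix.det_fin_two_of]; linear_combination -hdet⟩, ?_, ?_⟩
  · exact Gamma0_mem.mpr ((ZMod.intCast_zmod_eq_zero_iff_dvd _ _).mpr ⟨-(g 0 1), by simp⟩)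
  · ext i j
    fin_cases i <;> fin_cases j <;>
      simp [frickeMat, Matrix.mul_apply, Fin.sum_univ_two, hc] <;> ring

/-- The Fricke operator. -/
def frickeLin : CuspForm (Gamma0 N) 2 →ₗ[ℂ] CuspForm (Gamma0 N) 2 :=
  slashLin (frickeMat N) (det_frickeMat_pos N) (frickeMat_intertwines N)

theorem frickeLin_injective : Function.Injective (frickeLin N) := fun f g h => by
  refine DFunLike.coe_injective ?_
  have h' : (⇑f ∣[(2 : ℤ)] intGL (frickeMat N)) = ⇑g ∣[(2 : ℤ)] intGL (frickeMat N) :=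
    congrArg DFunLike.coe h
  have := congrArg (fun F : ℍ → ℂ => F ∣[(2 : ℤ)] (intGL (frickeMat N))⁻¹) h'
  simpa only [← SlashAction.slash_mul, mul_inv_cancel, SlashAction.slash_one] using this

variable {N}

/-- The period of a sum over coset representatives is the Hecke transform of the period. -/
theorem heckeHom_periodMap {ℓ : ℕ} [NeZero ℓ] {X : Type*} [Fintype X] (rep : X → Gamma0 N)
    (hinj : Function.Injective fun x => (rep x : Gamma0 N ⧸ gamma0Sub N ℓ))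
    (hcard : Fintype.card X = Fintype.card (Gamma0 N ⧸ gamma0Sub N ℓ))
    (f g' : CuspForm (Gamma0 N) 2)
    (hg : ⇑g' = ∑ x, ⇑f ∣[(2 : ℤ)]
      (ModularForm.heckeDiagMatrix ℓ * slmat ((rep x : SL(2, ℤ))⁻¹))) :
    heckeHom N ℓ ℂ (ModularCurve.periodMap N f) = ModularCurve.periodMap N g' := by
  classical
  obtain ⟨F, hF⟩ := exists_hasEquivariantPrimitive f
  obtain ⟨F', hF'⟩ := exists_hasEquivariantPrimitive g'
  let e := Equiv.ofBijective _ ((Fintype.bijective_iff_injective_and_card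
    (fun x => (rep x : Gamma0 N ⧸ gamma0Sub N ℓ))).mpr ⟨hinj, hcard⟩)
  let s : Gamma0 N ⧸ gamma0Sub N ℓ → Gamma0 N := fun q => rep (e.symm q)
  have hs : ∀ q, (s q : Gamma0 N ⧸ gamma0Sub N ℓ) = q := fun q => e.apply_symm_apply q
  let P : Gamma0 N → (ℍ → ℂ) →+ (ℍ → ℂ) := fun γ =>
    AddMonoidHom.mk' (fun G τ => G ((γ : SL(2, ℤ)) • τ)) fun _ _ => rfl
  let ι : ℂ →+ (ℍ → ℂ) := AddMonoidHom.mk' (fun a _ => a) fun _ _ => rfl
  let G₀ : ℍ → ℂ := fun τ => F (ModularForm.heckeDiagMatrix ℓ • τ)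
  have hG₀ : ∀ h : gamma0Sub N ℓ, P h G₀ =
      ι (ModularCurve.periodMap N f (Additive.ofMul (conjD N ℓ h))) + G₀ := fun h => by
    funext τ
    show F (ModularForm.heckeDiagMatrix ℓ • (((h : Gamma0 N) : SL(2, ℤ)) • τ)) =
      ModularCurve.periodMap N f (Additive.ofMul (conjD N ℓ h)) +
        F (ModularForm.heckeDiagMatrix ℓ • τ)
    rw [periodMap_apply hF _ (ModularForm.heckeDiagMatrix ℓ • τ),
      show ModularForm.heckeDiagMatrix ℓ • (((h : Gamma0 N) : SL(2, ℤ)) • τ) =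
        ((conjD N ℓ h : Gamma0 N) : SL(2, ℤ)) • ModularForm.heckeDiagMatrix ℓ • τ from by
        show ModularForm.heckeDiagMatrix ℓ •
          ((((h : Gamma0 N) : SL(2, ℤ)) : GL (Fin 2) ℝ) • τ) = _
        rw [← mul_smul, diag_mul_eq _ (dvd_ell N ℓ h), mul_smul]
        rfl]
    ring
  set G : ℍ → ℂ := ∑ q, P (s q)⁻¹ G₀ with hGdef
  have hG : IsPrimitive G ⇑g' := by
    rw [hg, hGdef, ← Equiv.sum_comp e]
    refine isPrimitive_sum _ _ _ fun x _ => ?_
    have hpos : 0 < (ModularForm.heckeDiagMatrix ℓ *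
        slmat ((rep x : SL(2, ℤ))⁻¹)).det.val := by
      rw [map_mul, Units.val_mul]
      exact mul_pos (ModularForm.det_heckeDiagMatrix_pos ℓ) (det_SL_pos _)
    have := isPrimitive_comp_glSmul hF.1 _ hpos
    convert! this using 1
    funext τ
    show F (ModularForm.heckeDiagMatrix ℓ • (((rep (e.symm (e x)))⁻¹ : Gamma0 N) : SL(2, ℤ)) • τ)
        = _
    rw [Equiv.symm_apply_apply, mul_smul]
    rfl
  obtain ⟨C, hC⟩ := hG.exists_eq_add hF'.1
  refine AddMonoidHom.ext fun x => ?_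
  obtain ⟨γ, rfl⟩ := Additive.ofMul.surjective x
  have h := heckeHom_equivariant N ℓ P (fun a b G => funext fun τ => by
    show G (((a * b : Gamma0 N) : SL(2, ℤ)) • τ) = _
    rw [Subgroup.coe_mul, mul_smul]
    rfl) ι (fun _ _ => rfl) _ G₀ hG₀ s hs γ
  have h' : G ((γ : SL(2, ℤ)) • I) =
      heckeHom N ℓ ℂ (ModularCurve.periodMap N f) (Additive.ofMul γ) + G I := congrFun h I
  rw [periodMap_apply hF' γ I]
  linear_combination -h' + hC ((γ : SL(2, ℤ)) • I) - hC I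

/-- Lower unipotent representatives. -/
def lowerRep (N : ℕ) (j : ℤ) : Gamma0 N :=
  ⟨⟨!![1, 0; (N : ℤ) * j, 1], by rw [Matrix.det_fin_two_of]; ring⟩,
    Gamma0_mem.mpr ((ZMod.intCast_zmod_eq_zero_iff_dvd _ _).mpr ⟨j, by simp⟩)⟩

/-- The extra representative. -/
def extraRep (N : ℕ) (ℓ : ℕ) (x b : ℤ) (h : (ℓ : ℤ) * x - N * b = 1) : Gamma0 N :=
  ⟨⟨!![(ℓ : ℤ) * x, 1; (N : ℤ) * b, 1], by rw [Matrix.det_fin_two_of]; linear_combination h⟩,
    Gamma0_mem.mpr ((ZMod.intCast_zmod_eq_zero_iff_dvd _ _).mpr ⟨b, by simp⟩)⟩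

omit [NeZero N] in
theorem mk_eq_iff_dvd {ℓ : ℕ} (a b : Gamma0 N) :
    (a : Gamma0 N ⧸ gamma0Sub N ℓ) = b ↔
      ((N : ℤ) * ℓ) ∣ ((a : SL(2, ℤ)) 0 0 * (b : SL(2, ℤ)) 1 0 -
        (a : SL(2, ℤ)) 1 0 * (b : SL(2, ℤ)) 0 0) := by
  rw [QuotientGroup.eq, Subgroup.mem_subgroupOf, Gamma0_mem, ZMod.intCast_zmod_eq_zero_iff_dvd]
  push_cast
  simp only [Matrix.SpecialLinearGroup.coe_mul, Matrix.SpecialLinearGroup.coe_inv,
    Matrix.adjugate_fin_two, Matrix.mul_apply, Fin.sum_univ_two]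
  simp only [Matrix.of_apply, Matrix.cons_val', Matrix.cons_val_zero, Matrix.cons_val_one,
    Matrix.cons_val_fin_one]
  constructor <;> intro hd <;> convert hd using 1 <;> ring

theorem lowerRep_injective {ℓ : ℕ} {i j : Fin ℓ}
    (h : (lowerRep N i : Gamma0 N ⧸ gamma0Sub N ℓ) = lowerRep N j) : i = j := by
  rw [mk_eq_iff_dvd] at h
  simp only [lowerRep, Matrix.of_apply, Matrix.cons_val', Matrix.cons_val_zero,
    Matrix.cons_val_one, Matrix.cons_val_fin_one] at h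
  rw [show (1 : ℤ) * ((N : ℤ) * (j : ℕ)) - (N : ℤ) * (i : ℕ) * 1 = N * ((j : ℕ) - (i : ℕ)) by ring]
    at h
  have h' := Int.dvd_of_mul_dvd_mul_left (Int.natCast_ne_zero.mpr (NeZero.ne N)) h
  have hi := i.2
  have hj := j.2
  have h0 : ((j : ℕ) : ℤ) - (i : ℕ) = 0 :=
    Int.eq_zero_of_abs_lt_dvd h' (abs_sub_lt_iff.mpr ⟨by omega, by omega⟩)
  exact Fin.ext (by omega)

theorem lowerRep_ne_extraRep {ℓ : ℕ} (hℓ : ℓ.Prime) {x b : ℤ}
    (h : (ℓ : ℤ) * x - N * b = 1) (i : ℤ) :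
    (lowerRep N i : Gamma0 N ⧸ gamma0Sub N ℓ) ≠ extraRep N ℓ x b h := by
  rw [ne_eq, mk_eq_iff_dvd]
  simp only [lowerRep, extraRep, Matrix.of_apply, Matrix.cons_val', Matrix.cons_val_zero,
    Matrix.cons_val_one, Matrix.cons_val_fin_one]
  intro hd
  rw [show (1 : ℤ) * ((N : ℤ) * b) - (N : ℤ) * i * ((ℓ : ℤ) * x) = N * (b - i * (ℓ * x)) by ring]
    at hd
  have h' := Int.dvd_of_mul_dvd_mul_left (Int.natCast_ne_zero.mpr (NeZero.ne N)) hd
  have hb : (ℓ : ℤ) ∣ b := by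
    have := dvd_add h' (dvd_mul_of_dvd_right (dvd_mul_right (ℓ : ℤ) x) i)
    simpa using this
  have h1 : (ℓ : ℤ) ∣ 1 := h ▸ dvd_sub (dvd_mul_right _ _) (dvd_mul_of_dvd_right hb _)
  exact hℓ.one_lt.ne' (by exact_mod_cast Int.eq_one_of_dvd_one (Int.natCast_nonneg ℓ) h1)

theorem heckeDiagMatrix_eq_intGL {ℓ : ℕ} (hℓ : ℓ ≠ 0) :
    ModularForm.heckeDiagMatrix ℓ = intGL !![(ℓ : ℤ), 0; 0, 1] := by
  refine Units.ext ?_
  rw [ModularForm.val_heckeDiagMatrix hℓ,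
    val_intGL (by rw [Matrix.det_fin_two_of]; simpa using hℓ)]
  ext i j
  fin_cases i <;> fin_cases j <;> simp

theorem heckeMatrix_eq_intGL {ℓ : ℕ} (hℓ : ℓ ≠ 0) (j : ℕ) :
    ModularForm.heckeMatrix ℓ j = intGL !![1, (j : ℤ); 0, (ℓ : ℤ)] := by
  refine Units.ext ?_
  rw [ModularForm.val_heckeMatrix hℓ,
    val_intGL (by rw [Matrix.det_fin_two_of]; simpa using hℓ)]
  ext i j
  fin_cases i <;> fin_cases j <;> simp

theorem slash_lowerRep {ℓ : ℕ} (hℓ : ℓ ≠ 0) (h : ℍ → ℂ) (j : ℕ) :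
    (h ∣[(2 : ℤ)] intGL (frickeMat N)) ∣[(2 : ℤ)]
        (ModularForm.heckeDiagMatrix ℓ * slmat ((lowerRep N j : SL(2, ℤ))⁻¹)) =
      (h ∣[(2 : ℤ)] ModularForm.heckeMatrix ℓ j) ∣[(2 : ℤ)] intGL (frickeMat N) := by
  rw [← SlashAction.slash_mul, ← SlashAction.slash_mul]
  congr 1
  have h1 : (!![(ℓ : ℤ), 0; 0, 1] : IMat).det ≠ 0 := by rw [Matrix.det_fin_two_of]; simpa using hℓ
  have h2 : (!![1, (j : ℤ); 0, (ℓ : ℤ)] : IMat).det ≠ 0 := by
    rw [Matrix.det_fin_two_of]; simpa using hℓ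
  have h3 : ((lowerRep N j : SL(2, ℤ))⁻¹).1.det ≠ 0 := by
    rw [((lowerRep N j : SL(2, ℤ))⁻¹).2]; exact one_ne_zero
  have h4 := (det_frickeMat_pos N).ne'
  rw [heckeDiagMatrix_eq_intGL hℓ, heckeMatrix_eq_intGL hℓ, mapGL_eq_intGL, intGL_mul h1 h3,
    intGL_mul h4 (by rw [Matrix.det_mul]; exact mul_ne_zero h1 h3), intGL_mul h2 h4]
  congr 1
  rw [Matrix.SpecialLinearGroup.coe_inv]
  ext u v
  fin_cases u <;> fin_cases v <;>
    simp [frickeMat, lowerRep, Matrix.adjugate_fin_two, Matrix.mul_apply, Fin.sum_univ_two] <;> ring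

theorem slash_extraRep {ℓ : ℕ} (hℓ : ℓ ≠ 0) (f : CuspForm (Gamma0 N) 2) {x b : ℤ}
    (h : (ℓ : ℤ) * x - N * b = 1) :
    (⇑f ∣[(2 : ℤ)] intGL (frickeMat N)) ∣[(2 : ℤ)]
        (ModularForm.heckeDiagMatrix ℓ * slmat ((extraRep N ℓ x b h : SL(2, ℤ))⁻¹)) =
      (⇑f ∣[(2 : ℤ)] ModularForm.heckeDiagMatrix ℓ) ∣[(2 : ℤ)] intGL (frickeMat N) := by
  let δ : SL(2, ℤ) := ⟨!![x, b; (N : ℤ), (ℓ : ℤ)], by
    rw [Matrix.det_fin_two_of]; linear_combination h⟩
  have hδ : δ ∈ Gamma0 N :=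
    Gamma0_mem.mpr ((ZMod.intCast_zmod_eq_zero_iff_dvd _ _).mpr ⟨1, by simp [δ]⟩)
  conv_rhs => rw [← isGamma0Inv_coe f δ hδ]
  rw [← SlashAction.slash_mul, ← SlashAction.slash_mul, ← SlashAction.slash_mul]
  congr 1
  have h1 : (!![(ℓ : ℤ), 0; 0, 1] : IMat).det ≠ 0 := by rw [Matrix.det_fin_two_of]; simpa using hℓ
  have h2 : δ.1.det ≠ 0 := by rw [δ.2]; exact one_ne_zero
  have h3 : ((extraRep N ℓ x b h : SL(2, ℤ))⁻¹).1.det ≠ 0 := by
    rw [((extraRep N ℓ x b h : SL(2, ℤ))⁻¹).2]; exact one_ne_zero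
  have h4 := (det_frickeMat_pos N).ne'
  rw [heckeDiagMatrix_eq_intGL hℓ, mapGL_eq_intGL, mapGL_eq_intGL, intGL_mul h1 h3,
    intGL_mul h4 (by rw [Matrix.det_mul]; exact mul_ne_zero h1 h3), intGL_mul h1 h4,
    intGL_mul h2 (by rw [Matrix.det_mul]; exact mul_ne_zero h1 h4)]
  congr 1
  rw [Matrix.SpecialLinearGroup.coe_inv]
  ext u v
  fin_cases u <;> fin_cases v <;>
    simp [frickeMat, extraRep, δ, Matrix.adjugate_fin_two, Matrix.mul_apply, Fin.sum_univ_two] <;>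
    ring

/-- `T_ℓ` on periods is the Fricke conjugate of `T_ℓ` on cusp forms. -/
theorem heckeHom_periodMap_fricke_T {ℓ : ℕ} [NeZero ℓ] (hℓ : ℓ.Prime) (hℓN : ¬ ℓ ∣ N)
    (h : CuspForm (Gamma0 N) 2) :
    heckeHom N ℓ ℂ (ModularCurve.periodMap N (frickeLin N h)) =
      ModularCurve.periodMap N (frickeLin N (CuspForm.heckeTLin 2 hℓ hℓN h)) := by
  obtain ⟨u, v, huv⟩ := Nat.isCoprime_iff_coprime.mpr (hℓ.coprime_iff_not_dvd.mpr hℓN)
  have hb : (ℓ : ℤ) * u - N * (-v) = 1 := by linear_combination huv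
  refine heckeHom_periodMap
    (fun o : Option (Fin ℓ) => o.elim (extraRep N ℓ u (-v) hb) fun j => lowerRep N (j : ℕ))
    ?_ ?_ _ _ ?_
  · rintro (_ | i) (_ | j) he
    · rfl
    · exact absurd he.symm (lowerRep_ne_extraRep hℓ hb _)
    · exact absurd he (lowerRep_ne_extraRep hℓ hb _)
    · exact congrArg some (lowerRep_injective he)
  · rw [card_gamma0_quotient N ℓ hℓ, if_neg hℓN, Fintype.card_option, Fintype.card_fin]
  · show (ModularForm.heckeT 2 ℓ ⇑h) ∣[(2 : ℤ)] intGL (frickeMat N) = _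
    rw [ModularForm.heckeT_def, SlashAction.add_slash, SlashAction.sum_slash,
      Fintype.sum_option, ← Fin.sum_univ_eq_sum_range, add_comm]
    congr 1
    · exact (slash_extraRep hℓ.ne_zero h hb).symm
    · exact Finset.sum_congr rfl fun j _ => (slash_lowerRep hℓ.ne_zero ⇑h j).symm

/-- `U_ℓ` on periods is the Fricke conjugate of `U_ℓ` on cusp forms. -/
theorem heckeHom_periodMap_fricke_U {ℓ : ℕ} [NeZero ℓ] (hℓ : ℓ.Prime) (hℓN : ℓ ∣ N)
    (h : CuspForm (Gamma0 N) 2) :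
    heckeHom N ℓ ℂ (ModularCurve.periodMap N (frickeLin N h)) =
      ModularCurve.periodMap N (frickeLin N (CuspForm.heckeULin 2 hℓN h)) := by
  refine heckeHom_periodMap (fun j : Fin ℓ => lowerRep N (j : ℕ))
    (fun i j he => lowerRep_injective he) ?_ _ _ ?_
  · rw [card_gamma0_quotient N ℓ hℓ, if_pos hℓN, Fintype.card_fin]
  · show (ModularForm.heckeU 2 ℓ ⇑h) ∣[(2 : ℤ)] intGL (frickeMat N) = _
    rw [ModularForm.heckeU_def, SlashAction.sum_slash, ← Fin.sum_univ_eq_sum_range]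
    exact Finset.sum_congr rfl fun j _ => (slash_lowerRep hℓ.ne_zero ⇑h j).symm

end FLTAgent.HeckeJacobian

end
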