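import Fermat.Agent.HeckeJacobian.KummerHecke
import Fermat.Agent.Periods.ParabolicBound
import Mathlib.GroupTheory.Abelianization.Defs
import Mathlib.Algebra.Module.Projective
import Mathlib.LinearAlgebra.FreeModule.PID
import Mathlib.Algebra.Module.Torsion.Basic
import Mathlib.RingTheory.RootsOfUnity.Complex

/-!
# The lattice of integral parabolic homomorphisms

`charLattice N` consists of the parabolic homomorphisms `Γ₀(N) → ℤ`.  When the torsion has the
expected order (`TorsionCount`) its reductions give all the torsion of `J₀(N)(ℚ̄)`, and the Hecke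
algebra acts on it (`latticeEval`) compatibly with the Kummer map.
-/

set_option autoImplicit false

noncomputable section

open CongruenceSubgroup AlgebraicCurve ModularCurve
open ModularCurve.Period
open scoped MatrixGroups

namespace FLTAgent.HeckeJacobian

local notation "Qbar" => AlgebraicClosure ℚ

section Kummer

variable [Algebra Qbar ℂ] {N n : ℕ} [NeZero N]

theorem KummerRel.zero : KummerRel N n (0 : JZero N) 0 := by
  refine ⟨0, 1, 1, 1, rfl, one_ne_zero, fun v => by simp, map_one (realF N) |>.trans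
    (map_one (algebraMap Hol Mero)).symm, one_pow n, fun γ => ?_⟩
  rw [map_one]
  exact (one_smul ℂ (1 : Hol)).symm

theorem KummerRel.nsmul_self_eq_zero {x : JZero N} {c : Additive (Gamma0 N) →+ Additive ℂˣ}
    (h : KummerRel N n x c) : n • x = 0 := by
  obtain ⟨D, f, H, a, rfl, hf, hD, -⟩ := h
  exact (QuotientAddGroup.eq_zero_iff (n • D)).mpr ⟨f, hf, fun v => by
    rw [AddSubgroup.subtype_apply, AddSubgroup.coe_nsmul, Finsupp.smul_apply, nsmul_eq_mul]
    exact hD v⟩

theorem KummerRel.of_mul {m : ℕ} {y : JZero N} {d : Additive (Gamma0 N) →+ Additive ℂˣ}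
    (h : KummerRel N (n * m) y d) : KummerRel N n (m • y) (m • d) := by
  obtain ⟨D, f, H, a, rfl, hf, hD, hr, ha, hc⟩ := h
  refine ⟨m • D, f, H, a ^ m, rfl, hf, fun v => ?_, hr, by rw [← pow_mul, mul_comm, ha],
    fun γ => ?_⟩
  · rw [AddSubgroup.coe_nsmul, Finsupp.smul_apply, nsmul_eq_mul, ← mul_assoc, ← Nat.cast_mul]
    exact hD v
  · rw [map_pow, hc γ, smul_pow]
    rfl

variable (N) in
/-- The Kummer map as a homomorphism. -/
def kummerHom (hn : n ≠ 0) :
    (nsmulAddMonoidHom n : JZero N →+ JZero N).ker →+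
      (Additive (Gamma0 N) →+ Additive ℂˣ) :=
  AddMonoidHom.mk' (fun x => kummer N hn ⟨x.1, x.2⟩) fun x y =>
    (kummerRel_kummer hn ⟨(x + y).1, (x + y).2⟩).unique hn
      ((kummerRel_kummer hn ⟨x.1, x.2⟩).add (kummerRel_kummer hn ⟨y.1, y.2⟩))

theorem kummerHom_rel (hn : n ≠ 0) (x : (nsmulAddMonoidHom n : JZero N →+ JZero N).ker) :
    KummerRel N n x.1 (kummerHom N hn x) := kummerRel_kummer hn ⟨x.1, x.2⟩

theorem KummerRel.zsmul (hn : n ≠ 0) {x : JZero N} {c : Additive (Gamma0 N) →+ Additive ℂˣ}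
    (h : KummerRel N n x c) (a : ℤ) : KummerRel N n (a • x) (a • c) := by
  let X : (nsmulAddMonoidHom n : JZero N →+ JZero N).ker := ⟨x, h.nsmul_self_eq_zero⟩
  have := kummerHom_rel hn (a • X)
  rw [map_zsmul, (kummerHom_rel hn X).unique hn h] at this
  exact this

end Kummer

variable (N : ℕ)

/-- Integral parabolic homomorphisms of `Γ₀(N)`. -/
abbrev charLattice : Submodule ℤ (Additive (Gamma0 N) →+ ℤ) := parabolicHoms ℤ (Gamma0 N) ℤ

variable [NeZero N]

theorem exists_eval_injective :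
    ∃ (S : Finset (Gamma0 N)),
      Function.Injective fun (φ : Additive (Gamma0 N) →+ ℤ) (γ : S) => φ (Additive.ofMul γ.1) := by
  obtain ⟨S, hS⟩ := (gamma0_fg (N := N)).out
  refine ⟨S, fun φ ψ h => ?_⟩
  refine AddMonoidHom.toMultiplicativeRight.injective (MonoidHom.eq_of_eqOn_dense hS fun γ hγ => ?_)
  exact congrArg (fun f => Multiplicative.ofAdd (f ⟨γ, hγ⟩ : ℤ)) h

instance finite_charLattice : Module.Finite ℤ (charLattice N) := by
  obtain ⟨S, hS⟩ := exists_eval_injective N
  let L : charLattice N →ₗ[ℤ] (S → ℤ) :=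
    { toFun := fun φ γ => φ.1 (Additive.ofMul γ.1)
      map_add' := fun _ _ => rfl
      map_smul' := fun _ _ => rfl }
  exact Module.Finite.of_injective L fun φ ψ h => Subtype.ext (hS h)

instance free_charLattice : Module.Free ℤ (charLattice N) := by
  obtain ⟨S, hS⟩ := exists_eval_injective N
  let L : charLattice N →ₗ[ℤ] (S → ℤ) :=
    { toFun := fun φ γ => φ.1 (Additive.ofMul γ.1)
      map_add' := fun _ _ => rfl
      map_smul' := fun _ _ => rfl }
  have hL : Function.Injective L := fun φ ψ h => Subtype.ext (hS h)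
  have : Module.IsTorsionFree ℤ (charLattice N) :=
    hL.moduleIsTorsionFree L (fun r m => map_smul L r m)
  exact Module.free_of_finite_type_torsion_free'

/-- The rank of the lattice is at most the dimension of complex parabolic homomorphisms. -/
theorem finrank_charLattice_le :
    Module.finrank ℤ (charLattice N) ≤ Module.finrank ℂ (parabolicHoms ℂ (Gamma0 N) ℂ) := by
  classical
  have := FLTAgent.Periods.finite_parabolicHoms (K := ℂ) (Γ := Gamma0 N)
    (by simp [Gamma0_mem])
  let b := Module.Free.chooseBasis ℤ (charLattice N)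
  let q : charLattice N → (Additive (Gamma0 N) →+ ℚ) := fun φ => (Int.castAddHom ℚ).comp φ.1
  let vC : Module.Free.ChooseBasisIndex ℤ (charLattice N) → parabolicHoms ℂ (Gamma0 N) ℂ :=
    fun i => ⟨(Int.castAddHom ℂ).comp (b i).1, fun γ hγ => by
      simp [(b i).2 γ hγ]⟩
  have hQ : LinearIndependent ℚ fun i => q (b i) := by
    refine (LinearIndependent.iff_fractionRing (R := ℤ) (K := ℚ)).mp ?_
    let qL : charLattice N →ₗ[ℤ] (Additive (Gamma0 N) →+ ℚ) :=
      (AddMonoidHom.mk' q fun φ ψ => AddMonoidHom.ext fun γ => by simp [q]).toIntLinearMap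
    refine b.linearIndependent.map' qL (LinearMap.ker_eq_bot.mpr fun φ ψ h => ?_)
    exact Subtype.ext (AddMonoidHom.ext fun γ =>
      Int.cast_injective (α := ℚ) (DFunLike.congr_fun h γ))
  have hC : LinearIndependent ℂ vC := by
    rw [Fintype.linearIndependent_iff]
    intro c hc i
    by_contra hne
    let bb := Module.Free.chooseBasis ℚ ℂ
    obtain ⟨m, hm⟩ := Finsupp.ne_iff.mp (mt bb.repr.map_eq_zero_iff.mp hne)
    let lam : ℂ →ₗ[ℚ] ℚ := bb.coord m
    have hlam : lam (c i) ≠ 0 := hm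
    have h0 : ∀ γ, ∑ j, c j * ((b j).1 γ : ℂ) = 0 := fun γ => by
      have := DFunLike.congr_fun (congrArg Subtype.val hc) γ
      simpa [vC] using this
    have : ∑ j, lam (c j) • q (b j) = 0 := by
      refine AddMonoidHom.ext fun γ => ?_
      have := congrArg lam (h0 γ)
      simp only [map_sum, map_zero] at this
      rw [AddMonoidHom.finsetSum_apply, AddMonoidHom.zero_apply, ← this]
      refine Finset.sum_congr rfl fun j _ => ?_
      rw [mul_comm, show ((((b j).1 γ : ℤ)) : ℂ) * c j = (b j).1 γ • c j from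
        (zsmul_eq_mul _ _).symm, map_zsmul, zsmul_eq_mul, mul_comm]
      rfl
    exact hlam (Fintype.linearIndependent_iff.mp hQ _ this i)
  rw [Module.finrank_eq_card_chooseBasisIndex]
  exact hC.fintype_card_le_finrank

/-- The images of parabolic elements in the abelianisation. -/
def parabolicSubgroup : AddSubgroup (Additive (Abelianization (Gamma0 N))) :=
  AddSubgroup.closure ((fun γ : Gamma0 N => Additive.ofMul (Abelianization.of γ)) ''
    {γ | (((γ : SL(2, ℤ))) : Matrix (Fin 2) (Fin 2) ℤ).trace ^ 2 = 4})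

/-- The abelianisation modulo parabolic elements. -/
abbrev parabolicQuot : Type := Additive (Abelianization (Gamma0 N)) ⧸ parabolicSubgroup N

/-- The canonical map to `parabolicQuot`. -/
def toParabolicQuot : Additive (Gamma0 N) →+ parabolicQuot N :=
  (QuotientAddGroup.mk' _).comp (MonoidHom.toAdditive Abelianization.of)

omit [NeZero N] in
theorem toParabolicQuot_surjective : Function.Surjective (toParabolicQuot N) := by
  refine (QuotientAddGroup.mk'_surjective _).comp ?_
  intro x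
  obtain ⟨γ, hγ⟩ := QuotientGroup.mk'_surjective (commutator (Gamma0 N)) (Additive.toMul x)
  exact ⟨Additive.ofMul γ, congrArg Additive.ofMul hγ⟩

omit [NeZero N] in
theorem exists_factor {B : Type*} [AddCommGroup B] {c : Additive (Gamma0 N) →+ B}
    (hc : IsParabolicHom (Gamma0 N) c) :
    ∃ c' : parabolicQuot N →+ B, c'.comp (toParabolicQuot N) = c := by
  let c₁ : Additive (Abelianization (Gamma0 N)) →+ B :=
    MonoidHom.toAdditiveLeft (Abelianization.lift (AddMonoidHom.toMultiplicativeRight c))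
  have h1 : ∀ γ : Gamma0 N, c₁ (Additive.ofMul (Abelianization.of γ)) = c (Additive.ofMul γ) :=
    fun γ => by simp [c₁]
  refine ⟨QuotientAddGroup.lift _ c₁ ((AddSubgroup.closure_le _).mpr ?_),
    AddMonoidHom.ext fun x => h1 (Additive.toMul x)⟩
  rintro _ ⟨γ, hγ, rfl⟩
  exact (h1 γ).trans (hc γ hγ)

instance finite_parabolicQuot : Module.Finite ℤ (parabolicQuot N) := by
  rw [Module.Finite.iff_addGroup_fg]
  have : Group.FG (Gamma0 N) := gamma0_fg N
  have : AddGroup.FG (Additive (Gamma0 N)) := inferInstance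
  exact AddGroup.fg_of_surjective (toParabolicQuot_surjective N)

/-- `m ↦ exp (2 π i m / n)`. -/
def expChar (n : ℕ) : ℤ →+ Additive ℂˣ :=
  zmultiplesHom _ (Additive.ofMul
    (Units.mk0 (Complex.exp (2 * Real.pi * Complex.I / n)) (Complex.exp_ne_zero _)))

theorem expChar_eq_zero_iff {n : ℕ} (hn : n ≠ 0) {m : ℤ} : expChar n m = 0 ↔ (n : ℤ) ∣ m := by
  rw [← (Complex.isPrimitiveRoot_exp n hn).zpow_eq_one_iff_dvd, expChar, zmultiplesHom_apply,
    ← ofMul_zpow, ← ofMul_one, Additive.ofMul.injective.eq_iff, ← Units.val_inj,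
    Units.val_zpow_eq_zpow_val, Units.val_mk0, Units.val_one]

theorem exists_expChar_eq {n : ℕ} (hn : n ≠ 0) {z : Additive ℂˣ} (hz : n • z = 0) :
    ∃ m : ℤ, expChar n m = z := by
  have : NeZero n := ⟨hn⟩
  have h : ((Additive.toMul z : ℂˣ) : ℂ) ^ n = 1 := by
    rw [← Units.val_pow_eq_pow_val, ← toMul_nsmul, hz, toMul_zero, Units.val_one]
  obtain ⟨i, -, hi⟩ := (Complex.isPrimitiveRoot_exp n hn).eq_pow_of_pow_eq_one h
  refine ⟨i, Additive.toMul.injective (Units.ext ?_)⟩
  rw [expChar, zmultiplesHom_apply, natCast_zsmul, toMul_nsmul, Units.val_pow_eq_pow_val,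
    toMul_ofMul, Units.val_mk0, hi]

variable {N}

/-- Reduction of a lattice element to a character of exponent `n`. -/
def redChar (n : ℕ) : charLattice N →+ (Additive (Gamma0 N) →+ Additive ℂˣ) :=
  AddMonoidHom.mk' (fun φ => (expChar n).comp φ.1) fun _φ _ψ =>
    AddMonoidHom.ext fun _γ => map_add (expChar n) _ _

omit [NeZero N] in
theorem redChar_eq_zero_iff {n : ℕ} (hn : n ≠ 0) {φ : charLattice N} :
    redChar n φ = 0 ↔ ∃ w : charLattice N, φ = n • w := by
  refine ⟨fun h => ?_, ?_⟩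
  · have hd : ∀ x, (n : ℤ) ∣ φ.1 x := fun x =>
      (expChar_eq_zero_iff hn).mp (DFunLike.congr_fun h x)
    let w : Additive (Gamma0 N) →+ ℤ := AddMonoidHom.mk' (fun x => φ.1 x / n) fun x y => by
      rw [map_add, Int.add_ediv_of_dvd_left (hd x)]
    refine ⟨⟨w, fun γ hγ => ?_⟩, Subtype.ext (AddMonoidHom.ext fun x => ?_)⟩
    · show φ.1 (Additive.ofMul γ) / (n : ℤ) = 0
      rw [φ.2 γ hγ, Int.zero_ediv]
    · show φ.1 x = n • (φ.1 x / (n : ℤ))
      rw [nsmul_eq_mul, Int.mul_ediv_cancel' (hd x)]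
  · rintro ⟨w, rfl⟩
    refine AddMonoidHom.ext fun x => (expChar_eq_zero_iff hn).mpr ⟨w.1 x, ?_⟩
    show n • w.1 x = _
    rw [nsmul_eq_mul]

theorem heckeHom_redChar (n ℓ : ℕ) [NeZero ℓ] {φ : charLattice N}
    (h : heckeHom N ℓ ℤ φ.1 ∈ charLattice N) :
    redChar n ⟨_, h⟩ = heckeHom N ℓ (Additive ℂˣ) (redChar n φ) :=
  (heckeHom_comp N ℓ (expChar n) φ.1).symm

variable (N) in
/-- The number of `p`-power torsion points is as expected and bounds the rank of the lattice. -/
def TorsionCount (p : ℕ) : Prop :=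
  ∃ R : ℕ, Module.finrank ℤ (charLattice N) ≤ R ∧
    ∀ k : ℕ, Nat.card {x : JZero N // (p ^ k) • x = 0} = p ^ (R * k)

section Main

variable {p : ℕ} [hp : Fact p.Prime]

omit hp in
/-- Characters that are divisible enough lift to the lattice. -/
theorem exists_lift (hp : p.Prime) :
    ∃ E : ℕ, ∀ (k : ℕ) (d : Additive (Gamma0 N) →+ Additive ℂˣ),
      IsParabolicHom (Gamma0 N) d → (p ^ (k + E)) • d = 0 →
        ∃ φ : charLattice N, redChar (p ^ k) φ = (p ^ E) • d := by
  classical
  let A := parabolicQuot N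
  let Tor := Submodule.torsion ℤ A
  have : Finite Tor := Module.finite_of_fg_torsion Tor Submodule.torsion_isTorsion
  refine ⟨Nat.card Tor, fun k d hd hdk => ?_⟩
  set E := Nat.card Tor with hE
  have hn : p ^ k ≠ 0 := pow_ne_zero _ hp.ne_zero
  obtain ⟨d', hd'⟩ := exists_factor N hd
  have hdk' : ∀ b : A, (p ^ (k + E)) • d' b = 0 := fun b => by
    obtain ⟨x, rfl⟩ := toParabolicQuot_surjective N b
    rw [show d' (toParabolicQuot N x) = d x from DFunLike.congr_fun hd' x]
    exact DFunLike.congr_fun hdk x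
  have htor : ∀ b : A, b ∈ Tor → (p ^ E) • d' b = 0 := fun b hb => by
    have h1 : E • d' b = 0 := by
      rw [← map_nsmul, show E • b = 0 from
        congrArg Subtype.val (card_nsmul_eq_zero' (x := (⟨b, hb⟩ : Tor))), map_zero]
    obtain ⟨i, hi, hio⟩ := (Nat.dvd_prime_pow hp).mp (addOrderOf_dvd_of_nsmul_eq_zero (hdk' b))
    have hiE : i ≤ E :=
      le_trans (Nat.lt_pow_self hp.one_lt).le
        (Nat.le_of_dvd Nat.card_pos (hio ▸ addOrderOf_dvd_of_nsmul_eq_zero h1))
    exact addOrderOf_dvd_iff_nsmul_eq_zero.mp (hio ▸ pow_dvd_pow p hiE)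
  let c : A →ₗ[ℤ] Additive ℂˣ := ((p ^ E) • d').toIntLinearMap
  have hc : Tor ≤ LinearMap.ker c := fun b hb => LinearMap.mem_ker.mpr (htor b hb)
  let c' : (A ⧸ Tor) →ₗ[ℤ] Additive ℂˣ := Submodule.liftQ Tor c hc
  have : Module.Free ℤ (A ⧸ Tor) := Module.free_of_finite_type_torsion_free'
  let e : ℤ →ₗ[ℤ] LinearMap.range (expChar (p ^ k)).toIntLinearMap :=
    (expChar (p ^ k)).toIntLinearMap.rangeRestrict
  have hrange : ∀ b, c' b ∈ LinearMap.range (expChar (p ^ k)).toIntLinearMap := fun b => by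
    obtain ⟨b, rfl⟩ := Submodule.Quotient.mk_surjective _ b
    refine exists_expChar_eq hn ?_
    show (p ^ k) • ((p ^ E) • d' b) = 0
    rw [smul_smul, ← pow_add, hdk']
  obtain ⟨ψ, hψ⟩ := Module.projective_lifting_property e (c'.codRestrict _ hrange)
    (expChar (p ^ k)).toIntLinearMap.surjective_rangeRestrict
  let φ : Additive (Gamma0 N) →+ ℤ :=
    (ψ.comp (Submodule.mkQ Tor)).toAddMonoidHom.comp (toParabolicQuot N)
  have hφ : IsParabolicHom (Gamma0 N) φ := fun γ hγ => by
    show ψ (Submodule.Quotient.mk (toParabolicQuot N (Additive.ofMul γ))) = 0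
    rw [show toParabolicQuot N (Additive.ofMul γ) = 0 from
      (QuotientAddGroup.eq_zero_iff _).mpr (AddSubgroup.subset_closure ⟨γ, hγ, rfl⟩),
      Submodule.Quotient.mk_zero, map_zero]
  refine ⟨⟨φ, hφ⟩, AddMonoidHom.ext fun x => ?_⟩
  have h := congrArg Subtype.val
    (LinearMap.congr_fun hψ (Submodule.Quotient.mk (toParabolicQuot N x)))
  show expChar (p ^ k) (ψ (Submodule.Quotient.mk (toParabolicQuot N x))) = (p ^ E) • d x
  rw [← hd']
  exact h

variable [Algebra Qbar ℂ]

omit [Algebra Qbar ℂ] in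
/-- Multiplication by `p ^ E` maps the points of level `p ^ (k + E)` onto those of level
`p ^ k`. -/
theorem exists_nsmul_pow_eq {R : ℕ}
    (hcard : ∀ j, Nat.card {x : JZero N // (p ^ j) • x = 0} = p ^ (R * j)) {k : ℕ} (E : ℕ)
    {x : JZero N} (hx : (p ^ k) • x = 0) :
    ∃ y : JZero N, (p ^ (k + E)) • y = 0 ∧ (p ^ E) • y = x := by
  have hn : ∀ j, p ^ j ≠ 0 := fun j => pow_ne_zero _ hp.out.ne_zero
  let K : ℕ → AddSubgroup (JZero N) := fun j => (nsmulAddMonoidHom (p ^ j)).ker
  have hK : ∀ j, Nat.card (K j) = p ^ (R * j) := hcard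
  have hKfin : ∀ j, Finite (K j) := fun j => (finite_torsion_jZero (hn j)).to_subtype
  -- multiplication by `p ^ E` maps onto `J[p ^ k]`
  let f : K (k + E) →+ K k := AddMonoidHom.mk' (fun y => ⟨(p ^ E) • y.1, by
    show (p ^ k) • ((p ^ E) • y.1) = 0
    rw [smul_smul, ← pow_add]
    exact y.2⟩) fun y z => Subtype.ext (nsmul_add _ _ _)
  have hfs : Function.Surjective f := by
    rw [← AddMonoidHom.range_eq_top]
    refine AddSubgroup.eq_top_of_le_card _ ?_
    have hker : Nat.card f.ker = Nat.card (K E) := Nat.card_congr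
      { toFun := fun y => ⟨y.1.1, congrArg Subtype.val y.2⟩
        invFun := fun z => ⟨⟨z.1, by
          show (p ^ (k + E)) • z.1 = 0
          rw [pow_add, mul_smul, show (p ^ E) • z.1 = 0 from z.2, nsmul_zero]⟩, Subtype.ext z.2⟩
        left_inv := fun y => rfl
        right_inv := fun z => rfl }
    have h1 := AddSubgroup.card_eq_card_quotient_mul_card_addSubgroup f.ker
    rw [Nat.card_congr (QuotientAddGroup.quotientKerEquivRange f).toEquiv, hker, hK, hK,
      mul_add, pow_add] at h1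
    rw [hK]
    exact (Nat.eq_of_mul_eq_mul_right (pow_pos hp.out.pos _) h1).le
  obtain ⟨⟨y, hy⟩, he⟩ := hfs ⟨x, hx⟩
  exact ⟨y, hy, congrArg Subtype.val he⟩

/-- Every reduction of a lattice element is the character of a torsion point. -/
theorem exists_kummerRel_redChar (hT : TorsionCount N p) (k : ℕ) (φ : charLattice N) :
    ∃ x : JZero N, KummerRel N (p ^ k) x (redChar (p ^ k) φ) := by
  classical
  obtain ⟨R, hR, hcard⟩ := hT
  have hn : ∀ j, p ^ j ≠ 0 := fun j => pow_ne_zero _ hp.out.ne_zero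
  obtain ⟨E, hE⟩ := exists_lift (N := N) hp.out
  let K : ℕ → AddSubgroup (JZero N) := fun j => (nsmulAddMonoidHom (p ^ j)).ker
  have hK : ∀ j, Nat.card (K j) = p ^ (R * j) := hcard
  have hKfin : ∀ j, Finite (K j) := fun j => (finite_torsion_jZero (hn j)).to_subtype
  let red : Set (Additive (Gamma0 N) →+ Additive ℂˣ) := Set.range (redChar (p ^ k) (N := N))
  let im : Set (Additive (Gamma0 N) →+ Additive ℂˣ) := Set.range (kummerHom N (hn k))
  have hsub : im ⊆ red := by
    rintro _ ⟨⟨x, hx⟩, rfl⟩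
    obtain ⟨y, hy0, rfl⟩ := exists_nsmul_pow_eq hcard E hx
    have hy := kummerHom_rel (hn (k + E)) ⟨y, hy0⟩
    obtain ⟨φ', hφ'⟩ := hE k (kummerHom N (hn (k + E)) ⟨y, hy0⟩) (hy.parabolic (hn _))
      (hy.nsmul_eq_zero (hn _))
    refine ⟨φ', ?_⟩
    rw [hφ']
    refine KummerRel.unique (x := (p ^ E) • y) (hn k) ?_ (kummerHom_rel (hn k) ⟨_, hx⟩)
    refine KummerRel.of_mul ?_
    rw [← pow_add]
    exact hy
  -- `red` has at most `p ^ (rank * k)` elements
  have : NeZero (p ^ k) := ⟨hn k⟩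
  let b := Module.Free.chooseBasis ℤ (charLattice N)
  let g : (Module.Free.ChooseBasisIndex ℤ (charLattice N) → ZMod (p ^ k)) →
      (Additive (Gamma0 N) →+ Additive ℂˣ) := fun v =>
    redChar (p ^ k) (∑ i, ((v i).val : ℤ) • b i)
  have hred : red ⊆ Set.range g := by
    rintro _ ⟨φ', rfl⟩
    refine ⟨fun i => (b.repr φ' i : ZMod (p ^ k)), ?_⟩
    simp only [g]
    have hdiv : φ' = (∑ i, (((b.repr φ' i : ZMod (p ^ k)).val : ℤ)) • b i) +
        (p ^ k) • ∑ i, (b.repr φ' i / (p ^ k : ℕ)) • b i := by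
      conv_lhs => rw [← b.sum_repr φ']
      rw [Finset.smul_sum, ← Finset.sum_add_distrib]
      refine Finset.sum_congr rfl fun i _ => ?_
      rw [← natCast_zsmul, smul_smul, ← add_smul, ZMod.val_intCast]
      congr 1
      exact (Int.emod_add_mul_ediv _ _).symm
    conv_rhs => rw [hdiv]
    rw [AddMonoidHom.map_add, (redChar_eq_zero_iff (hn k)).mpr ⟨_, rfl⟩]
    exact AddMonoidHom.ext fun x => (add_zero _).symm
  have hinj : Function.Injective (kummerHom N (hn k)) := fun x y h => by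
    have := kummer_injective (hn k) (a₁ := ⟨x.1, x.2⟩) (a₂ := ⟨y.1, y.2⟩) h
    exact Subtype.ext (congrArg Subtype.val this :)
  have hcardle : red.ncard ≤ im.ncard := by
    refine (Set.ncard_le_ncard hred (Set.finite_range g)).trans ?_
    rw [← Set.image_univ]
    refine (Set.ncard_image_le Set.finite_univ).trans ?_
    rw [Set.ncard_univ, Nat.card_fun, Nat.card_eq_fintype_card (α := ZMod (p ^ k)), ZMod.card,
      Nat.card_eq_fintype_card, ← Module.finrank_eq_card_chooseBasisIndex,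
      show im = (kummerHom N (hn k)) '' Set.univ from Set.image_univ.symm,
      Set.ncard_image_of_injective _ hinj,
      Set.ncard_univ, hK, ← pow_mul, mul_comm]
    exact Nat.pow_le_pow_right hp.out.pos (Nat.mul_le_mul_right k hR)
  have heq := Set.eq_of_subset_of_ncard_le hsub hcardle ((Set.finite_range g).subset hred)
  obtain ⟨x, hx⟩ : redChar (p ^ k) φ ∈ im := heq ▸ Set.mem_range_self φ
  exact ⟨x.1, hx ▸ kummerHom_rel (hn k) x⟩

/-- The Hecke operators preserve the lattice. -/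
theorem heckeHom_mem_charLattice (hT : TorsionCount N p) (ℓ : Nat.Primes) (φ : charLattice N) :
    haveI : NeZero (ℓ : ℕ) := ⟨ℓ.2.ne_zero⟩
    heckeHom N ℓ ℤ φ.1 ∈ charLattice N := by
  have : NeZero (ℓ : ℕ) := ⟨ℓ.2.ne_zero⟩
  intro γ hγ
  by_contra hne
  obtain ⟨k, hk⟩ : ∃ k : ℕ, ¬ ((p ^ k : ℕ) : ℤ) ∣ heckeHom N ℓ ℤ φ.1 (Additive.ofMul γ) := by
    refine ⟨(heckeHom N ℓ ℤ φ.1 (Additive.ofMul γ)).natAbs, fun hd => ?_⟩
    have := Nat.le_of_dvd (Int.natAbs_pos.mpr hne) (Int.natCast_dvd.mp hd)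
    exact absurd this (not_le.mpr (Nat.lt_pow_self hp.out.one_lt))
  obtain ⟨x, hx⟩ := exists_kummerRel_redChar hT k φ
  have hpar := (hx.hecke ℓ).parabolic (pow_ne_zero _ hp.out.ne_zero) γ hγ
  rw [show redChar (p ^ k) φ = (expChar (p ^ k)).comp φ.1 from rfl, heckeHom_comp] at hpar
  exact hk ((expChar_eq_zero_iff (pow_ne_zero _ hp.out.ne_zero)).mp hpar)

/-- The Hecke operator on the lattice. -/
def latticeHecke (hT : TorsionCount N p) (ℓ : Nat.Primes) : Module.End ℤ (charLattice N) :=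
  haveI : NeZero (ℓ : ℕ) := ⟨ℓ.2.ne_zero⟩
  (AddMonoidHom.mk' (fun φ => (⟨_, heckeHom_mem_charLattice hT ℓ φ⟩ : charLattice N))
    fun φ ψ => Subtype.ext (map_add (heckeHom N ℓ ℤ) φ.1 ψ.1)).toIntLinearMap

theorem coe_latticeHecke (hT : TorsionCount N p) (ℓ : Nat.Primes) (φ : charLattice N) :
    haveI : NeZero (ℓ : ℕ) := ⟨ℓ.2.ne_zero⟩
    (latticeHecke hT ℓ φ).1 = heckeHom N ℓ ℤ φ.1 := rfl

theorem redChar_latticeHecke (hT : TorsionCount N p) (ℓ : Nat.Primes) (n : ℕ)
    (φ : charLattice N) :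
    haveI : NeZero (ℓ : ℕ) := ⟨ℓ.2.ne_zero⟩
    redChar n (latticeHecke hT ℓ φ) = heckeHom N ℓ (Additive ℂˣ) (redChar n φ) :=
  haveI : NeZero (ℓ : ℕ) := ⟨ℓ.2.ne_zero⟩
  heckeHom_redChar n ℓ (heckeHom_mem_charLattice hT ℓ φ)

omit [NeZero N] [Algebra Qbar ℂ] in
theorem eq_zero_of_forall_redChar {φ : charLattice N} (h : ∀ k : ℕ, redChar (p ^ k) φ = 0) :
    φ = 0 := by
  refine Subtype.ext (AddMonoidHom.ext fun x => ?_)
  by_contra hne
  set m := φ.1 x with hm
  have hd := (expChar_eq_zero_iff (pow_ne_zero m.natAbs hp.out.ne_zero)).mp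
    (DFunLike.congr_fun (h m.natAbs) x)
  have := Nat.le_of_dvd (Int.natAbs_pos.mpr hne) (Int.natCast_dvd.mp hd)
  exact absurd this (not_le.mpr (Nat.lt_pow_self hp.out.one_lt))

theorem latticeHecke_comm (hT : TorsionCount N p) (ℓ ℓ' : Nat.Primes) :
    latticeHecke hT ℓ * latticeHecke hT ℓ' = latticeHecke hT ℓ' * latticeHecke hT ℓ := by
  refine LinearMap.ext fun φ => sub_eq_zero.mp (eq_zero_of_forall_redChar (p := p) fun k => ?_)
  obtain ⟨x, hx⟩ := exists_kummerRel_redChar hT k φ
  rw [map_sub, sub_eq_zero, Module.End.mul_apply, Module.End.mul_apply, redChar_latticeHecke,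
    redChar_latticeHecke, redChar_latticeHecke, redChar_latticeHecke]
  refine ((hx.hecke ℓ').hecke ℓ).unique (pow_ne_zero _ hp.out.ne_zero) ?_
  have hc := LinearMap.congr_fun (heckeOperatorsCommuteBar N ℓ ℓ') x
  rw [Module.End.mul_apply, Module.End.mul_apply] at hc
  rw [hc]
  exact (hx.hecke ℓ).hecke ℓ'

theorem isMulCommutative_adjoin_latticeHecke (hT : TorsionCount N p) :
    IsMulCommutative (Algebra.adjoin ℤ (Set.range (latticeHecke hT))) :=
  Algebra.isMulCommutative_adjoin ℤ (by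
    rintro _ ⟨ℓ, rfl⟩ _ ⟨ℓ', rfl⟩
    exact latticeHecke_comm hT ℓ ℓ')

open scoped IsMulCommutative in
/-- The action of the Hecke algebra on the lattice. -/
def latticeEval (hT : TorsionCount N p) : HeckeAlg →+* Module.End ℤ (charLattice N) :=
  haveI := isMulCommutative_adjoin_latticeHecke hT
  ((Algebra.adjoin ℤ (Set.range (latticeHecke hT))).val.comp
    (MvPolynomial.aeval fun ℓ =>
      (⟨latticeHecke hT ℓ, Algebra.subset_adjoin (Set.mem_range_self ℓ)⟩ :
        Algebra.adjoin ℤ (Set.range (latticeHecke hT))))).toRingHom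

open scoped IsMulCommutative in
theorem latticeEval_heckeGen (hT : TorsionCount N p) (ℓ : Nat.Primes) :
    latticeEval hT (heckeGen ℓ) = latticeHecke hT ℓ :=
  haveI := isMulCommutative_adjoin_latticeHecke hT
  congrArg Subtype.val (MvPolynomial.aeval_X _ ℓ)

theorem latticeEval_C (hT : TorsionCount N p) (a : ℤ) :
    latticeEval hT (MvPolynomial.C a) = (a : Module.End ℤ (charLattice N)) := by
  rw [← MvPolynomial.algebraMap_eq, eq_intCast, map_intCast]

/-- The action on the lattice is compatible with the Kummer map. -/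
theorem kummerRel_smul (hT : TorsionCount N p) (k : ℕ) (t : HeckeAlg) :
    letI := heckeModuleBar N
    ∀ (x : JZero N) (φ : charLattice N), KummerRel N (p ^ k) x (redChar (p ^ k) φ) →
      KummerRel N (p ^ k) (t • x) (redChar (p ^ k) (latticeEval hT t φ)) := by
  let := heckeModuleBar N
  induction t using MvPolynomial.induction_on with
  | C a =>
    intro x φ h
    rw [heckeModuleBar_C_smul, latticeEval_C, Module.End.intCast_apply, map_zsmul]
    exact h.zsmul (pow_ne_zero _ hp.out.ne_zero) a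
  | add s t hs ht =>
    intro x φ h
    rw [add_smul, map_add, LinearMap.add_apply, map_add]
    exact (hs x φ h).add (ht x φ h)
  | mul_X t ℓ ht =>
    intro x φ h
    have : NeZero (ℓ : ℕ) := ⟨ℓ.2.ne_zero⟩
    rw [map_mul, show (MvPolynomial.X ℓ : HeckeAlg) = heckeGen ℓ from rfl, mul_smul,
      latticeEval_heckeGen, Module.End.mul_apply,
      heckeModuleBar_heckeGen_smul (heckeOperatorsCommuteBar N)]
    refine ht _ _ ?_
    rw [redChar_latticeHecke]
    exact h.hecke ℓ

/-- If `t` kills `J[p^k]` then it is divisible by `p^k` on the lattice. -/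
theorem exists_eq_smul_of_kills (hT : TorsionCount N p) (k : ℕ) (t : HeckeAlg)
    (ht : letI := heckeModuleBar N; ∀ x : JZero N, (p ^ k) • x = 0 → t • x = 0)
    (φ : charLattice N) : ∃ w, latticeEval hT t φ = (p ^ k) • w := by
  let := heckeModuleBar N
  obtain ⟨x, hx⟩ := exists_kummerRel_redChar hT k φ
  have h := kummerRel_smul hT k t x φ hx
  rw [ht x hx.nsmul_self_eq_zero] at h
  exact (redChar_eq_zero_iff (pow_ne_zero _ hp.out.ne_zero)).mp
    (h.unique (pow_ne_zero _ hp.out.ne_zero) KummerRel.zero)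

end Main

end FLTAgent.HeckeJacobian

end
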