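import Fermat.Agent.HeckeJacobian.Lattice
import Fermat.Agent.HeckeJacobian.FrickeHecke
import Fermat.Agent.Periods.Injective
import Fermat.Prelude.Def_CuspForm_HeckeAlgebra

/-!
# Periods and the Hecke action on the lattice

`heckeEvalS2_eq_zero`: a Hecke element killing `charLattice N` kills all weight two cusp forms
of level `Γ₀(N)`, by injectivity of the period map and its compatibility with Hecke operators.
-/

set_option autoImplicit false

noncomputable section

open CongruenceSubgroup AlgebraicCurve ModularCurve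
open ModularCurve.Period
open scoped MatrixGroups

namespace FLTAgent.HeckeJacobian

local notation "Qbar" => AlgebraicClosure ℚ

section Span

variable {N : ℕ} [NeZero N]

/-- Complex parabolic homomorphisms are combinations of integral ones. -/
theorem exists_sum_charLattice {ψ : Additive (Gamma0 N) →+ ℂ}
    (hψ : IsParabolicHom (Gamma0 N) ψ) :
    ∃ (ι : Type) (_ : Fintype ι) (c : ι → ℂ) (φ : ι → charLattice N),
      ψ = ∑ i, (zmultiplesHom ℂ (c i)).comp (φ i).1 := by
  classical
  let A := parabolicQuot N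
  let Tor := Submodule.torsion ℤ A
  have : Finite Tor := Module.finite_of_fg_torsion Tor Submodule.torsion_isTorsion
  have : Module.Free ℤ (A ⧸ Tor) := Module.free_of_finite_type_torsion_free'
  obtain ⟨ψ', hψ'⟩ := exists_factor N hψ
  have hker : Tor ≤ LinearMap.ker ψ'.toIntLinearMap := fun b hb => by
    have h1 : (Nat.card Tor) • ψ' b = 0 := by
      rw [← map_nsmul, show (Nat.card Tor) • b = 0 from
        congrArg Subtype.val (card_nsmul_eq_zero' (x := (⟨b, hb⟩ : Tor))), map_zero]
    exact (nsmul_eq_zero_iff_right Nat.card_pos.ne').mp h1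
  let ψ'' : (A ⧸ Tor) →ₗ[ℤ] ℂ := Submodule.liftQ Tor ψ'.toIntLinearMap hker
  let b := Module.Free.chooseBasis ℤ (A ⧸ Tor)
  let g : Module.Free.ChooseBasisIndex ℤ (A ⧸ Tor) → Additive (Gamma0 N) →+ ℤ := fun i =>
    ((b.coord i).comp (Submodule.mkQ Tor)).toAddMonoidHom.comp (toParabolicQuot N)
  have hg : ∀ i, IsParabolicHom (Gamma0 N) (g i) := fun i γ hγ => by
    show b.coord i (Submodule.Quotient.mk (toParabolicQuot N (Additive.ofMul γ))) = 0
    rw [show toParabolicQuot N (Additive.ofMul γ) = 0 from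
      (QuotientAddGroup.eq_zero_iff _).mpr (AddSubgroup.subset_closure ⟨γ, hγ, rfl⟩),
      Submodule.Quotient.mk_zero, map_zero]
  refine ⟨_, inferInstance, fun i => ψ'' (b i), fun i => ⟨g i, hg i⟩,
    AddMonoidHom.ext fun x => ?_⟩
  rw [AddMonoidHom.finsetSum_apply, ← hψ']
  show ψ' (toParabolicQuot N x) = _
  rw [show ψ' (toParabolicQuot N x) =
      ψ'' (Submodule.Quotient.mk (toParabolicQuot N x)) from rfl]
  conv_lhs => rw [← b.sum_repr (Submodule.Quotient.mk (toParabolicQuot N x))]
  rw [map_sum]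
  exact Finset.sum_congr rfl fun i _ => map_zsmul ψ'' _ _

/-- The period map is injective. -/
theorem periodMap_injective {f g : CuspForm (Gamma0 N) 2}
    (h : ModularCurve.periodMap N f = ModularCurve.periodMap N g) : f = g := by
  have := FLTAgent.Periods.injective_periodHomPair N (a₁ := (f, 0)) (a₂ := (g, 0))
    (by rw [FLTAgent.Periods.periodHomPair_apply, FLTAgent.Periods.periodHomPair_apply, h])
  exact congrArg Prod.fst this

variable (N)

/-- The Hecke operator at `ℓ` on cusp forms of weight two. -/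
def heckeGenS2 (ℓ : Nat.Primes) : CuspForm.heckeAlgebra N 2 ∅ := by
  classical
  exact if h : (ℓ : ℕ) ∣ N then CuspForm.heckeAlgebra.U ℓ.2 h (Set.notMem_empty _)
    else CuspForm.heckeAlgebra.T ℓ.2 h (Set.notMem_empty _)

/-- The evaluation of the formal Hecke algebra on cusp forms of weight two. -/
def heckeEvalS2 : HeckeAlg →+* Module.End ℂ (CuspForm (Gamma0 N) 2) :=
  ((CuspForm.heckeAlgebra N 2 ∅).val.comp (MvPolynomial.aeval (heckeGenS2 N))).toRingHom

theorem heckeEvalS2_T (ℓ : Nat.Primes) (h : ¬ (ℓ : ℕ) ∣ N) :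
    heckeEvalS2 N (heckeGen ℓ) = CuspForm.heckeTLin 2 ℓ.2 h := by
  show ((MvPolynomial.aeval (heckeGenS2 N) (MvPolynomial.X ℓ) : CuspForm.heckeAlgebra N 2 ∅) :
    Module.End ℂ (CuspForm (Gamma0 N) 2)) = _
  rw [MvPolynomial.aeval_X, heckeGenS2, dif_neg h]
  rfl

theorem heckeEvalS2_U (ℓ : Nat.Primes) (h : (ℓ : ℕ) ∣ N) :
    heckeEvalS2 N (heckeGen ℓ) = CuspForm.heckeULin 2 h := by
  show ((MvPolynomial.aeval (heckeGenS2 N) (MvPolynomial.X ℓ) : CuspForm.heckeAlgebra N 2 ∅) :
    Module.End ℂ (CuspForm (Gamma0 N) 2)) = _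
  rw [MvPolynomial.aeval_X, heckeGenS2, dif_pos h]
  rfl

theorem heckeEvalS2_C (a : ℤ) :
    heckeEvalS2 N (MvPolynomial.C a) = (a : Module.End ℂ (CuspForm (Gamma0 N) 2)) := by
  rw [← MvPolynomial.algebraMap_eq, eq_intCast, map_intCast]

variable {N}

theorem heckeHom_periodMap_fricke (ℓ : Nat.Primes) (h : CuspForm (Gamma0 N) 2) :
    haveI : NeZero (ℓ : ℕ) := ⟨ℓ.2.ne_zero⟩
    heckeHom N ℓ ℂ (ModularCurve.periodMap N (frickeLin N h)) =
      ModularCurve.periodMap N (frickeLin N (heckeEvalS2 N (heckeGen ℓ) h)) := by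
  have : NeZero (ℓ : ℕ) := ⟨ℓ.2.ne_zero⟩
  by_cases hd : (ℓ : ℕ) ∣ N
  · rw [heckeEvalS2_U N ℓ hd]
    exact heckeHom_periodMap_fricke_U ℓ.2 hd h
  · rw [heckeEvalS2_T N ℓ hd]
    exact heckeHom_periodMap_fricke_T ℓ.2 hd h

end Span

section Faithful

variable [Algebra Qbar ℂ] {N : ℕ} [NeZero N] {p : ℕ} [Fact p.Prime]

theorem periodMap_heckeEvalS2 (hT : TorsionCount N p) (t : HeckeAlg) :
    ∀ (h : CuspForm (Gamma0 N) 2) (ι : Type) (_ : Fintype ι) (c : ι → ℂ) (φ : ι → charLattice N),
      ModularCurve.periodMap N (frickeLin N h) = ∑ i, (zmultiplesHom ℂ (c i)).comp (φ i).1 →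
      ModularCurve.periodMap N (frickeLin N (heckeEvalS2 N t h)) =
        ∑ i, (zmultiplesHom ℂ (c i)).comp (latticeEval hT t (φ i)).1 := by
  induction t using MvPolynomial.induction_on with
  | C a =>
    intro h ι _ c φ he
    rw [heckeEvalS2_C, Module.End.intCast_apply, map_zsmul, ← FLTAgent.Periods.periodMapLin_apply,
      map_zsmul, FLTAgent.Periods.periodMapLin_apply, he, Finset.smul_sum]
    refine Finset.sum_congr rfl fun i _ => AddMonoidHom.ext fun x => ?_
    rw [latticeEval_C, Module.End.intCast_apply]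
    show a • zmultiplesHom ℂ (c i) ((φ i).1 x) = zmultiplesHom ℂ (c i) (a • (φ i).1 x)
    rw [map_zsmul]
  | add s t hs ht =>
    intro h ι inst c φ he
    rw [map_add, LinearMap.add_apply, map_add, ← FLTAgent.Periods.periodMapLin_apply, map_add,
      FLTAgent.Periods.periodMapLin_apply, FLTAgent.Periods.periodMapLin_apply,
      hs h ι inst c φ he, ht h ι inst c φ he, ← Finset.sum_add_distrib]
    refine Finset.sum_congr rfl fun i _ => AddMonoidHom.ext fun x => ?_
    rw [map_add, LinearMap.add_apply]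
    exact (map_add (zmultiplesHom ℂ (c i)) _ _).symm
  | mul_X t ℓ ht =>
    intro h ι inst c φ he
    have : NeZero (ℓ : ℕ) := ⟨ℓ.2.ne_zero⟩
    rw [map_mul, Module.End.mul_apply, show (MvPolynomial.X ℓ : HeckeAlg) = heckeGen ℓ from rfl]
    rw [ht _ ι inst c (fun i => latticeEval hT (heckeGen ℓ) (φ i)) ?_]
    · simp only [map_mul, Module.End.mul_apply]
    · rw [← heckeHom_periodMap_fricke, he, map_sum]
      refine Finset.sum_congr rfl fun i _ => ?_
      rw [heckeHom_comp, latticeEval_heckeGen, coe_latticeHecke]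

/-- An element which kills the lattice kills every cusp form. -/
theorem heckeEvalS2_eq_zero (hT : TorsionCount N p) (t : HeckeAlg)
    (ht : latticeEval hT t = 0) : heckeEvalS2 N t = 0 := by
  refine LinearMap.ext fun h => frickeLin_injective N (periodMap_injective ?_)
  obtain ⟨ι, inst, c, φ, he⟩ := exists_sum_charLattice
    (FLTAgent.Periods.periodMap_mem_parabolicHoms (frickeLin N h))
  rw [periodMap_heckeEvalS2 hT t h ι inst c φ he, LinearMap.zero_apply, map_zero,
    ← FLTAgent.Periods.periodMapLin_apply, map_zero]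
  refine Finset.sum_eq_zero fun i _ => AddMonoidHom.ext fun x => ?_
  rw [ht]
  exact map_zero (zmultiplesHom ℂ (c i))

end Faithful

end FLTAgent.HeckeJacobian

end
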