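import Fermat.Agent.HeckeJacobian.ModularRatio
import Fermat.Agent.HeckeJacobian.HeckeCommute
import Fermat.Agent.ModularFF.Field
import Fermat.Agent.FFBasic.Discrete

/-!
# Modular functions as meromorphic functions

`realF` realises `ℚ̄(X₀(N))` inside the meromorphic functions on `ℍ`.  A function whose divisor
is divisible by `n` has orders divisible by `n` at the points of `ℍ` (`Rep.dvd_ordI`).
-/

set_option autoImplicit false

noncomputable section

open UpperHalfPlane CongruenceSubgroup AlgebraicCurve ModularCurve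
open scoped Manifold MatrixGroups

namespace FLTAgent.HeckeJacobian

open FLTAgent.ModularFF

local notation "Qbar" => AlgebraicClosure ℚ

section Valuations

variable {K F : Type*} [Field K] [Field F] [Algebra K F] [FLTAgent.FFBasic.IsFunctionField K F]

/-- An integer valued valuation of a function field is trivial or a multiple of the order at a
place; hence it takes multiples of `n` on any function whose divisor is a multiple of `n`. -/
theorem dvd_valuation (w : F → ℤ) (hmul : ∀ x y, x ≠ 0 → y ≠ 0 → w (x * y) = w x + w y)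
    (hadd : ∀ x y, x ≠ 0 → y ≠ 0 → x + y ≠ 0 → min (w x) (w y) ≤ w (x + y))
    (hK : ∀ c : K, c ≠ 0 → w (algebraMap K F c) = 0) {f : F} {n : ℤ}
    (hf : f ≠ 0) (hdvd : ∀ v : Place K F, n ∣ v.ord f) : n ∣ w f := by
  classical
  have h1 : w 1 = 0 := by simpa using hmul 1 1 one_ne_zero one_ne_zero
  have hinv : ∀ x, x ≠ 0 → w x⁻¹ = -w x := fun x hx => by
    have := hmul x x⁻¹ hx (inv_ne_zero hx)
    rw [mul_inv_cancel₀ hx, h1] at this
    omega
  by_cases htriv : ∀ x, x ≠ 0 → w x = 0
  · rw [htriv f hf]; exact dvd_zero n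
  push Not at htriv
  let A : ValuationSubring F :=
    { carrier := {x | x = 0 ∨ 0 ≤ w x}
      zero_mem' := Or.inl rfl
      one_mem' := Or.inr h1.ge
      mul_mem' := fun {a b} ha hb => by
        rcases eq_or_ne a 0 with rfl | ha0
        · exact Or.inl (zero_mul b)
        rcases eq_or_ne b 0 with rfl | hb0
        · exact Or.inl (mul_zero a)
        refine Or.inr ?_
        rw [hmul a b ha0 hb0]
        have := ha.resolve_left ha0
        have := hb.resolve_left hb0
        omega
      add_mem' := fun {a b} ha hb => by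
        rcases eq_or_ne a 0 with rfl | ha0
        · rwa [zero_add]
        rcases eq_or_ne b 0 with rfl | hb0
        · rwa [add_zero]
        rcases eq_or_ne (a + b) 0 with h | h
        · exact Or.inl h
        · exact Or.inr (le_trans (le_min (ha.resolve_left ha0) (hb.resolve_left hb0))
            (hadd a b ha0 hb0 h))
      neg_mem' := fun {a} ha => by
        rcases eq_or_ne a 0 with rfl | ha0
        · exact Or.inl neg_zero
        refine Or.inr ?_
        have hm := hmul (-1) (-1) (neg_ne_zero.mpr one_ne_zero) (neg_ne_zero.mpr one_ne_zero)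
        rw [neg_mul_neg, mul_one, h1] at hm
        have hw : w (-a) = w (-1) + w a := by
          rw [← hmul (-1) a (neg_ne_zero.mpr one_ne_zero) ha0, neg_one_mul]
        have := ha.resolve_left ha0
        omega
      mem_or_inv_mem' := fun x => by
        rcases eq_or_ne x 0 with rfl | hx
        · exact Or.inl (Or.inl rfl)
        · by_cases h : 0 ≤ w x
          · exact Or.inl (Or.inr h)
          · exact Or.inr (Or.inr (by rw [hinv x hx]; omega)) }
  have hAK : ∀ a : K, algebraMap K F a ∈ A := fun a => by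
    rcases eq_or_ne a 0 with rfl | ha
    · exact Or.inl (map_zero _)
    · exact Or.inr (hK a ha).ge
  have hAtop : A ≠ ⊤ := by
    obtain ⟨x, hx, hwx⟩ := htriv
    intro h
    rcases lt_or_gt_of_ne hwx with hlt | hgt
    · have : x ∈ A := h ▸ ValuationSubring.mem_top x
      rcases this with h' | h'
      · exact hx h'
      · omega
    · have : x⁻¹ ∈ A := h ▸ ValuationSubring.mem_top _
      rcases this with h' | h'
      · exact inv_ne_zero hx h'
      · rw [hinv x hx] at h'; omega
  set v := FLTAgent.FFBasic.placeOfValuationSubring A hAK hAtop with hv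
  obtain ⟨π, hπ⟩ := IsDiscreteValuationRing.exists_irreducible v.toValuationSubring
  obtain ⟨u, hu⟩ := v.exists_unit_mul_zpow hf hπ
  have hπ0 : (π : F) ≠ 0 := by simpa [ne_eq, ZeroMemClass.coe_eq_zero] using hπ.ne_zero
  have hu0 : ((u : v.toValuationSubring) : F) ≠ 0 := by
    simp [ne_eq, ZeroMemClass.coe_eq_zero]
  have hwu : w ((u : v.toValuationSubring) : F) = 0 := by
    have ha : ((u : v.toValuationSubring) : F) ∈ A := (u : v.toValuationSubring).2
    have hb : (((u⁻¹ : v.toValuationSubringˣ) : v.toValuationSubring) : F) ∈ A :=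
      ((u⁻¹ : v.toValuationSubringˣ) : v.toValuationSubring).2
    have hprod : ((u : v.toValuationSubring) : F) *
        (((u⁻¹ : v.toValuationSubringˣ) : v.toValuationSubring) : F) = 1 :=
      congrArg Subtype.val (Units.mul_inv u)
    have hb0 : (((u⁻¹ : v.toValuationSubringˣ) : v.toValuationSubring) : F) ≠ 0 := by
      simp [ne_eq, ZeroMemClass.coe_eq_zero]
    have h := hmul _ _ hu0 hb0
    rw [hprod, h1] at h
    have := ha.resolve_left hu0
    have := hb.resolve_left hb0
    omega
  have hzpow : ∀ m : ℤ, w ((π : F) ^ m) = m * w (π : F) := fun m => by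
    induction m using Int.induction_on with
    | zero => simpa using h1
    | succ m ih =>
      rw [zpow_add_one₀ hπ0, hmul _ _ (zpow_ne_zero _ hπ0) hπ0, ih]; ring
    | pred m ih =>
      rw [zpow_sub_one₀ hπ0, hmul _ _ (zpow_ne_zero _ hπ0) (inv_ne_zero hπ0), ih, hinv _ hπ0]
      ring
  rw [hu, hmul _ _ hu0 (zpow_ne_zero _ hπ0), hwu, hzpow, zero_add]
  exact (hdvd v).mul_right _

end Valuations

variable [Algebra Qbar ℂ]
variable (N : ℕ) [NeZero N]

/-- Polynomial expressions in the generators as holomorphic functions. -/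
def evalHol : MvPolynomial (Divs N) Qbar →+* Hol where
  toFun P := ⟨evalFun Qbar N P, mdiff_evalFun P⟩
  map_one' := Subtype.ext (map_one (evalFun Qbar N))
  map_mul' P Q := Subtype.ext (map_mul (evalFun Qbar N) P Q)
  map_zero' := Subtype.ext (map_zero (evalFun Qbar N))
  map_add' P Q := Subtype.ext (map_add (evalFun Qbar N) P Q)

omit [NeZero N] in
@[simp] theorem coe_evalHol (P : MvPolynomial (Divs N) Qbar) :
    (evalHol N P : ℍ → ℂ) = evalFun Qbar N P := rfl

theorem evalHol_eq_zero_iff (P : MvPolynomial (Divs N) Qbar) :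
    evalHol N P = 0 ↔ evalField Qbar N P = 0 := by
  rw [← evalFun_eq_zero_iff]
  exact ⟨fun h => congrArg Subtype.val h, fun h => Subtype.ext h⟩

/-- The realisation of an element of the function field as a meromorphic function. -/
def realFFun (x : modularFunctionFieldBar N) : Mero :=
  algebraMap Hol Mero (evalHol N (exists_eq_div Qbar N x).choose) /
    algebraMap Hol Mero (evalHol N (exists_eq_div Qbar N x).choose_spec.choose)

theorem evalHol_mul_eq {x : modularFunctionFieldBar N} {P Q P' Q' : MvPolynomial (Divs N) Qbar}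
    (hQ' : evalField Qbar N Q' ≠ 0) (hx : x * evalField Qbar N Q = evalField Qbar N P)
    (hx' : x = evalField Qbar N P' / evalField Qbar N Q') :
    evalHol N P' * evalHol N Q = evalHol N P * evalHol N Q' := by
  refine sub_eq_zero.mp ?_
  rw [← map_mul, ← map_mul, ← map_sub, evalHol_eq_zero_iff, map_sub, map_mul, map_mul, ← hx, hx']
  field_simp
  ring

theorem realFFun_eq {x : modularFunctionFieldBar N} {P Q : MvPolynomial (Divs N) Qbar}
    (hQ : evalField Qbar N Q ≠ 0) (hx : x * evalField Qbar N Q = evalField Qbar N P) :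
    realFFun N x = algebraMap Hol Mero (evalHol N P) / algebraMap Hol Mero (evalHol N Q) := by
  obtain ⟨hQ', hx'⟩ := (exists_eq_div Qbar N x).choose_spec.choose_spec
  rw [realFFun, div_eq_div_iff
    (algebraMap_ne_zero' (mt (evalHol_eq_zero_iff N _).mp hQ'))
    (algebraMap_ne_zero' (mt (evalHol_eq_zero_iff N Q).mp hQ)), ← map_mul (algebraMap Hol Mero),
    ← map_mul (algebraMap Hol Mero)]
  exact congrArg (algebraMap Hol Mero) (evalHol_mul_eq N hQ' hx hx')

omit [Algebra Qbar ℂ] in
theorem exists_mul_eq (x : modularFunctionFieldBar N) : ∃ P Q : MvPolynomial (Divs N) Qbar,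
    evalField Qbar N Q ≠ 0 ∧ x * evalField Qbar N Q = evalField Qbar N P := by
  obtain ⟨P, Q, hQ, hx⟩ := exists_eq_div Qbar N x
  exact ⟨P, Q, hQ, by rw [hx, div_mul_cancel₀ _ hQ]⟩

/-- The realisation as a ring homomorphism. -/
def realF : modularFunctionFieldBar N →+* Mero where
  toFun := realFFun N
  map_one' := by
    rw [realFFun_eq N (P := 1) (Q := 1) (by simp) (by simp)]
    simp
  map_mul' x y := by
    obtain ⟨P, Q, hQ, hx⟩ := exists_mul_eq N x
    obtain ⟨R, S, hS, hy⟩ := exists_mul_eq N y
    rw [realFFun_eq N hQ hx, realFFun_eq N hS hy,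
      realFFun_eq N (x := x * y) (P := P * R) (Q := Q * S) (by simp [hQ, hS])
        (by rw [map_mul, map_mul, ← hx, ← hy]; ring)]
    simp only [map_mul, div_mul_div_comm]
  map_zero' := by
    rw [realFFun_eq N (P := 0) (Q := 1) (by simp) (by simp)]
    simp
  map_add' x y := by
    obtain ⟨P, Q, hQ, hx⟩ := exists_mul_eq N x
    obtain ⟨R, S, hS, hy⟩ := exists_mul_eq N y
    rw [realFFun_eq N hQ hx, realFFun_eq N hS hy,
      realFFun_eq N (x := x + y) (P := P * S + Q * R) (Q := Q * S) (by simp [hQ, hS])
        (by rw [map_add, map_mul, map_mul, map_mul, ← hx, ← hy]; ring),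
      div_add_div _ _ (algebraMap_ne_zero' (mt (evalHol_eq_zero_iff N Q).mp hQ))
        (algebraMap_ne_zero' (mt (evalHol_eq_zero_iff N S).mp hS))]
    simp only [map_add, map_mul]

theorem realF_eq {x : modularFunctionFieldBar N} {P Q : MvPolynomial (Divs N) Qbar}
    (hQ : evalField Qbar N Q ≠ 0) (hx : x * evalField Qbar N Q = evalField Qbar N P) :
    realF N x = algebraMap Hol Mero (evalHol N P) / algebraMap Hol Mero (evalHol N Q) :=
  realFFun_eq N hQ hx

@[simp] theorem realF_evalField (P : MvPolynomial (Divs N) Qbar) :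
    realF N (evalField Qbar N P) = algebraMap Hol Mero (evalHol N P) := by
  rw [realF_eq N (P := P) (Q := 1) (by simp) (by simp), map_one, map_one, div_one]

theorem realF_algebraMap (c : Qbar) :
    realF N (algebraMap Qbar (modularFunctionFieldBar N) c) =
      algebraMap Hol Mero (algebraMap ℂ Hol (algebraMap Qbar ℂ c)) := by
  rw [show algebraMap Qbar (modularFunctionFieldBar N) c = evalField Qbar N (MvPolynomial.C c) from
    ((evalField Qbar N).commutes c).symm, realF_evalField]
  exact congrArg _ (Subtype.ext ((evalFun Qbar N).commutes c))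

omit [NeZero N] in
theorem evalHol_X (i : Divs N) :
    (evalHol N (MvPolynomial.X i) : ℍ → ℂ) = jAt i.1 := by
  simp [evalFun]

omit [Algebra Qbar ℂ] in
theorem realF_hom_ext {φ ψ : modularFunctionFieldBar N →+* Mero}
    (hC : ∀ c, φ (algebraMap Qbar _ c) = ψ (algebraMap Qbar _ c))
    (hX : ∀ i, φ (gen Qbar N i) = ψ (gen Qbar N i)) : φ = ψ := by
  have h : φ.comp (evalField Qbar N).toRingHom = ψ.comp (evalField Qbar N).toRingHom := by
    refine MvPolynomial.ringHom_ext (fun c => ?_) fun i => ?_
    · show φ (evalField Qbar N (MvPolynomial.C c)) = ψ (evalField Qbar N (MvPolynomial.C c))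
      rw [MvPolynomial.C_apply, show (MvPolynomial.monomial 0) c = algebraMap Qbar _ c from rfl,
        (evalField Qbar N).commutes]
      exact hC c
    · simpa using hX i
  refine RingHom.ext fun x => ?_
  obtain ⟨P, Q, -, rfl⟩ := exists_eq_div Qbar N x
  have hP := RingHom.congr_fun h P
  have hQ := RingHom.congr_fun h Q
  simp only [RingHom.comp_apply, AlgHom.toRingHom_eq_coe, RingHom.coe_coe] at hP hQ
  rw [map_div₀, map_div₀, hP, hQ]

/-- The realisation is invariant under `Γ₀(N)`. -/
theorem actSL_realF {γ : SL(2, ℤ)} (hγ : γ ∈ Gamma0 N) (x : modularFunctionFieldBar N) :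
    actSL γ (realF N x) = realF N x := by
  obtain ⟨P, Q, hQ, hx⟩ := exists_mul_eq N x
  have h : ∀ R, Hol.comp γ (det_SL_pos γ) (evalHol N R) = evalHol N R := fun R =>
    Subtype.ext (funext fun τ => evalFun_smul_of_mem_Gamma0 R hγ τ)
  rw [realF_eq N hQ hx, map_div₀, actSL, actM_algebraMap, actM_algebraMap, h, h]

variable {N}

omit [Algebra Qbar ℂ] in
theorem gen_val_eq (i : Divs N) :
    (gen Qbar N i : LaurentSeries Qbar) = qExpand Qbar i.1 (jqModC Qbar) := rfl

/-- Compatibility of the realisation with `f(τ) ↦ f(dτ)`. -/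
theorem realF_scaled {M d : ℕ} [NeZero M] [NeZero d] (h : N * d ∣ M)
    (x : modularFunctionFieldBar N) :
    realF M (scaled h x) = actM _ (diag_pos d) (realF N x) := by
  refine RingHom.congr_fun (f := (realF M).comp (scaled h).toRingHom)
    (g := (actM _ (diag_pos d)).comp (realF N)) (realF_hom_ext N (fun c => ?_) fun i => ?_) x
  · show realF M (scaled h (algebraMap Qbar _ c)) = actM _ _ (realF N (algebraMap Qbar _ c))
    rw [(scaled h).commutes, realF_algebraMap, realF_algebraMap, actM_algebraMap]
    rfl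
  · have hdi : d * i.1 ∈ M.divisors := Nat.mem_divisors.mpr
      ⟨dvd_trans (dvd_trans (mul_dvd_mul_left d (Nat.dvd_of_mem_divisors i.2))
        (dvd_of_eq (mul_comm d N))) h, NeZero.ne M⟩
    have hgen : scaled h (gen Qbar N i) = gen Qbar M ⟨d * i.1, hdi⟩ := by
      refine Subtype.ext ?_
      rw [coe_scaled, gen_val_eq, gen_val_eq]
      have : NeZero (d * i.1) := ⟨Nat.mul_ne_zero (NeZero.ne d) (NeZero.ne i.1)⟩
      exact qExpand_qExpand i.1 d _
    show realF M (scaled h (gen Qbar N i)) = actM _ _ (realF N (gen Qbar N i))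
    rw [hgen, ← evalField_X, ← evalField_X, realF_evalField, realF_evalField, actM_algebraMap]
    refine congrArg _ (Subtype.ext ?_)
    rw [evalHol_X]
    funext τ
    rw [Hol.comp_apply, evalHol_X]
    have : NeZero (d * i.1) := ⟨Nat.mul_ne_zero (NeZero.ne d) (NeZero.ne i.1)⟩
    show jFun (scaleH (d * i.1) τ) = jFun (scaleH i.1 (ModularForm.heckeDiagMatrix d • τ))
    refine congrArg jFun (UpperHalfPlane.ext ?_)
    rw [coe_scaleH, coe_scaleH, ModularForm.coe_heckeDiagMatrix_smul (NeZero.ne d)]
    push_cast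
    ring

/-- `h` is represented by the holomorphic function `H`. -/
def Rep (N : ℕ) [NeZero N] (h : modularFunctionFieldBar N) (H : Hol) : Prop :=
  realF N h = algebraMap Hol Mero H

theorem rep_evalField (P : MvPolynomial (Divs N) Qbar) :
    Rep N (evalField Qbar N P) (evalHol N P) := realF_evalField N P

/-- The function representing a modular function is invariant under `Γ₀(N)`. -/
theorem Rep.invariant {h : modularFunctionFieldBar N} {H : Hol} (hr : Rep N h H) {γ : SL(2, ℤ)}
    (hγ : γ ∈ Gamma0 N) : Hol.comp γ (det_SL_pos γ) H = H := by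
  apply IsFractionRing.injective Hol Mero
  rw [← hr, ← actM_algebraMap]
  show actSL γ (algebraMap Hol Mero H) = _
  rw [← hr, actSL_realF N hγ]

/-- A function representing a nonzero modular function is nonzero. -/
theorem Rep.ne_zero {h : modularFunctionFieldBar N} {H : Hol} (hr : Rep N h H) (h0 : h ≠ 0) :
    H ≠ 0 := by
  rintro rfl
  rw [Rep, map_zero] at hr
  exact h0 ((map_eq_zero _).mp hr)

variable [FLTAgent.FFBasic.IsFunctionField Qbar (modularFunctionFieldBar N)]

/-- If the divisor of `h` is a multiple of `n` then so is every order of its representative. -/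
theorem Rep.dvd_ordI {h : modularFunctionFieldBar N} {H : Hol} (hr : Rep N h H) {n : ℤ}
    (hdvd : ∀ v : Place Qbar (modularFunctionFieldBar N), n ∣ v.ord h) (τ : ℍ) :
    n ∣ Hol.ordI H τ := by
  rcases eq_or_ne h 0 with rfl | h0
  · have : H = 0 := by
      apply IsFractionRing.injective Hol Mero
      rw [← hr, map_zero, map_zero]
    have ht : Hol.order (0 : Hol) τ = ⊤ :=
      analyticOrderAt_eq_top.mpr (Filter.Eventually.of_forall fun _ => rfl)
    simp [this, Hol.ordI, ht]
  have key : ∀ x : modularFunctionFieldBar N, x ≠ 0 → ∀ A B : Hol, B ≠ 0 →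
      realF N x = algebraMap Hol Mero A / algebraMap Hol Mero B → A ≠ 0 := by
    intro x hx A B hB he hA
    rw [hA, map_zero, zero_div] at he
    exact hx ((map_eq_zero _).mp he)
  have hrep : ∀ x : modularFunctionFieldBar N, ∃ A B : Hol, B ≠ 0 ∧
      realF N x = algebraMap Hol Mero A / algebraMap Hol Mero B := fun x => by
    obtain ⟨P, Q, hQ, hx⟩ := exists_mul_eq N x
    exact ⟨_, _, mt (evalHol_eq_zero_iff N Q).mp hQ, realF_eq N hQ hx⟩
  choose A B hB hAB using hrep
  let w : modularFunctionFieldBar N → ℤ := fun x => Hol.ordI (A x) τ - Hol.ordI (B x) τ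
  have hw : ∀ x, x ≠ 0 → ∀ A' B' : Hol, B' ≠ 0 →
      realF N x = algebraMap Hol Mero A' / algebraMap Hol Mero B' →
      w x = Hol.ordI A' τ - Hol.ordI B' τ := by
    intro x hx A' B' hB' he
    have e : A x * B' = A' * B x := by
      apply IsFractionRing.injective Hol Mero
      rw [map_mul, map_mul, ← div_eq_div_iff (algebraMap_ne_zero' (hB x))
        (algebraMap_ne_zero' hB'), ← hAB x, ← he]
    have := congrArg (fun f => Hol.ordI f τ) e
    simp only [Hol.ordI_mul (key x hx _ _ (hB x) (hAB x)) hB',
      Hol.ordI_mul (key x hx _ _ hB' he) (hB x)] at this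
    simp only [w]
    omega
  have hval : w h = Hol.ordI H τ := by
    rw [hw h h0 H 1 one_ne_zero (by rw [map_one, div_one]; exact hr), Hol.ordI_one, sub_zero]
  rw [← hval]
  refine dvd_valuation (K := Qbar) w ?_ ?_ ?_ h0 hdvd
  · intro x y hx hy
    rw [hw (x * y) (mul_ne_zero hx hy) (A x * A y) (B x * B y) (mul_ne_zero (hB x) (hB y))
      (by rw [map_mul, map_mul, map_mul, hAB x, hAB y, div_mul_div_comm]),
      Hol.ordI_mul (key x hx _ _ (hB x) (hAB x)) (key y hy _ _ (hB y) (hAB y)),
      Hol.ordI_mul (hB x) (hB y)]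
    simp only [w]
    ring
  · intro x y hx hy hxy
    have he : realF N (x + y) = algebraMap Hol Mero (A x * B y + B x * A y) /
        algebraMap Hol Mero (B x * B y) := by
      rw [map_add, hAB x, hAB y, div_add_div _ _ (algebraMap_ne_zero' (hB x))
        (algebraMap_ne_zero' (hB y)), map_add, map_mul, map_mul, map_mul]
    have hne := key (x + y) hxy _ _ (mul_ne_zero (hB x) (hB y)) he
    rw [hw (x + y) hxy _ _ (mul_ne_zero (hB x) (hB y)) he]
    have hge := Hol.ordI_add_ge hne τ
    rw [Hol.ordI_mul (key x hx _ _ (hB x) (hAB x)) (hB y),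
      Hol.ordI_mul (hB x) (key y hy _ _ (hB y) (hAB y))] at hge
    rw [Hol.ordI_mul (hB x) (hB y)]
    simp only [w]
    omega
  · intro c hc
    have hc' : algebraMap Qbar (modularFunctionFieldBar N) c ≠ 0 := by simpa using hc
    rw [hw _ hc' (algebraMap ℂ Hol (algebraMap Qbar ℂ c)) 1 one_ne_zero
      (by rw [realF_algebraMap, map_one, div_one]), Hol.ordI_one, sub_zero]
    have hne : (algebraMap Qbar ℂ c : ℂ) ≠ 0 := by simpa using hc
    rw [Hol.ordI, Hol.order,
      ((Hol.analyticAt _ τ).analyticOrderAt_eq_zero).mpr (by simpa using hne)]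
    rfl

end FLTAgent.HeckeJacobian

end
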