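import Fermat.Agent.LevelM.LevelOne
import Fermat.Agent.HeckeJacobian.Realisation
import Fermat.Agent.Periods.Primitive
import Mathlib.RingTheory.RootsOfUnity.Complex
import Mathlib.RingTheory.Polynomial.Cyclotomic.Basic
import Mathlib.Topology.Connected.TotallyDisconnected
import Mathlib.Analysis.SpecialFunctions.Complex.Log
import Mathlib.Analysis.SpecialFunctions.Complex.LogDeriv

/-!
# Characters of holomorphic roots

A holomorphic `n`-th root of a modular function transforms under `Γ₀(N)` by a character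
(`exists_transformsBy`), which is trivial on parabolic elements when the divisor of the function
is divisible by `n` (`transformsBy_parabolic`).
-/

set_option autoImplicit false

noncomputable section

open UpperHalfPlane CongruenceSubgroup AlgebraicCurve ModularCurve Filter Topology
open scoped Manifold MatrixGroups

namespace FLTAgent.HeckeJacobian

open FLTAgent.ModularFF
open FLTAgent.LevelM (HasExp hasExp_of_hasLaurent)

local notation "Qbar" => AlgebraicClosure ℚ
local notation "𝕢" => Function.Periodic.qParam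

/-- `f ↦ f ∘ γ`. -/
abbrev actH (γ : SL(2, ℤ)) : Hol →ₐ[ℂ] Hol := Hol.comp γ (det_SL_pos γ)

theorem actH_apply (γ : SL(2, ℤ)) (f : Hol) (τ : ℍ) :
    (actH γ f : ℍ → ℂ) τ = (f : ℍ → ℂ) (γ • τ) := rfl

theorem actH_mul (γ δ : SL(2, ℤ)) (f : Hol) : actH (γ * δ) f = actH δ (actH γ f) :=
  Subtype.ext (funext fun τ => by simp only [actH_apply, mul_smul])

theorem actH_one (f : Hol) : actH 1 f = f :=
  Subtype.ext (funext fun τ => by simp only [actH_apply, one_smul])

/-- Equal powers in `Hol` differ by a constant. -/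
theorem exists_smul_of_pow_eq {m : ℕ} (hm : m ≠ 0) {κ : ℂ} (hκ : κ ≠ 0) {A B : Hol}
    (h : A ^ m = κ • B ^ m) : ∃ ζ : ℂ, ζ ≠ 0 ∧ A = ζ • B := by
  classical
  obtain ⟨r, hr⟩ := IsAlgClosed.exists_pow_nat_eq κ (Nat.pos_of_ne_zero hm)
  have hω := (Complex.isPrimitiveRoot_exp m hm).map_of_injective
    (f := algebraMap ℂ Hol) (algebraMap ℂ Hol).injective
  have h' : A ^ m - (r • B) ^ m = 0 := by rw [smul_pow, hr, ← h, sub_self]
  rw [hω.pow_sub_pow_eq_prod_sub_mul A (r • B) (Nat.pos_of_ne_zero hm),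
    Finset.prod_eq_zero_iff] at h'
  obtain ⟨η, hη, hη0⟩ := h'
  have : NeZero m := ⟨hm⟩
  rw [Polynomial.mem_nthRootsFinset (Nat.pos_of_ne_zero hm)] at hη
  obtain ⟨i, -, rfl⟩ := hω.eq_pow_of_pow_eq_one hη
  have hr0 : r ≠ 0 := fun h0 => hκ (by rw [← hr, h0, zero_pow hm])
  refine ⟨Complex.exp (2 * Real.pi * Complex.I / m) ^ i * r,
    mul_ne_zero (pow_ne_zero _ (Complex.exp_ne_zero _)) hr0, ?_⟩
  rw [sub_eq_zero] at hη0
  rw [hη0, mul_smul, ← map_pow, ← Algebra.smul_def]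

theorem smul_inj_of_ne_zero {A : Hol} (hA : A ≠ 0) {c d : ℂ} (h : c • A = d • A) : c = d := by
  rw [Algebra.smul_def, Algebra.smul_def] at h
  exact (algebraMap ℂ Hol).injective (mul_right_cancel₀ hA h)

/-- `a` transforms under `Γ₀(N)` by the character `c`. -/
def TransformsBy (N : ℕ) (a : Hol) (c : Additive (Gamma0 N) →+ Additive ℂˣ) : Prop :=
  ∀ γ : Gamma0 N, actH γ a = ((Additive.toMul (c (Additive.ofMul γ)) : ℂˣ) : ℂ) • a

theorem TransformsBy.unique {N : ℕ} {a : Hol} (ha : a ≠ 0)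
    {c c' : Additive (Gamma0 N) →+ Additive ℂˣ} (h : TransformsBy N a c)
    (h' : TransformsBy N a c') : c = c' := by
  refine AddMonoidHom.ext fun g => ?_
  obtain ⟨γ, rfl⟩ := Additive.ofMul.surjective g
  exact Additive.toMul.injective (Units.ext (smul_inj_of_ne_zero ha ((h γ).symm.trans (h' γ))))

theorem exists_transformsBy {N n : ℕ} (hn : n ≠ 0) {a : Hol} (ha : a ≠ 0)
    (hinv : ∀ γ ∈ Gamma0 N, actH γ (a ^ n) = a ^ n) :
    ∃ c, TransformsBy N a c := by
  have h : ∀ γ : Gamma0 N, ∃ u : ℂˣ, actH γ a = (u : ℂ) • a := fun γ => by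
    obtain ⟨ζ, hζ, he⟩ := exists_smul_of_pow_eq hn one_ne_zero (A := actH γ a) (B := a)
      (by rw [one_smul, ← map_pow, hinv γ γ.2])
    exact ⟨Units.mk0 ζ hζ, he⟩
  choose u hu using h
  refine ⟨AddMonoidHom.mk' (fun g => Additive.ofMul (u (Additive.toMul g))) fun g g' => ?_, hu⟩
  refine Additive.toMul.injective (Units.ext (smul_inj_of_ne_zero ha ?_))
  show (u (Additive.toMul g * Additive.toMul g') : ℂ) • a =
    ((u (Additive.toMul g) * u (Additive.toMul g') : ℂˣ) : ℂ) • a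
  rw [← hu, Subgroup.coe_mul, actH_mul, hu, map_smul, hu, smul_smul, Units.val_mul]

theorem tendsto_div_qParam_pow {N : ℕ} (hN : 0 < N) {f : ℍ → ℂ} {S : LaurentSeries ℂ}
    (h : HasLaurent (N : ℝ) f S) :
    Tendsto (fun τ : ℍ => f τ / 𝕢 (N : ℝ) τ ^ S.order) atImInfty (𝓝 (S.coeff S.order)) := by
  obtain ⟨G, hG, hG0, hGeq⟩ := (hasExp_of_hasLaurent h).exists_analyticAt hN (m := S.order)
    fun n hn => HahnSeries.coeff_eq_zero_of_lt_order hn
  rw [← hG0]
  refine (hG.continuousAt.tendsto.comp (qParam_tendsto_atImInfty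
    (show (0 : ℝ) < N by exact_mod_cast hN))).congr' ?_
  filter_upwards [hGeq] with τ hτ
  rw [Function.comp_apply, hτ, mul_div_cancel_left₀]
  exact zpow_ne_zero _ (Complex.exp_ne_zero _)

variable [Algebra Qbar ℂ]
variable {N : ℕ} [NeZero N]

variable (N) in
/-- The order of a function at the cusp `δ∞`, in the parameter `q_N`. -/
def cuspOrder (δ : SL(2, ℤ)) (x : modularFunctionFieldBar N) : ℤ :=
  (expHom Qbar (cuspRule N) δ x).order

theorem tendsto_rep (δ : SL(2, ℤ)) {h : modularFunctionFieldBar N} {H : Hol} (hr : Rep N h H)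
    (h0 : h ≠ 0) :
    ∃ c : ℂ, c ≠ 0 ∧ Tendsto
      (fun τ : ℍ => (H : ℍ → ℂ) (δ • τ) / 𝕢 (N : ℝ) τ ^ cuspOrder N δ h) atImInfty (𝓝 c) := by
  obtain ⟨P, Q, hQ, hx⟩ := exists_mul_eq N h
  have hHQ : H * evalHol N Q = evalHol N P := by
    apply IsFractionRing.injective Hol Mero
    rw [map_mul, ← hr, ← realF_evalField, ← realF_evalField, ← map_mul, hx]
  have hP : evalField Qbar N P ≠ 0 := hx ▸ mul_ne_zero h0 hQ
  set e := expHom Qbar (cuspRule N) δ with he
  have hne : ∀ y : modularFunctionFieldBar N, y ≠ 0 → e y ≠ 0 := fun y hy =>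
    (map_ne_zero e).mpr hy
  have hP' := tendsto_div_qParam_pow (NeZero.pos N) (rel_expHom (L := Qbar) (cuspRule N) δ P)
  have hQ' := tendsto_div_qParam_pow (NeZero.pos N) (rel_expHom (L := Qbar) (cuspRule N) δ Q)
  have hcQ : (e (evalField Qbar N Q)).coeff (e (evalField Qbar N Q)).order ≠ 0 :=
    HahnSeries.coeff_order_eq_zero.not.mpr (hne _ hQ)
  have hcP : (e (evalField Qbar N P)).coeff (e (evalField Qbar N P)).order ≠ 0 :=
    HahnSeries.coeff_order_eq_zero.not.mpr (hne _ hP)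
  refine ⟨_, div_ne_zero hcP hcQ, (hP'.div hQ' hcQ).congr' ?_⟩
  filter_upwards [hQ'.eventually_ne hcQ] with τ hτ
  have hq : 𝕢 (N : ℝ) (τ : ℂ) ≠ 0 := Complex.exp_ne_zero _
  have hQτ : evalFun Qbar N Q (δ • τ) ≠ 0 := fun h' => hτ (by rw [h', zero_div])
  have hord : (e (evalField Qbar N P)).order =
      cuspOrder N δ h + (e (evalField Qbar N Q)).order := by
    rw [← hx, map_mul, HahnSeries.order_mul (hne _ h0) (hne _ hQ)]
    rfl
  have hval : (H : ℍ → ℂ) (δ • τ) * evalFun Qbar N Q (δ • τ) = evalFun Qbar N P (δ • τ) :=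
    congrFun (congrArg Subtype.val hHQ) (δ • τ)
  simp only [Pi.div_apply]
  rw [← hval, hord, zpow_add₀ hq]
  simp only [he]
  field_simp

omit [Algebra Qbar ℂ] in
theorem qParam_vadd (N : ℕ) (x : ℝ) (τ : ℍ) :
    𝕢 (N : ℝ) ((x +ᵥ τ : ℍ) : ℂ) =
      Complex.exp (2 * Real.pi * Complex.I * x / N) * 𝕢 (N : ℝ) τ := by
  rw [Function.Periodic.qParam, Function.Periodic.qParam, ← Complex.exp_add, coe_vadd]
  congr 1
  push_cast
  ring

omit [Algebra Qbar ℂ] in
theorem tendsto_vadd_atImInfty (x : ℝ) :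
    Tendsto (fun w : ℍ => x +ᵥ w) atImInfty atImInfty := by
  rw [atImInfty, tendsto_comap_iff]
  exact tendsto_comap.congr fun w => by simp

/-- If `δ∞` is fixed by an element of `Γ₀(N)` translating by `m`, then `N` divides `m` times every
order at `δ∞`. -/
theorem dvd_mul_cuspOrder {γ δ : SL(2, ℤ)} (hγ : γ ∈ Gamma0 N) {m : ℤ}
    (hconj : ∀ w : ℍ, γ • δ • w = δ • ((m : ℝ) +ᵥ w)) {h : modularFunctionFieldBar N}
    (h0 : h ≠ 0) : (N : ℤ) ∣ m * cuspOrder N δ h := by
  obtain ⟨P, Q, hQ, hx⟩ := exists_mul_eq N h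
  suffices key : ∀ R : MvPolynomial (Divs N) Qbar, evalField Qbar N R ≠ 0 →
      (N : ℤ) ∣ m * cuspOrder N δ (evalField Qbar N R) by
    have hP : evalField Qbar N P ≠ 0 := hx ▸ mul_ne_zero h0 hQ
    have := dvd_sub (key P hP) (key Q hQ)
    rwa [← mul_sub, cuspOrder, cuspOrder, ← hx, map_mul,
      HahnSeries.order_mul ((map_ne_zero _).mpr h0) ((map_ne_zero _).mpr hQ),
      add_sub_cancel_right] at this
  intro R hR
  obtain ⟨c, hc, hlim⟩ := tendsto_rep δ (rep_evalField R) hR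
  set W := cuspOrder N δ (evalField Qbar N R)
  set ε := Complex.exp (2 * Real.pi * Complex.I * ((m : ℝ) : ℂ) / N) ^ W with hε
  have h2 : Tendsto (fun τ : ℍ => (evalHol N R : ℍ → ℂ) (δ • τ) / 𝕢 (N : ℝ) τ ^ W) atImInfty
      (𝓝 (ε * c)) := by
    refine ((hlim.comp (tendsto_vadd_atImInfty (m : ℝ))).const_mul ε).congr fun τ => ?_
    rw [Function.comp_apply, ← hconj, qParam_vadd, mul_zpow, ← hε, coe_evalHol,
      evalFun_smul_of_mem_Gamma0 R hγ]
    have hε0 : ε ≠ 0 := zpow_ne_zero _ (Complex.exp_ne_zero _)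
    field_simp
  have h1 : ε = 1 := by
    have := tendsto_nhds_unique h2 hlim
    exact (mul_left_eq_self₀.mp this).resolve_right hc
  rw [hε, ← Complex.exp_int_mul, Complex.exp_eq_one_iff] at h1
  obtain ⟨k, hk⟩ := h1
  refine ⟨k, ?_⟩
  have hN : (N : ℂ) ≠ 0 := Nat.cast_ne_zero.mpr (NeZero.ne N)
  have h3 : ((m * W : ℤ) : ℂ) = ((N * k : ℤ) : ℂ) := by
    push_cast
    field_simp at hk
    have h2pi : (2 : ℂ) * Real.pi * Complex.I ≠ 0 := Complex.two_pi_I_ne_zero
    apply mul_left_cancel₀ h2pi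
    push_cast at hk
    linear_combination 2 * (Real.pi : ℂ) * Complex.I * hk
  exact_mod_cast h3

variable [FLTAgent.FFBasic.IsFunctionField Qbar (modularFunctionFieldBar N)]

/-- The order at `δ∞` in the width variable of a function with divisor divisible by `n` is
divisible by `n`. -/
theorem dvd_cuspOrder_of_dvd {γ δ : SL(2, ℤ)} (hγ : γ ∈ Gamma0 N) {m : ℤ}
    (hconj : ∀ w : ℍ, γ • δ • w = δ • ((m : ℝ) +ᵥ w)) {h : modularFunctionFieldBar N}
    (h0 : h ≠ 0) {n : ℤ} (hdvd : ∀ v : Place Qbar (modularFunctionFieldBar N), n ∣ v.ord h) :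
    n * N ∣ m * cuspOrder N δ h := by
  set e := expHom Qbar (cuspRule N) δ
  let w : modularFunctionFieldBar N → ℤ := fun x => |m| * cuspOrder N δ x / N
  have hN : (N : ℤ) ≠ 0 := by exact_mod_cast NeZero.ne N
  have habs : ∀ x, x ≠ 0 → (N : ℤ) ∣ |m| * cuspOrder N δ x := fun x hx => by
    rcases abs_choice m with hm | hm <;> rw [hm]
    · exact dvd_mul_cuspOrder hγ hconj hx
    · rw [neg_mul]; exact (dvd_mul_cuspOrder hγ hconj hx).neg_right
  have hwN : ∀ x, x ≠ 0 → w x * N = |m| * cuspOrder N δ x := fun x hx =>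
    Int.ediv_mul_cancel (habs x hx)
  have hw : n ∣ w h := by
    refine dvd_valuation (K := Qbar) w ?_ ?_ ?_ h0 hdvd
    · intro x y hx hy
      apply mul_right_cancel₀ hN
      rw [add_mul, hwN _ (mul_ne_zero hx hy), hwN x hx, hwN y hy, cuspOrder, map_mul,
        HahnSeries.order_mul ((map_ne_zero e).mpr hx) ((map_ne_zero e).mpr hy), mul_add]
      rfl
    · intro x y hx hy hxy
      have hle : min (cuspOrder N δ x) (cuspOrder N δ y) ≤ cuspOrder N δ (x + y) := by
        rw [cuspOrder, cuspOrder, cuspOrder, map_add]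
        exact HahnSeries.min_order_le_order_add (by rw [← map_add]; exact (map_ne_zero e).mpr hxy)
      have hle' := mul_le_mul_of_nonneg_left hle (abs_nonneg m)
      rw [mul_min_of_nonneg _ _ (abs_nonneg m), ← hwN x hx, ← hwN y hy, ← hwN _ hxy,
        ← min_mul_of_nonneg _ _ (show (0 : ℤ) ≤ (N : ℤ) by positivity)] at hle'
      exact le_of_mul_le_mul_right hle' (by exact_mod_cast NeZero.pos N)
    · intro c hc
      have h1 : cuspOrder N δ (algebraMap Qbar _ c) = 0 := by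
        rw [cuspOrder, AlgHom.commutes, algebraMap_laurent_complex, HahnSeries.order_C]
      simp [w, h1]
  have h3 : n * N ∣ |m| * cuspOrder N δ h := by
    rw [← hwN h h0]
    exact mul_dvd_mul_right hw _
  rcases abs_choice m with hm | hm <;> rw [hm] at h3
  · exact h3
  · rwa [neg_mul, dvd_neg] at h3

/-- A root of a function with divisor divisible by `n` transforms trivially under parabolic
elements. -/
theorem transformsBy_parabolic {n : ℕ} (hn : n ≠ 0) {h : modularFunctionFieldBar N} {H a : Hol}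
    (hr : Rep N h H) (h0 : h ≠ 0)
    (hdvd : ∀ v : Place Qbar (modularFunctionFieldBar N), (n : ℤ) ∣ v.ord h) (ha : a ^ n = H)
    {c : Additive (Gamma0 N) →+ Additive ℂˣ} (hc : TransformsBy N a c) {γ : Gamma0 N}
    (hγ : (((γ : SL(2, ℤ))) : Matrix (Fin 2) (Fin 2) ℤ).trace ^ 2 = 4) :
    c (Additive.ofMul γ) = 0 := by
  obtain ⟨δ, hδ⟩ := FLTAgent.Periods.exists_conj_lowerLeft_eq_zero hγ
  obtain ⟨m, hm⟩ := ModularGroup.exists_eq_T_zpow_of_c_eq_zero hδ
  have hconj : ∀ w : ℍ, (γ : SL(2, ℤ)) • δ • w = δ • ((m : ℝ) +ᵥ w) := fun w => by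
    rw [← modular_T_zpow_smul, ← hm w]
    simp [mul_smul]
  set ζ : ℂ := ((Additive.toMul (c (Additive.ofMul γ)) : ℂˣ) : ℂ) with hζdef
  obtain ⟨L, hL, hlim⟩ := tendsto_rep δ hr h0
  set W := cuspOrder N δ h
  obtain ⟨k, hk⟩ := dvd_cuspOrder_of_dvd γ.2 hconj h0 hdvd
  have hN : (N : ℂ) ≠ 0 := Nat.cast_ne_zero.mpr (NeZero.ne N)
  have hn' : (n : ℂ) ≠ 0 := Nat.cast_ne_zero.mpr hn
  -- an `n`-th root of `q ^ W`
  let E : ℍ → ℂ := fun w => Complex.exp (2 * Real.pi * Complex.I * W * (w : ℂ) / ((n : ℂ) * N))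
  have hE : ∀ w : ℍ, E w ^ n = 𝕢 (N : ℝ) w ^ W := fun w => by
    simp only [E, Function.Periodic.qParam, ← Complex.exp_nat_mul, ← Complex.exp_int_mul]
    congr 1
    push_cast
    field_simp
  have hEper : ∀ w : ℍ, E ((m : ℝ) +ᵥ w) = E w := fun w => by
    simp only [E]
    rw [Complex.exp_eq_exp_iff_exists_int]
    refine ⟨k, ?_⟩
    have hk' : (m : ℂ) * W = (n : ℂ) * N * k := by exact_mod_cast hk
    rw [coe_vadd]
    push_cast
    field_simp
    linear_combination hk'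
  have hE0 : ∀ w : ℍ, E w ≠ 0 := fun w => Complex.exp_ne_zero _
  let b : ℍ → ℂ := fun w => (a : ℍ → ℂ) (δ • w) / E w
  have hpow : ∀ w : ℍ, b w ^ n = (H : ℍ → ℂ) (δ • w) / 𝕢 (N : ℝ) w ^ W := fun w => by
    simp only [b, div_pow, hE, ← ha]
    rfl
  have hshift : ∀ w : ℍ, b ((m : ℝ) +ᵥ w) = ζ * b w := fun w => by
    simp only [b, hEper, ← hconj]
    rw [show (a : ℍ → ℂ) ((γ : SL(2, ℤ)) • δ • w) = ζ * (a : ℍ → ℂ) (δ • w) from
      congrFun (congrArg Subtype.val (hc γ)) (δ • w), mul_div_assoc]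
  have hper : ∀ w : ℍ, (b ((m : ℝ) +ᵥ w)) ^ n = b w ^ n := fun w => by
    rw [hpow, hpow, ← hconj, qParam_vadd, mul_zpow]
    have e1 : Complex.exp (2 * Real.pi * Complex.I * ((m : ℝ) : ℂ) / N) ^ W = 1 := by
      rw [← Complex.exp_int_mul, Complex.exp_eq_one_iff]
      refine ⟨n * k, ?_⟩
      have hk' : (m : ℂ) * W = (n : ℂ) * N * k := by exact_mod_cast hk
      push_cast
      field_simp
      linear_combination hk'
    rw [e1, one_mul, show (H : ℍ → ℂ) ((γ : SL(2, ℤ)) • δ • w) = (H : ℍ → ℂ) (δ • w) from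
      congrFun (congrArg Subtype.val (hr.invariant γ.2)) (δ • w)]
  have hlim' : Tendsto (fun w => b w ^ n / L) atImInfty (𝓝 1) := by
    have := (hlim.congr fun w => (hpow w).symm).div_const L
    rwa [div_self hL] at this
  obtain ⟨Y, hY⟩ := (UpperHalfPlane.atImInfty_mem _).mp
    (hlim'.eventually (Metric.ball_mem_nhds 1 one_half_pos))
  obtain ⟨y, hy, hy0⟩ : ∃ y : ℝ, Y ≤ y ∧ 0 < y :=
    ⟨|Y| + 1, by linarith [le_abs_self Y], by positivity⟩
  let w₀ : ℍ := ⟨y * Complex.I, by simpa using hy0⟩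
  have hball : ∀ t : ℝ, b (t +ᵥ w₀) ^ n / L ∈ Metric.ball (1 : ℂ) (1 / 2) := fun t =>
    hY _ (by rw [vadd_im]; simpa [w₀, UpperHalfPlane.im] using hy)
  have hslit : ∀ t : ℝ, b (t +ᵥ w₀) ^ n / L ∈ Complex.slitPlane := fun t =>
    Complex.ball_one_subset_slitPlane (Metric.ball_subset_ball (by norm_num) (hball t))
  obtain ⟨ρ, hρ⟩ := IsAlgClosed.exists_pow_nat_eq L (Nat.pos_of_ne_zero hn)
  let u : ℝ → ℂ := fun t =>
    b (t +ᵥ w₀) / (ρ * Complex.exp (Complex.log (b (t +ᵥ w₀) ^ n / L) / n))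
  have hu : ∀ t, u t ^ n = 1 := fun t => by
    have hne : b (t +ᵥ w₀) ^ n / L ≠ 0 := Complex.slitPlane_ne_zero (hslit t)
    simp only [u, div_pow, mul_pow, hρ, ← Complex.exp_nat_mul, mul_div_cancel₀ _ hn',
      Complex.exp_log hne]
    rw [mul_div_cancel₀ _ hL, div_self]
    exact fun h' => hne (by rw [h', zero_div])
  have hvc : Continuous fun t : ℝ => t +ᵥ w₀ := by
    rw [UpperHalfPlane.isEmbedding_coe.continuous_iff]
    show Continuous fun t : ℝ => ((t +ᵥ w₀ : ℍ) : ℂ)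
    simp only [coe_vadd]
    exact Complex.continuous_ofReal.add continuous_const
  have hbc : Continuous b := by
    refine Continuous.div₀ ?_ ?_ hE0
    · exact (Hol.mdiff a).continuous.comp (mdifferentiable_smul (det_SL_pos δ)).continuous
    · exact Complex.continuous_exp.comp
        ((continuous_const.mul continuous_coe).div_const _)
  have hbt : Continuous fun t : ℝ => b (t +ᵥ w₀) := hbc.comp hvc
  have hρ0 : ρ ≠ 0 := fun h' => hL (by rw [← hρ, h', zero_pow hn])
  have huc : Continuous u := by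
    refine hbt.div₀ (continuous_const.mul (Complex.continuous_exp.comp
      ((((hbt.pow n).div_const L).clog hslit).div_const _)))
      fun t => mul_ne_zero hρ0 (Complex.exp_ne_zero _)
  have : Finite {z : ℂ | z ^ n = 1} := Set.Finite.to_subtype
    ((Polynomial.nthRootsFinset n (1 : ℂ)).finite_toSet.subset fun z hz => by
      simpa [Polynomial.mem_nthRootsFinset (Nat.pos_of_ne_zero hn)] using hz)
  have hconst : u (m : ℝ) = u 0 := by
    have := PreconnectedSpace.constant (α := ℝ) inferInstance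
      (f := fun t => (⟨u t, hu t⟩ : {z : ℂ | z ^ n = 1}))
      (Continuous.subtype_mk huc _) (x := (m : ℝ)) (y := 0)
    exact congrArg Subtype.val this
  have hu0 : u 0 ≠ 0 := fun h' => by simpa [h', zero_pow hn] using hu 0
  have key : u (m : ℝ) = ζ * u 0 := by
    simp only [u, zero_vadd]
    rw [hper w₀, hshift w₀]
    ring
  rw [hconst] at key
  have hζ1 : ζ = 1 := (mul_left_eq_self₀.mp key.symm).resolve_right hu0
  exact Additive.toMul.injective (Units.ext hζ1)

end FLTAgent.HeckeJacobian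

end
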